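/-
Ramification of `E[p]` at a prime `p` of good reduction, including `p = 3`.

Supersingular reduction: all nonzero points of `E[p]` have `x` of the same order, so inertia is
tame on them. Ordinary reduction: the points off the line `E[p] ∩ E₁` are integral, translation by
the line moves `x` by exactly the parameter `t` of the line, which forces the break `j < p`.
-/
import Fermat.Agent.MazurP.Defs
import Fermat.Agent.MazurP.EllAtP

/-!
# Ramification of `E[p]` at a prime of good reduction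

`nonempty_ramData_good`: for an odd prime `p ∤ Δ` the local data `MazurP.RamData` exists at every
place over `p`. If all of `E[p]` lies in the formal group, inertia is tame on it
(`not_dvd_card_range_of_top`). Otherwise `exists_wild_data_good` produces a uniformiser and a break
`j < p` for a wild element: translation by the line `E[p] ∩ E₁` moves the `x`-coordinate of the
other points by exactly the parameter of the line (`exists_valuation_add_sub_good`).
-/

set_option autoImplicit false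
set_option linter.style.haveILetI false

noncomputable section

open Polynomial WeierstrassCurve WeierstrassCurve.Affine.Point
open scoped WeierstrassCurve.Affine Pointwise

namespace FLTAgent.AtP

open FLTAgent.EllP
open FLTAgent.MazurP

section Translation

open EllLocal

variable {K : Type*} [Field K] [DecidableEq K] {A : ValuationSubring K}

local notation "π" => IsLocalRing.residue A

/-- Translating an integral point with `2 b + a₁ a + a₃` a unit by a point of `E₁` moves `x` by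
exactly `|t|`, where `|t| ^ 2 = 1 / |x(R)|`. -/
theorem exists_valuation_add_sub_good {W₀ : WeierstrassCurve A} {a b : A} {X Y : K}
    (h₁ : (genCurve A W₀).Nonsingular (a : K) (b : K)) (h₂ : (genCurve A W₀).Nonsingular X Y)
    (hfy : π (2 * b + W₀.a₁ * a + W₀.a₃) ≠ 0) (hX : X ∉ A) {x₃ y₃ : K}
    {h₃ : (genCurve A W₀).Nonsingular x₃ y₃}
    (hsum : (Affine.Point.some (a : K) (b : K) h₁ : (genCurve A W₀).Point) + .some X Y h₂ =
      .some x₃ y₃ h₃) :
    ∃ t : K, A.valuation t < 1 ∧ A.valuation t ^ 2 * A.valuation X = 1 ∧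
      A.valuation (x₃ - a) = A.valuation t := by
  obtain ⟨t, u, hπt, hπu, ht0, rfl, rfl, hE⟩ := exists_scaling h₂.1 hX
  have vu : A.valuation (u : K) = 1 :=
    (A.valuation_eq_one_iff u).mp (isUnit_of_residue_ne_zero A (by rw [hπu]; exact one_ne_zero))
  refine ⟨t, valuation_lt_of_residue_eq_zero A hπt, ?_, ?_⟩
  · rw [map_div₀, map_pow, vu, one_div,
      mul_inv_cancel₀ (pow_ne_zero 2 ((Valuation.ne_zero_iff _).mpr ht0))]
  have hax : (a : K) ≠ (u : K) / (t : K) ^ 2 := fun h => hX (h ▸ a.2)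
  have hu : IsUnit u := isUnit_of_residue_ne_zero A (by rw [hπu]; exact one_ne_zero)
  have hw' : IsUnit (u - a * t ^ 2) :=
    isUnit_of_residue_ne_zero A (by simp [hπu, hπt])
  obtain ⟨i, hi⟩ := hu.exists_right_inv
  obtain ⟨w, hw⟩ := hw'.exists_right_inv
  have hπi : π i = 1 := by simpa [hπu] using congrArg π hi
  have hπw : π w = 1 := by simpa [hπu, hπt] using congrArg π hw
  set g : A := (-W₀.a₃ + W₀.a₄ * t) * i + W₀.a₆ * t ^ 3 * i ^ 2 with hg
  set ν : A := (a - b * t) * w with hν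
  set h' : A := w * (-b + a * (-W₀.a₁ + W₀.a₂ * t + t ^ 2 * g) + a ^ 2 * t) with hh
  set H : A := g + (h' + h') + t * ν ^ 2 + W₀.a₁ * ν with hH
  have hE' : 1 - u + W₀.a₁ * t - W₀.a₂ * t ^ 2 = t ^ 3 * g := by
    rw [hg]
    linear_combination i ^ 2 * hE -
      (1 - u + W₀.a₁ * t - W₀.a₂ * t ^ 2) * (i * u + 1) * hi +
      (-W₀.a₃ * t ^ 3 + W₀.a₄ * t ^ 4) * i * hi
  have hν' : ν - a = t * h' := by
    rw [hν, hh]
    linear_combination a * w * hE' - a * (-hw)
  rw [Affine.Point.add_of_X_ne hax] at hsum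
  simp only [Affine.Point.some.injEq] at hsum
  obtain ⟨hx₃, -⟩ := hsum
  set l := (genCurve A W₀).slope (a : K) ((u : K) / (t : K) ^ 2) b ((u : K) / (t : K) ^ 3) with hl
  have hwK : ((u : K) - a * t ^ 2) * w = 1 := by exact_mod_cast congrArg (fun z : A => (z : K)) hw
  have hlK : l = 1 / (t : K) + t * ν := by
    rw [hl, Affine.slope_of_X_ne hax, div_eq_iff (sub_ne_zero.mpr hax)]
    rw [hν]
    push_cast
    field_simp
    linear_combination ((a : K) - b * t) * (t : K) ^ 2 * hwK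
  have hEK : 1 - (u : K) + W₀.a₁ * t - W₀.a₂ * t ^ 2 = (t : K) ^ 3 * g := by
    exact_mod_cast congrArg (fun z : A => (z : K)) hE'
  have hνK : (ν : K) - a = t * h' := by exact_mod_cast congrArg (fun z : A => (z : K)) hν'
  have hx : x₃ - a = t * H := by
    rw [← hx₃]
    simp only [Affine.addX, map_a₁, map_a₂, ValuationSubring.subtype_apply, hlK, hH]
    push_cast
    field_simp
    linear_combination hEK + 2 * (t : K) ^ 2 * hνK
  have hres : π H = -π (2 * b + W₀.a₁ * a + W₀.a₃) := by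
    simp only [hH, hg, hh, hν, map_add, map_sub, map_neg, map_mul, map_pow, map_ofNat, hπt, hπi,
      hπw]
    ring
  have vH : A.valuation (H : K) = 1 :=
    (A.valuation_eq_one_iff H).mp (isUnit_of_residue_ne_zero A (by
      rw [hres]; exact neg_ne_zero.mpr hfy))
  rw [hx, map_mul, vH, mul_one]

end Translation

local notation "Qb" => AlgebraicClosure ℚ
local notation "Γℚ" => (AlgebraicClosure ℚ ≃ₐ[ℚ] AlgebraicClosure ℚ)

variable {W : WeierstrassCurve ℤ} {A : ValuationSubring (AlgebraicClosure ℚ)}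

theorem toModel_smul_some (σ : Γℚ) {P : QPoint W} {a b : Qb}
    {h : (EllLocal.genCurve A (modelAt A W)).Nonsingular a b}
    (hP : toModel A P = .some a b h) :
    ∃ h', toModel A (σ • P) = .some (σ a) (σ b) h' := by
  have h1 := isConjPoint_toModel (A := A) σ P
  rw [hP] at h1
  exact h1.eq_some

variable {p : ℕ} [Fact p.Prime]

/-- A wild element of inertia on `E[p]`. -/
theorem exists_pow_fix_of_dvd (hΔ : W.Δ ≠ 0)
    (hdvd : p ∣ Nat.card (torsPerm W A p).range) :
    ∃ σ : A.inertiaSubgroupIn ℚ, (∀ P : QTorsion W p, ((σ : Γℚ) ^ p) • P = P) ∧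
      ∃ Q : QTorsion W p, (σ : Γℚ) • Q ≠ Q := by
  have hp : p.Prime := Fact.out
  haveI := finite_range_torsPerm (p := p) (A := A) hΔ
  haveI := Fintype.ofFinite (torsPerm W A p).range
  obtain ⟨g, hg⟩ := exists_prime_orderOf_dvd_card' p hdvd
  obtain ⟨σ, hσg⟩ := g.2
  have hfp : torsPerm W A p (σ ^ p) = 1 := by
    rw [map_pow, hσg, ← SubgroupClass.coe_pow,
      orderOf_dvd_iff_pow_eq_one.mp (dvd_of_eq hg)]; rfl
  refine ⟨σ, torsPerm_eq_one_iff.mp hfp, ?_⟩
  by_contra hall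
  push Not at hall
  have h2 : g = 1 := Subtype.ext (hσg ▸ torsPerm_eq_one_iff.mpr hall)
  rw [h2, orderOf_one] at hg
  exact hp.ne_one hg.symm

section Supersingular

variable (hΔ : W.Δ ≠ 0) (hA : A.LiesOverPrime p) (hp2 : p ≠ 2)
  (htop : (torsionE1 A : Submodule (ZMod p) (QTorsion W p)) = ⊤)

include hΔ hA hp2 htop in
/-- When all of `E[p]` is in the formal group, inertia is tame on it. -/
theorem not_dvd_card_range_of_top : ¬ p ∣ Nat.card (torsPerm W A p).range := by
  classical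
  intro hdvd
  have hp : p.Prime := Fact.out
  have hformal : ∀ P : QTorsion W p, InFormalAt A (P : QPoint W) := fun P =>
    (mem_E1_iff A).1 (show P ∈ torsionE1 A from htop ▸ Submodule.mem_top)
  obtain ⟨σ, hσp, Q, hQ⟩ := exists_pow_fix_of_dvd hΔ hdvd
  set R := (σ : Γℚ) • Q - Q with hRdef
  have hR0 : R ≠ 0 := sub_ne_zero.mpr hQ
  have hQ0 : Q ≠ 0 := fun h => hQ (by rw [h, smul_zero])
  obtain ⟨x, y, hxy, hQe⟩ : ∃ x y h, (Q : QPoint W) = (Affine.Point.some x y h : QPoint W) := by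
    rcases hcase : (Q : QPoint W) with _ | ⟨x, y, h⟩
    · exact absurd (Subtype.ext hcase) hQ0
    · exact ⟨x, y, h, rfl⟩
  obtain ⟨X, Y, hXY, hRe⟩ : ∃ X Y h, (R : QPoint W) = (Affine.Point.some X Y h : QPoint W) := by
    rcases hcase : (R : QPoint W) with _ | ⟨X, Y, h⟩
    · exact absurd (Subtype.ext hcase) hR0
    · exact ⟨X, Y, h, rfl⟩
  have hd : (p ^ 2 - 1) / 2 ≠ 0 := by
    have h4 : 4 ≤ p ^ 2 := by have := hp.two_le; nlinarith
    omega
  have hXx : A.valuation X = A.valuation x := by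
    have h1 := valuation_xCoord_pow W hΔ hp hp2 A hA hformal Q hQ0
    have h2 := valuation_xCoord_pow W hΔ hp hp2 A hA hformal R hR0
    rw [hQe] at h1
    rw [hRe] at h2
    exact (pow_left_inj₀ zero_le zero_le hd).mp
      (mul_right_cancel₀ ((Valuation.ne_zero_iff _).mpr (Nat.cast_ne_zero.mpr hp.ne_zero))
        (h2.trans h1.symm))
  have hxA : x ∉ A := by
    rcases hformal Q with h | h
    · exact absurd (Subtype.ext h) hQ0
    · rwa [hQe] at h
  have hTQ := toModel_some A hxy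
  rw [← hQe] at hTQ
  have hn : (EllLocal.genCurve A (modelAt A W)).Nonsingular x y :=
    (genCurve_modelAt A W).symm ▸ hxy
  obtain ⟨h', hTσQ⟩ := toModel_smul_some (σ : Γℚ) hTQ
  obtain ⟨t, u, hπt, hπu, ht0, hx, hy, -⟩ := EllLocal.exists_scaling hn.1 hxA
  have vu : A.valuation (u : Qb) = 1 := (A.valuation_eq_one_iff u).mp
    (EllLocal.isUnit_of_residue_ne_zero A (by rw [hπu]; exact one_ne_zero))
  have hu0 : (u : Qb) ≠ 0 := fun h => by simp [h] at vu
  have hx0 : x ≠ 0 := by rw [hx]; exact div_ne_zero hu0 (pow_ne_zero _ ht0)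
  have hy0 : y ≠ 0 := by rw [hy]; exact div_ne_zero hu0 (pow_ne_zero _ ht0)
  have hfixQ : ((σ : Γℚ) ^ p) x = x ∧ ((σ : Γℚ) ^ p) y = y := by
    obtain ⟨h'', he⟩ := toModel_smul_some ((σ : Γℚ) ^ p) hTQ
    rw [show ((σ : Γℚ) ^ p) • (Q : QPoint W) = (Q : QPoint W) from congrArg Subtype.val (hσp Q),
      hTQ] at he
    simp only [Affine.Point.some.injEq] at he
    exact ⟨he.1.symm, he.2.symm⟩
  let C : VariableChange Qb := ⟨(Units.mk0 (t : Qb) ht0)⁻¹, 0, 0, 0⟩
  let W₀ := modelAt A W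
  let W₁ : WeierstrassCurve A :=
    ⟨t * W₀.a₁, t ^ 2 * W₀.a₂, t ^ 3 * W₀.a₃, t ^ 4 * W₀.a₄, t ^ 6 * W₀.a₆⟩
  have hC : C • (EllLocal.genCurve A W₀) = EllLocal.genCurve A W₁ := by
    simp only [C, W₁, variableChange_def, inv_inv, Units.val_mk0]
    ext <;> simp
  have eX : ∀ z : Qb, EllLocal.vcX C z = (t : Qb) ^ 2 * z := fun z => by
    simp [EllLocal.vcX, C, inv_inv]
  have eY : ∀ z w : Qb, EllLocal.vcY C z w = (t : Qb) ^ 3 * w := fun z w => by
    simp [EllLocal.vcY, C, inv_inv]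
  let φ : QPoint W →+ (EllLocal.genCurve A W₁).Point :=
    (EllLocal.modelHom C hC).comp (toModel A).toAddMonoidHom
  have hlift : ∀ {P : QPoint W} {c d : Qb} {h : (EllLocal.genCurve A W₀).Nonsingular c d}
      {c' d' : A}, toModel A P = .some c d h → (t : Qb) ^ 2 * c = c' → (t : Qb) ^ 3 * d = d' →
      EllLocal.IsLift (φ P) c' d' := by
    intro P c d h c' d' hP hc hd'
    have h1 : φ P = EllLocal.modelHom C hC (.some c d h) := congrArg (EllLocal.modelHom C hC) hP
    rw [EllLocal.modelHom_some] at h1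
    have ec : EllLocal.vcX C c = (c' : Qb) := (eX c).trans hc
    have ed : EllLocal.vcY C c d = (d' : Qb) := (eY c d).trans hd'
    simp only [ec, ed] at h1
    exact ⟨_, h1⟩
  have key : ∀ {z : Qb} (k : ℕ), z ≠ 0 → ((σ : Γℚ) ^ p) z = z →
      z = (u : Qb) / (t : Qb) ^ k → ∃ c : A, (t : Qb) ^ k * (σ : Γℚ) z = c ∧
        IsLocalRing.residue A c = IsLocalRing.residue A u := by
    intro z k hz0 hzp hz
    have hlt := valuation_sub_lt_self hp hA σ.2 hz0 hzp
    have htz : (t : Qb) ^ k * z = u := by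
      rw [hz]; exact mul_div_cancel₀ _ (pow_ne_zero _ ht0)
    have hd1 : A.valuation ((t : Qb) ^ k * ((σ : Γℚ) z - z)) < 1 := by
      rw [← vu, ← htz, map_mul, map_mul]
      exact mul_lt_mul_of_pos_left hlt
        (zero_lt_iff.mpr ((Valuation.ne_zero_iff _).mpr (pow_ne_zero _ ht0)))
    let e : A := ⟨_, A.mem_of_valuation_le_one _ hd1.le⟩
    refine ⟨u + e, ?_, ?_⟩
    · push_cast [e]
      rw [← htz]; ring
    · rw [map_add, EllLocal.residue_eq_zero_of_valuation_lt A (z := e) hd1, add_zero]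
  obtain ⟨u₁, hu₁, hru₁⟩ := key 2 hx0 hfixQ.1 hx
  obtain ⟨b₁, hb₁, hrb₁⟩ := key 3 hy0 hfixQ.2 hy
  have hl1 := hlift hTσQ hu₁ hb₁
  have hl2 : EllLocal.IsLift (φ (Q : QPoint W)) u u :=
    hlift hTQ (by rw [hx]; exact mul_div_cancel₀ _ (pow_ne_zero _ ht0))
      (by rw [hy]; exact mul_div_cancel₀ _ (pow_ne_zero _ ht0))
  have hE1 : EllLocal.InE1 (φ (R : QPoint W)) := by
    rw [show (R : QPoint W) = (σ : Γℚ) • (Q : QPoint W) + -(Q : QPoint W) from
      sub_eq_add_neg _ _, map_add, map_neg]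
    refine EllLocal.add_inE1 hl1 hl2.neg ⟨hl1.redEquation, ?_⟩ hru₁ ?_
    · rw [Affine.evalEval_polynomialX, Affine.evalEval_polynomialY]
      simp only [map_a₁, map_a₂, map_a₃, map_a₄, W₁, map_mul, map_pow, hπt, hru₁, hrb₁, hπu,
        mul_zero, zero_mul, zero_pow, ne_eq, OfNat.ofNat_ne_zero, not_false_eq_true, add_zero,
        one_pow, mul_one, zero_sub, neg_eq_zero]
      by_contra hc
      simp only [not_or, not_not] at hc
      exact one_ne_zero (α := IsLocalRing.ResidueField A) (by linear_combination hc.1 - hc.2)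
    · rw [hrb₁, ← EllLocal.redCurve_negY, Affine.negY_negY]
  have hTR := toModel_some A hXY
  rw [← hRe] at hTR
  have hXmem : (t : Qb) ^ 2 * X ∈ A := by
    refine A.mem_of_valuation_le_one _ (le_of_eq ?_)
    rw [map_mul, hXx, ← map_mul, show (t : Qb) ^ 2 * x = u by
      rw [hx]; exact mul_div_cancel₀ _ (pow_ne_zero _ ht0)]
    exact vu
  have hφR : φ (R : QPoint W) = EllLocal.modelHom C hC (.some X Y _) :=
    congrArg (EllLocal.modelHom C hC) hTR
  rw [EllLocal.modelHom_some] at hφR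
  rw [hφR] at hE1
  exact hE1 (by rw [eX]; exact hXmem)

end Supersingular

section Ordinary

variable (hΔ : W.Δ ≠ 0) (hA : A.LiesOverPrime p) (hp2 : p ≠ 2) (hgood : ¬ (p : ℤ) ∣ W.Δ)
  (htop : (torsionE1 A : Submodule (ZMod p) (QTorsion W p)) ≠ ⊤)

include hA hp2 hgood in
/-- A point of `E[p]` off the line is integral, and `2 b + a₁ a + a₃` is a unit at it. -/
theorem exists_good_coords_of_notMem {Q : QTorsion W p}
    (hQ : Q ∉ (torsionE1 A : Submodule (ZMod p) (QTorsion W p))) :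
    ∃ (a b : A) (h : (EllLocal.genCurve A (modelAt A W)).Nonsingular (a : Qb) (b : Qb)),
      toModel A (Q : QPoint W) = .some (a : Qb) (b : Qb) h ∧
      IsLocalRing.residue A (2 * b + (modelAt A W).a₁ * a + (modelAt A W).a₃) ≠ 0 := by
  classical
  have hp : p.Prime := Fact.out
  have hΔres : IsLocalRing.residue A (modelAt A W).Δ ≠ 0 := by
    rw [map_Δ]; exact residue_map_ne_zero hp hA hgood
  rcases EllLocal.mem_E0_of_good hΔres (toModel A (Q : QPoint W)) with h | ⟨a, b, hl, hns⟩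
  · exact absurd h hQ
  have hl' := hl
  obtain ⟨hn, he⟩ := hl'
  refine ⟨a, b, hn, he, fun h0 => hQ ?_⟩
  have h2Q : toModel A ((Q + Q : QTorsion W p) : QPoint W) ∈ EllLocal.E1 A (modelAt A W) := by
    rw [Submodule.coe_add, map_add]
    refine EllLocal.add_inE1 hl hl hns rfl ?_
    simp only [map_add, map_mul, map_ofNat] at h0
    simp only [Affine.negY, map_a₁, map_a₃]
    simp only [map_a₁, map_a₃] at h0
    linear_combination h0
  have h2 : (2 : ZMod p) ≠ 0 := by
    intro h0'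
    have h1 : ((2 : ℕ) : ZMod p) = 0 := by exact_mod_cast h0'
    rw [ZMod.natCast_eq_zero_iff 2 p] at h1
    exact hp2 ((Nat.prime_dvd_prime_iff_eq hp Nat.prime_two).mp h1)
  have h3 := Submodule.smul_mem (torsionE1 A : Submodule (ZMod p) (QTorsion W p))
    (2 : ZMod p)⁻¹ (show Q + Q ∈ torsionE1 A from h2Q)
  rwa [← two_smul (ZMod p) Q, smul_smul, inv_mul_cancel₀ h2, one_smul] at h3

include hΔ hA hp2 hgood htop in
/-- The parameter `t` of a nonzero point of the line satisfies `|p| ≤ |t| ^ (p - 1)`. -/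
theorem valuation_pred_le_good {R : QTorsion W p}
    (hR : R ∈ (torsionE1 A : Submodule (ZMod p) (QTorsion W p))) {X Y : Qb}
    {h : (EllLocal.genCurve A (modelAt A W)).Nonsingular X Y}
    (hRe : toModel A (R : QPoint W) = .some X Y h)
    {t : Qb} (ht : A.valuation t ^ 2 * A.valuation X = 1) :
    A.valuation (p : Qb) ≤ A.valuation t ^ (p - 1) := by
  classical
  have hp : p.Prime := Fact.out
  have hss : (p : ℤ) ∣ W.Δ → ¬(p : ℤ) ∣ W.c₄ := fun h => absurd h hgood
  set L : Submodule (ZMod p) (QTorsion W p) := torsionE1 A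
  haveI : Finite (QTorsion W p) := Nat.finite_of_card_ne_zero
    (natCard_eq_sq (p := p) hΔ ▸ pow_ne_zero _ hp.ne_zero)
  haveI := Fintype.ofFinite L
  haveI : (EllLocal.genCurve A (modelAt A W)).IsElliptic := by
    rw [genCurve_modelAt]; exact isElliptic_baseChange hΔ
  have hR0 : R ≠ 0 := by
    rintro rfl
    rw [Submodule.coe_zero, _root_.map_zero] at hRe
    exact some_ne_zero h hRe.symm
  have hX : 1 < A.valuation X := by
    have h1 : toModel A (R : QPoint W) ∈ EllLocal.E1 A (modelAt A W) := hR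
    rw [hRe] at h1
    exact lt_of_not_ge fun h2 => (show X ∉ A from h1) ((A.valuation_le_one_iff X).mp h2)
  have hall : ∀ P ∈ L, P ≠ 0 → ∃ x y h', toModel A (P : QPoint W) = .some x y h' ∧
      A.valuation x = A.valuation X := by
    intro P hP hP0
    have hspan : L = Submodule.span (ZMod p) {R} := by
      rcases submodule_card_cases (natCard_eq_sq hΔ) (Submodule.span (ZMod p) {R}) with h1 | h1 | h1
      · exact absurd (Submodule.span_singleton_eq_bot.mp h1) hR0
      · exact (eq_of_le_line (natCard_eq_sq hΔ) h1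
          ((Submodule.span_singleton_le_iff_mem R L).mpr hR)).resolve_right htop
      · exact absurd (top_unique (h1 ▸ (Submodule.span_singleton_le_iff_mem R L).mpr hR)) htop
    obtain ⟨a, rfl⟩ := Submodule.mem_span_singleton.mp ((SetLike.ext_iff.mp hspan _).mp hP)
    have ha : a ≠ 0 := fun h1 => hP0 (by rw [h1, zero_smul])
    obtain ⟨σ, hσ, hσa⟩ := exists_inertia_cyc_eq hA (Units.mk0 a ha)
    obtain ⟨h', he⟩ := toModel_smul_some σ hRe
    refine ⟨σ X, σ Y, h', ?_, Mazur.Tame.valuation_map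
      (GalCommon.inertiaSubgroupIn_le_decomposition hσ) X⟩
    rw [← he, show a = MazurChain.cyc p σ from hσa.symm,
      ← smul_eq_cyc hΔ hA hp2 hss htop hσ hR]
    rfl
  let S : Finset L := Finset.univ.filter (· ≠ 0)
  let xf : L → Qb := fun P => match toModel A ((P : QTorsion W p) : QPoint W) with
    | .zero => 0
    | .some x _ _ => x
  have hS : S.card = p - 1 := by
    simp only [S, Finset.filter_ne']
    rw [Finset.card_erase_of_mem (Finset.mem_univ _), Finset.card_univ, ← Nat.card_eq_fintype_card]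
    exact congrArg (· - 1) (natCard_torsionE1 hΔ hA hp2 hss htop)
  set T := S.image xf
  have hT : p - 1 ≤ 2 * T.card := by
    rw [← hS]
    refine Finset.card_le_mul_card_image S 2 fun b hb => ?_
    obtain ⟨P, hP, rfl⟩ := Finset.mem_image.mp hb
    refine (Finset.card_le_card (t := {P, -P}) fun Q hQ => ?_).trans Finset.card_le_two
    simp only [Finset.mem_filter, S, Finset.mem_univ, true_and] at hQ hP
    obtain ⟨x, y, hn, hPe, -⟩ := hall P P.2 (fun h1 => hP (Subtype.ext h1))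
    obtain ⟨x', y', hn', hQe, -⟩ := hall Q Q.2 (fun h1 => hQ.1 (Subtype.ext h1))
    obtain ⟨hQ0, hxx⟩ := hQ
    simp only [xf, hPe, hQe] at hxx
    rw [Finset.mem_insert, Finset.mem_singleton]
    rcases Affine.Y_eq_of_X_eq hn'.1 hn.1 hxx with h1 | h1
    · refine Or.inl (Subtype.ext (Subtype.ext ((toModel A).injective ?_)))
      rw [hPe, hQe]
      simp only [Affine.Point.some.injEq]
      exact ⟨hxx, h1⟩
    · refine Or.inr (Subtype.ext (Subtype.ext ((toModel A).injective ?_)))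
      rw [NegMemClass.coe_neg, NegMemClass.coe_neg, map_neg, hPe, hQe, Affine.Point.neg_some]
      simp only [Affine.Point.some.injEq]
      exact ⟨hxx, h1⟩
  have hroot : ∀ r ∈ T, ((EllLocal.genCurve A (modelAt A W)).preΨ' p).eval r = 0 ∧
      A.valuation r = A.valuation X := by
    intro r hrT
    obtain ⟨P, hP, rfl⟩ := Finset.mem_image.mp hrT
    simp only [Finset.mem_filter, S, Finset.mem_univ, true_and] at hP
    obtain ⟨x, y, hn, hPe, hvx⟩ := hall P P.2 (fun h1 => hP (Subtype.ext h1))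
    simp only [xf, hPe]
    refine ⟨(EllTorsion.nsmul_some_eq_zero_iff_preΨ' (hp.odd_of_ne_two hp2) hn).mp ?_, hvx⟩
    rw [← hPe, ← map_nsmul, ← natCast_zsmul, (Submodule.mem_torsionBy_iff _ _).mp
      (P : QTorsion W p).2, _root_.map_zero]
  have hle := valuation_natCast_mul_prod_le (A := A) (modelAt A W) (hp.odd_of_ne_two hp2) T
    fun r hrT => (hroot r hrT).1
  rw [Finset.prod_congr rfl (fun r hrT => (hroot r hrT).2), Finset.prod_const] at hle
  obtain ⟨m, hm⟩ := (hp.odd_of_ne_two hp2).exists_bit1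
  have hmT : m ≤ T.card := by omega
  have hle' : A.valuation (p : Qb) * A.valuation X ^ m ≤ 1 :=
    (mul_le_mul_right (pow_le_pow_right₀ hX.le hmT) _).trans hle
  calc A.valuation (p : Qb)
      = A.valuation (p : Qb) * (A.valuation t ^ 2 * A.valuation X) ^ m := by
        rw [ht, one_pow, mul_one]
    _ = (A.valuation (p : Qb) * A.valuation X ^ m) * A.valuation t ^ (p - 1) := by
        rw [mul_pow, ← pow_mul, show p - 1 = 2 * m by omega]
        ac_rfl
    _ ≤ A.valuation t ^ (p - 1) := mul_le_of_le_one_left' hle'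

include hΔ hA hp2 hgood htop in
/-- The data in wild position: a uniformiser of the fixed field and the break. -/
theorem exists_wild_data_good (hwild : p ∣ Nat.card (torsPerm W A p).range) :
    ∃ σ ∈ A.inertiaSubgroupIn ℚ, ∃ π : Qb, ∃ j : ℕ,
      (∀ τ ∈ A.inertiaSubgroupIn ℚ, (∀ P : QTorsion W p, τ • P = P) → τ π = π) ∧
      A.valuation π ^ Nat.card (torsPerm W A p).range = A.valuation (p : Qb) ∧ 0 < j ∧ j < p ∧
      A.valuation (σ π - π) ^ Nat.card (torsPerm W A p).range =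
        A.valuation (p : Qb) ^ (j + 1) := by
  classical
  have hp : p.Prime := Fact.out
  have hss : (p : ℤ) ∣ W.Δ → ¬(p : ℤ) ∣ W.c₄ := fun h => absurd h hgood
  set f := torsPerm W A p with hf
  haveI := finite_range_torsPerm (p := p) (A := A) hΔ
  set e := Nat.card f.range with he_def
  have he : e = p * (p - 1) := by
    have h1 : p * (p - 1) ∣ e := Nat.Coprime.mul_dvd_of_dvd_of_dvd
      ((hp.coprime_iff_not_dvd).mpr fun h => by
        have h3 := Nat.le_of_dvd (by have := hp.two_le; omega) h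
        have := hp.two_le
        omega)
      hwild (pred_dvd_card_range hΔ hA)
    refine le_antisymm ?_ (Nat.le_of_dvd Nat.card_pos h1)
    rw [mul_comm]
    exact card_range_le hΔ hA hp2 hss htop
  have he0 : e ≠ 0 := Nat.card_pos.ne'
  obtain ⟨σ, hσp, Q₀, hQ₀⟩ := exists_pow_fix_of_dvd hΔ hwild
  have hcyc : MazurChain.cyc p (σ : Γℚ) = 1 := cyc_eq_one_of_pow hΔ hσp
  set L : Submodule (ZMod p) (QTorsion W p) := torsionE1 A
  have hQ : Q₀ ∉ L := fun h => hQ₀ (by rw [smul_eq_cyc hΔ hA hp2 hss htop σ.2 h, hcyc, one_smul])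
  set R := (σ : Γℚ) • Q₀ - Q₀ with hRdef
  have hRL : R ∈ L := smul_sub_mem_line hΔ hA hp2 hss htop σ.2 Q₀
  have hR0 : R ≠ 0 := sub_ne_zero.mpr hQ₀
  obtain ⟨a, b, hab, hQe, hfy⟩ := exists_good_coords_of_notMem hA hp2 hgood hQ
  obtain ⟨X, Y, hXY, hRe⟩ : ∃ X Y h, toModel A (R : QPoint W) = .some X Y h := by
    rcases hcase : toModel A (R : QPoint W) with _ | ⟨X, Y, hXY⟩
    · exact absurd (Subtype.ext ((toModel A).injective
        (hcase.trans (_root_.map_zero _).symm))) hR0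
    · exact ⟨X, Y, hXY, rfl⟩
  have hX : X ∉ A := by
    have h1 : toModel A (R : QPoint W) ∈ EllLocal.E1 A (modelAt A W) := hRL
    rw [hRe] at h1
    exact h1
  obtain ⟨h', hσQ⟩ := toModel_smul_some (σ : Γℚ) hQe
  have hsum : (Affine.Point.some (a : Qb) (b : Qb) hab :
      (EllLocal.genCurve A (modelAt A W)).Point) + .some X Y hXY =
      .some ((σ : Γℚ) a) ((σ : Γℚ) b) h' := by
    rw [← hσQ, ← hQe, ← hRe, ← map_add, hRdef]
    congr 1
    exact add_sub_cancel (Q₀ : QPoint W) _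
  obtain ⟨t, ht1, htX, htdiff⟩ := exists_valuation_add_sub_good hab hXY hfy hX hsum
  have ht0 : A.valuation t ≠ 0 := fun h => by simp [h] at htX
  have hp0' : (p : Qb) ≠ 0 := Nat.cast_ne_zero.mpr hp.ne_zero
  set z : Qb := (a : Qb) with hz_def
  have hz : A.valuation z ≤ 1 := A.valuation_le_one a
  have hσz : A.valuation ((σ : Γℚ) z - z) = A.valuation t := htdiff
  haveI : NeZero (p : Qb) := ⟨hp0'⟩
  obtain ⟨ζ, hζ⟩ := HasEnoughRootsOfUnity.exists_primitiveRoot Qb p
  set lam := ζ - 1 with hlam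
  have hlam0 : lam ≠ 0 := sub_ne_zero.mpr (hζ.ne_one hp.one_lt)
  have hvl : A.valuation lam ^ (p - 1) = A.valuation (p : Qb) :=
    Mazur.Eis.valuation_sub_one_pow hp A hζ
  have hp1 : p - 1 ≠ 0 := by have := hp.two_le; omega
  have hlt' : A.valuation lam ≤ A.valuation t := by
    refine (pow_le_pow_iff_left₀ zero_le zero_le hp1).mp ?_
    rw [hvl]
    exact valuation_pred_le_good hΔ hA hp2 hgood htop hRL hRe htX
  let H : Subgroup Γℚ :=
    A.inertiaSubgroupIn ℚ ⊓ (MulAction.toPermHom Γℚ (QTorsion W p)).ker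
  set K := IntermediateField.fixedField H
  have hKmem : ∀ x : Qb, x ∈ K ↔
      ∀ τ ∈ A.inertiaSubgroupIn ℚ, (∀ P : QTorsion W p, τ • P = P) → τ x = x := by
    intro x
    rw [IntermediateField.mem_fixedField_iff]
    exact ⟨fun h τ h1 h2 => h τ ⟨h1, Equiv.ext h2⟩,
      fun h τ hτ => h τ hτ.1 fun P => Equiv.ext_iff.mp hτ.2 P⟩
  have hK : ∀ x : Qb, (∀ τ ∈ A.inertiaSubgroupIn ℚ, τ x = x) → x ∈ K := fun x hx =>
    (hKmem x).mpr fun τ hτ _ => hx τ hτ
  have hlamK : lam ∈ K := (hKmem _).mpr fun τ _ hτ => by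
    rw [hlam, map_sub, map_one, apply_root_eq hΔ hτ hζ.pow_eq_one]
  have hσlam : (σ : Γℚ) lam = lam := by
    rw [hlam, map_sub, map_one, MazurChain.fix_of_cyc_eq_one p _ hcyc hζ.pow_eq_one]
  have hzK : z ∈ K := (hKmem _).mpr fun τ hτI hτ => by
    obtain ⟨h'', hτQ⟩ := toModel_smul_some τ hQe
    rw [show τ • (Q₀ : QPoint W) = (Q₀ : QPoint W) from congrArg Subtype.val (hτ Q₀), hQe] at hτQ
    simp only [Affine.Point.some.injEq] at hτQ
    exact hτQ.1.symm
  have hσK : ∀ x ∈ K, (σ : Γℚ) x ∈ K := fun x hx => (hKmem _).mpr fun τ hτI hτ => by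
    have h1 := (hKmem x).mp hx ((σ : Γℚ)⁻¹ * τ * σ) (mul_mem (mul_mem (inv_mem σ.2) hτI) σ.2)
      fun P => by rw [mul_smul, mul_smul, hτ, inv_smul_smul]
    rw [AlgEquiv.mul_apply, AlgEquiv.mul_apply] at h1
    conv_rhs => rw [← h1]
    rw [← AlgEquiv.mul_apply (σ : Γℚ) (σ : Γℚ)⁻¹, mul_inv_cancel, AlgEquiv.one_apply]
  have hval : ∀ x ∈ K, x ≠ 0 → ∃ k : ℤ, A.valuation x ^ e = A.valuation (p : Qb) ^ k :=
    fun x hx hx0 => valuation_pow_card_range hp hA f hx0 fun τ hτ =>
      (hKmem x).mp hx τ τ.2 (torsPerm_eq_one_iff.mp hτ)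
  set v := A.valuation
  have hvp1 : v (p : Qb) < 1 := hA
  have hvp0 : v (p : Qb) ≠ 0 := (Valuation.ne_zero_iff _).mpr hp0'
  have hlam1 : v lam < 1 := by
    by_contra h
    exact hvp1.not_ge (hvl ▸ one_le_pow₀ (not_lt.mp h))
  obtain ⟨w, hwK, k, hwk, hpk⟩ : ∃ w ∈ K, ∃ k : ℤ, v w ^ e = v (p : Qb) ^ k ∧ ¬ (p : ℤ) ∣ k := by
    by_contra hcon
    push Not at hcon
    have hval' : ∀ x ∈ K, x ≠ 0 → ∃ m : ℤ, v x = v lam ^ m := by
      intro x hx hx0
      obtain ⟨k, hk⟩ := hval x hx hx0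
      obtain ⟨m, rfl⟩ := hcon x hx k hk
      refine ⟨m, (pow_left_inj₀ zero_le zero_le he0).mp ?_⟩
      rw [hk, ← hvl, he]
      simp only [← zpow_natCast, ← zpow_mul]
      congr 1
      push_cast
      ring
    have h1 := eq_self_of_fix_uniformizer hp hA K hK hlamK hlam1 hlam0 hval' σ.2 hσK hσlam hzK hz
    rw [h1, sub_self, _root_.map_zero] at hσz
    exact ht0 hσz.symm
  obtain ⟨u, w', huw⟩ := (Prime.coprime_iff_not_dvd (Nat.prime_iff_prime_int.mp hp)).mpr hpk
  have hvw0 : w ≠ 0 := by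
    rintro rfl
    rw [_root_.map_zero, zero_pow he0] at hwk
    exact zpow_ne_zero _ hvp0 hwk.symm
  set π := w ^ w' * lam ^ u with hπ_def
  have hπK : π ∈ K := K.mul_mem (zpow_mem hwK _) (zpow_mem hlamK _)
  have hπ0 : π ≠ 0 := mul_ne_zero (zpow_ne_zero _ hvw0) (zpow_ne_zero _ hlam0)
  have hlame : v lam ^ e = v (p : Qb) ^ (p : ℤ) := by
    rw [he, mul_comm, pow_mul, hvl, zpow_natCast]
  have hcomm : ∀ (x : A.ValueGroup) (m : ℤ), (x ^ m) ^ e = (x ^ e) ^ m := fun x m => by
    rw [← zpow_natCast x e, ← zpow_natCast (x ^ m) e, ← zpow_mul, ← zpow_mul, mul_comm]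
  have hπe : v π ^ e = v (p : Qb) := by
    rw [hπ_def, map_mul, map_zpow₀, map_zpow₀, mul_pow, hcomm, hcomm, hwk, hlame, ← zpow_mul,
      ← zpow_mul, ← zpow_add₀ hvp0,
      show k * w' + (p : ℤ) * u = 1 by linear_combination huw, zpow_one]
  have hπ1 : v π < 1 := by
    by_contra h
    exact hvp1.not_ge (hπe ▸ one_le_pow₀ (not_lt.mp h))
  have hvπ : 0 < v π := zero_lt_iff.mpr ((Valuation.ne_zero_iff _).mpr hπ0)
  have hval2 : ∀ x ∈ K, x ≠ 0 → ∃ m : ℤ, v x = v π ^ m := by
    intro x hx hx0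
    obtain ⟨k', hk'⟩ := hval x hx hx0
    refine ⟨k', (pow_left_inj₀ zero_le zero_le he0).mp ?_⟩
    rw [hk', ← hπe]
    simp only [← zpow_natCast, ← zpow_mul]
    rw [mul_comm]
  have hlamπ : v lam = v π ^ p := by
    refine (pow_left_inj₀ zero_le zero_le he0).mp ?_
    rw [hlame, ← pow_mul, mul_comm, pow_mul, hπe, zpow_natCast]
  have hbound : v π ^ p ≤ v ((σ : Γℚ) π - π) := by
    have h1 := valuation_sub_le_max hp hA K hK hπK hπ1 hπ0 hval2 σ.2 (p + 1) hzK hz
    rw [hσz] at h1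
    refine (le_max_iff.mp ((hlamπ ▸ hlt').trans h1)).resolve_right (not_le.mpr ?_)
    exact pow_lt_pow_right_of_lt_one₀ hvπ hπ1 (Nat.lt_succ_self p)
  have hd0 : (σ : Γℚ) π - π ≠ 0 := fun h => by
    rw [h, _root_.map_zero] at hbound
    exact (pow_pos hvπ p).not_ge hbound
  obtain ⟨m, hm⟩ := hval2 _ (K.sub_mem (hσK π hπK) hπK) hd0
  have hlow : v ((σ : Γℚ) π - π) < v π :=
    valuation_sub_lt_self hp hA σ.2 hπ0
      ((hKmem π).mp hπK _ (pow_mem σ.2 p) hσp)
  have hm1 : 1 < m := by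
    refine (zpow_lt_zpow_iff_right_of_lt_one₀ hvπ hπ1).mp ?_
    rwa [zpow_one, ← hm]
  have hmp : m ≤ p := by
    refine (zpow_le_zpow_iff_right_of_lt_one₀ hvπ hπ1).mp ?_
    rw [zpow_natCast, ← hm]
    exact hbound
  refine ⟨σ, σ.2, π, m.toNat - 1, (hKmem π).mp hπK, hπe, by omega, by omega, ?_⟩
  rw [hm, show m.toNat - 1 + 1 = m.toNat by omega, ← hπe, ← pow_mul, ← zpow_natCast, ← zpow_mul,
    ← zpow_natCast]
  congr 1
  rw [Nat.cast_mul, Int.toNat_of_nonneg (by omega)]
  ring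

end Ordinary

/-- The local information on `E[p]` at a place over a prime `p` of good reduction. -/
theorem nonempty_ramData_good (W : WeierstrassCurve ℤ) (hΔ0 : W.Δ ≠ 0) {p : ℕ} (hp : p.Prime)
    (hp2 : p ≠ 2) (hgood : ¬ (p : ℤ) ∣ W.Δ) {A : ValuationSubring Qb} (hA : A.LiesOverPrime p) :
    Nonempty (MazurP.RamData W p A) := by
  haveI : Fact p.Prime := ⟨hp⟩
  haveI := finite_range_torsPerm (p := p) (A := A) hΔ0
  have hfixes : ∀ τ : Γℚ, (∀ P : QTorsion W p, τ • P = P) → FixesTorsion W p τ := by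
    intro τ h x hx
    exact congrArg Subtype.val
      (h ⟨x, by rw [Submodule.mem_torsionBy_iff, natCast_zsmul]; exact hx⟩)
  let H : Subgroup Γℚ := A.inertiaSubgroupIn ℚ ⊓ (MulAction.toPermHom Γℚ (QTorsion W p)).ker
  have hH : ∀ τ, τ ∈ H ↔ τ ∈ A.inertiaSubgroupIn ℚ ∧ ∀ P : QTorsion W p, τ • P = P :=
    fun τ => ⟨fun h => ⟨h.1, fun P => Equiv.ext_iff.mp h.2 P⟩, fun h => ⟨h.1, Equiv.ext h.2⟩⟩
  refine ⟨{
    H := H
    H_le := fun τ h => h.1
    fixes := fun τ h => hfixes τ ((hH τ).mp h).2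
    e := Nat.card (torsPerm W A p).range
    e_pos := Nat.card_pos
    val := fun x hx0 hx => valuation_pow_card_range hp hA (torsPerm W A p) hx0 fun τ hτ =>
      hx τ ((hH _).mpr ⟨τ.2, torsPerm_eq_one_iff.mp hτ⟩)
    wild := fun hwild => ?_ }⟩
  by_cases htop : (torsionE1 A : Submodule (ZMod p) (QTorsion W p)) = ⊤
  · exact absurd hwild (not_dvd_card_range_of_top hΔ0 hA hp2 htop)
  constructor
  · intro h
    have h1 := (Nat.le_of_dvd Nat.card_pos h).trans
      (card_range_le hΔ0 hA hp2 (fun h' => absurd h' hgood) htop)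
    rw [sq] at h1
    exact absurd (Nat.le_of_mul_le_mul_right h1 hp.pos) (by have := hp.pos; omega)
  obtain ⟨σ, hσ, π, j, hπ, hπe, hj0, hjp, hd⟩ :=
    exists_wild_data_good hΔ0 hA hp2 hgood htop hwild
  refine ⟨σ, hσ, π, j, fun τ hτ => ?_, fun τ hτ => hπ τ ((hH τ).mp hτ).1 ((hH τ).mp hτ).2,
    hπe, hj0, hjp, hd⟩
  obtain ⟨h1, h2⟩ := (hH τ).mp hτ
  exact (hH _).mpr ⟨mul_mem (mul_mem (inv_mem hσ) h1) hσ,
    fun P => by rw [mul_smul, mul_smul, h2, inv_smul_smul]⟩

end FLTAgent.AtP
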