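/-
Levels and local data for Mazur's principle at a prime of semistable reduction.
-/
import Fermat.Agent.AtP.GoodRam
import Fermat.Agent.MazurP.Main
import Fermat.Prelude.Def_WeierstrassCurve_PeuRamifiee

/-!
# Local data at a prime of semistable reduction

`nonempty_ramData_semi`: for an odd prime `p` of good, or multiplicative peu ramifiée, reduction
the data `MazurP.RamData` exists at every place over `p`. The multiplicative case is
`MazurP.nonempty_ramData`, the good case `nonempty_ramData_good`.
-/

set_option autoImplicit false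

noncomputable section

namespace FLTAgent.AtP

local notation "Qb" => AlgebraicClosure ℚ

/-- The data at a prime of good reduction, or of multiplicative peu ramifiée reduction. -/
theorem nonempty_ramData_semi (W : WeierstrassCurve ℤ) (hΔ0 : W.Δ ≠ 0) {p : ℕ} (hp : p.Prime)
    (hp2 : p ≠ 2) (hsemi : (p : ℤ) ∣ W.Δ → ¬ (p : ℤ) ∣ W.c₄)
    (hfin : (p : ℤ) ∣ W.Δ → (W.map (Int.castRingHom ℚ)).IsPeuRamifieeAt p p)
    {A : ValuationSubring Qb} (hA : A.LiesOverPrime p) :
    Nonempty (MazurP.RamData W p A) := by
  by_cases hd : (p : ℤ) ∣ W.Δ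
  · refine MazurP.nonempty_ramData W hΔ0 hp hp2 hd (hsemi hd) ?_ hA
    have h := hfin hd
    rw [WeierstrassCurve.IsPeuRamifieeAt, WeierstrassCurve.map_Δ, eq_intCast,
      padicValRat.of_int] at h
    exact Int.natCast_dvd_natCast.mp h
  · exact nonempty_ramData_good W hΔ0 hp hp2 hd hA

end FLTAgent.AtP
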