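/-
Points of order three of `X₀(M ℓ)` have the same image under both degeneracy maps to `X₀(M)`.
-/
import Fermat.Agent.MazurP.QEigenForms
import Fermat.Agent.ModularPlaces.Fibres

/-!
# Points of order three of `X₀(M ℓ)` over `ℂ`

`ord_scale_of_elliptic`: at a place with `j` finite, `j(ℓτ)` is finite, and if `3` does not divide
the order of one of `j(τ)`, `j(ℓτ)` then both orders are `1` and the two degeneracy maps give
functions of level `M` the same orders. The key step is `exists_smul_eq_scaleH`: a point fixed by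
an element of order three or six of `Γ₀(M ℓ)` is `Γ₀(M)`-equivalent to its multiple by `ℓ`.
`ord_jC_dvd_three`: the order of `j` at a zero divides `3`.
-/

set_option autoImplicit false
set_option maxHeartbeats 800000

noncomputable section

open UpperHalfPlane CongruenceSubgroup AlgebraicCurve ModularCurve
open scoped MatrixGroups

namespace FLTAgent.AtP

open FLTAgent.Modular FLTAgent.ModularPlaces

/-- `z ↦ ℓ z`. -/
def scaleH (ℓ : ℕ) (z : ℍ) : ℍ := ModularForm.heckeDiagMatrix ℓ • z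

variable {ℓ : ℕ} [NeZero ℓ]

theorem det_heckeDiag_pos : 0 < (ModularForm.heckeDiagMatrix ℓ).val.det := by
  rw [ModularForm.val_heckeDiagMatrix (NeZero.ne ℓ), Matrix.det_fin_two_of]
  simpa using Nat.pos_of_ne_zero (NeZero.ne ℓ)

theorem coe_scaleH (z : ℍ) : ((scaleH ℓ z : ℍ) : ℂ) = (ℓ : ℂ) * z :=
  ModularForm.coe_heckeDiagMatrix_smul (NeZero.ne ℓ) z

theorem isMero_comp_scaleH {f : ℍ → ℂ} (hf : IsMero f) : IsMero fun z => f (scaleH ℓ z) :=
  hf.comp_glSmul det_heckeDiag_pos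

theorem ordH_comp_scaleH (f : ℍ → ℂ) (z : ℍ) :
    ordH (fun w => f (scaleH ℓ w)) z = ordH f (scaleH ℓ z) :=
  congrArg WithTop.untop₀ (meromorphicOrderAt_comp_glSmul f det_heckeDiag_pos z)

/-! ### The fixed points -/

theorem den_eq_of_conj {g h δ : SL(2, ℤ)} {w : ℍ} (he : g * δ = δ * h) (hw : h • w = w) :
    den h (w : ℂ) = den g ((δ • w : ℍ) : ℂ) := by
  have hδ := den_ne_zero δ w.im_pos
  have hh := den_ne_zero h w.im_pos
  have h1 := den_mul g δ hδ
  have h2 := den_mul δ h hh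
  rw [← coe_smul_eq_mob] at h1 h2
  rw [he, h2, hw, mul_comm (den δ _)] at h1
  exact mul_right_cancel₀ hδ h1

theorem stab_rho_cases {g : SL(2, ℤ)} (hg : g • UpperHalfPlane.ρ = UpperHalfPlane.ρ)
    (h1 : g ≠ 1) (h2 : g ≠ -1) :
    IsUnit (g.1 0 1) ∧ g.1 0 0 + g.1 1 1 ≠ 0 := by
  have h := ModularGroup.stabilizer_ρ.mp hg
  simp only [Finset.mem_insert, Finset.mem_singleton] at h
  rw [Int.isUnit_iff]
  rcases h with rfl | rfl | rfl | rfl | rfl | rfl
  · exact absurd rfl h1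
  · exact absurd rfl h2
  all_goals decide

theorem conj_ne {g δ : SL(2, ℤ)} {e : SL(2, ℤ)} (he : ∀ x : SL(2, ℤ), x * e = e * x) (h : g ≠ e) :
    δ⁻¹ * g * δ ≠ e := fun hh => h (by
  have : g = δ * e * δ⁻¹ := by rw [← hh]; group
  rw [this, he δ, mul_inv_cancel_right])

theorem trace_conj (g δ : SL(2, ℤ)) :
    (δ⁻¹ * g * δ).1 0 0 + (δ⁻¹ * g * δ).1 1 1 = g.1 0 0 + g.1 1 1 := by
  have h := Matrix.trace_mul_cycle (δ⁻¹ : SL(2, ℤ)).1 g.1 δ.1
  rw [← Matrix.SpecialLinearGroup.coe_mul, ← Matrix.SpecialLinearGroup.coe_mul,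
    ← Matrix.SpecialLinearGroup.coe_mul, ← Matrix.SpecialLinearGroup.coe_mul,
    mul_inv_cancel, one_mul, Matrix.trace_fin_two, Matrix.trace_fin_two] at h
  exact h

/-- A point fixed by an element of non-zero trace other than `±1` has `j = 0`. -/
theorem jE_eq_zero_of_fixed {g : SL(2, ℤ)} {z : ℍ} (hg : g • z = z) (h1 : g ≠ 1) (h2 : g ≠ -1)
    (ht : g.1 0 0 + g.1 1 1 ≠ 0) : jE z = 0 := by
  by_contra h0
  by_cases hI : jE z = 1728
  · obtain ⟨δ, hδ⟩ := jE_injective_mod (jE_I.trans hI.symm)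
    have hfix : (δ⁻¹ * g * δ) • UpperHalfPlane.I = UpperHalfPlane.I := by
      rw [mul_smul, mul_smul, hδ, hg, ← hδ, inv_smul_smul]
    have h := ModularGroup.stabilizer_I.mp hfix
    simp only [Finset.mem_insert, Finset.mem_singleton] at h
    have n1 := conj_ne (δ := δ) (e := (1 : SL(2, ℤ))) (fun x => by simp) h1
    have n2 := conj_ne (δ := δ) (e := (-1 : SL(2, ℤ))) (fun x => by simp) h2
    rw [← trace_conj g δ] at ht
    generalize δ⁻¹ * g * δ = e at h n1 n2 ht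
    rcases h with rfl | rfl | rfl | rfl
    · exact n1 rfl
    · exact n2 rfl
    all_goals exact ht (by decide)
  · rcases stabilizer_generic h0 hI hg with h | h
    · exact h1 h
    · exact h2 h

variable {M : ℕ}

/-- A point fixed by `g ∈ Γ₀(M ℓ)` of order three or six is equivalent to its multiple by `ℓ`. -/
theorem exists_smul_eq_scaleH {g : SL(2, ℤ)} (hg : g ∈ Gamma0 (M * ℓ)) {z : ℍ} (hz : g • z = z)
    (h1 : g ≠ 1) (h2 : g ≠ -1) (hj : jE z = 0) :
    jE (scaleH ℓ z) = 0 ∧ ∃ γ ∈ Gamma0 M, γ • z = scaleH ℓ z := by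
  rw [Gamma0_mem, ZMod.intCast_zmod_eq_zero_iff_dvd] at hg
  obtain ⟨c, hc⟩ := hg
  push_cast at hc
  have hdet := g.2
  rw [Matrix.det_fin_two] at hdet
  let g' : SL(2, ℤ) := ⟨!![g.1 0 0, (ℓ : ℤ) * g.1 0 1; (M : ℤ) * c, g.1 1 1], by
    rw [Matrix.det_fin_two_of]
    linear_combination hdet + (g.1 0 1) * hc⟩
  have hfix' : g' • scaleH ℓ z = scaleH ℓ z := by
    have h := heckeDiag_smul_mul ℓ g g' z (by
      ext i j
      fin_cases i <;> fin_cases j <;>
        simp [g', ModularCosets.diagOne, Matrix.mul_apply, Fin.sum_univ_two, hc] <;> ring)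
    rw [hz] at h
    exact h.symm
  have hden : den g' ((scaleH ℓ z : ℍ) : ℂ) = den g (z : ℂ) := by
    simp only [den, g', coe_scaleH, hc]
    simp
    ring
  obtain ⟨δ, hδ⟩ := jE_injective_mod (jE_rho.trans hj.symm)
  have hh1 : (δ⁻¹ * g * δ) • UpperHalfPlane.ρ = UpperHalfPlane.ρ := by
    rw [mul_smul, mul_smul, hδ, hz, ← hδ, inv_smul_smul]
  obtain ⟨hu, htr⟩ := stab_rho_cases hh1 (conj_ne (fun x => by simp) h1)
    (conj_ne (fun x => by simp) h2)
  rw [trace_conj] at htr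
  have h01 : g.1 0 1 ≠ 0 ∨ g.1 1 0 ≠ 0 := by
    by_contra h
    push Not at h
    rw [h.1, h.2, mul_zero, sub_zero] at hdet
    rcases Int.mul_eq_one_iff_eq_one_or_neg_one.mp hdet with ⟨ha, hd⟩ | ⟨ha, hd⟩
    · refine h1 (Subtype.ext ?_); ext i j; fin_cases i <;> fin_cases j <;> simp [ha, hd, h.1, h.2]
    · refine h2 (Subtype.ext ?_); ext i j; fin_cases i <;> fin_cases j <;> simp [ha, hd, h.1, h.2]
  have hg'ne : g' ≠ 1 ∧ g' ≠ -1 := by
    constructor <;> intro h <;> have a := congrArg (fun x : SL(2, ℤ) => x.1 0 1) h <;>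
      have b := congrArg (fun x : SL(2, ℤ) => x.1 1 0) h <;>
      · simp [g', NeZero.ne ℓ] at a b
        rcases h01 with h' | h'
        · exact h' a
        · refine h' ?_
          rw [hc]; rcases b with b | b <;> simp [b]
  have hj' : jE (scaleH ℓ z) = 0 := jE_eq_zero_of_fixed hfix' hg'ne.1 hg'ne.2 (by simpa [g'] using htr)
  obtain ⟨δ', hδ'⟩ := jE_injective_mod (jE_rho.trans hj'.symm)
  have hh2 : (δ'⁻¹ * g' * δ') • UpperHalfPlane.ρ = UpperHalfPlane.ρ := by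
    rw [mul_smul, mul_smul, hδ', hfix', ← hδ', inv_smul_smul]
  have heq : δ'⁻¹ * g' * δ' = δ⁻¹ * g * δ := by
    have h : (⟨_, MulAction.mem_stabilizer_iff.mpr hh2⟩ :
        MulAction.stabilizer SL(2, ℤ) UpperHalfPlane.ρ) = ⟨_, MulAction.mem_stabilizer_iff.mpr hh1⟩ :=
      denHom_injective UpperHalfPlane.ρ (by
        show den _ _ = den _ _
        rw [den_eq_of_conj (g := g') (δ := δ') (by group) hh2,
          den_eq_of_conj (g := g) (δ := δ) (by group) hh1, hδ, hδ', hden])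
    exact congrArg Subtype.val h
  refine ⟨hj', δ' * δ⁻¹, ?_, by rw [mul_smul, inv_smul_eq_iff.mpr hδ.symm, hδ']⟩
  set h := δ⁻¹ * g * δ with hdef
  have e1 : δ⁻¹ * g = h * δ⁻¹ := by rw [hdef]; group
  have e2 : δ'⁻¹ * g' = h * δ'⁻¹ := by rw [← heq]; group
  have a1 := congrArg (fun x : SL(2, ℤ) => (x.1 0 0 : ZMod M)) e1
  have a2 := congrArg (fun x : SL(2, ℤ) => (x.1 0 0 : ZMod M)) e2
  simp only [Matrix.SpecialLinearGroup.coe_mul] at a1 a2
  simp [Matrix.mul_apply, Fin.sum_univ_two, Matrix.SpecialLinearGroup.coe_inv,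
    Matrix.adjugate_fin_two, hc, g'] at a1 a2
  rw [Gamma0_mem]
  have hu' : IsUnit ((h.1 0 1 : ℤ) : ZMod M) := by
    simpa using hu.map (Int.castRingHom (ZMod M))
  refine hu'.mul_right_eq_zero.mp ?_
  simp [Matrix.mul_apply, Fin.sum_univ_two, Matrix.SpecialLinearGroup.coe_inv,
    Matrix.adjugate_fin_two]
  linear_combination ((δ.1 1 1 : ℤ) : ZMod M) * a2 - ((δ'.1 1 1 : ℤ) : ZMod M) * a1

/-! ### The orders over `ℂ` -/

variable [NeZero M]

local notation "E" y => ev ((y : FC _) : LaurentSeries ℂ)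

theorem ellOrder_dvd_one {N : ℕ} [NeZero N] (z : ℍ) : ellOrder N z ∣ ellOrder 1 z := by
  have h := card_orbit_mul_ellOrder (N := N) z 1
  rw [inv_one, one_smul] at h
  exact ⟨_, h.symm.trans (mul_comm _ _)⟩

theorem exists_fixed_of_ellOrder_three {N : ℕ} [NeZero N] {z : ℍ} (h : ellOrder N z = 3) :
    jE z = 0 ∧ ∃ g ∈ Gamma0 N, g • z = z ∧ g ≠ 1 ∧ g ≠ -1 := by
  have h3 := h ▸ ellOrder_dvd_one (N := N) z
  refine ⟨?_, ?_⟩
  · by_contra h0
    by_cases hI : jE z = 1728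
    · rw [ellOrder_one_eq_of_jE (hI.trans jE_I.symm), ellOrder_one_I] at h3
      norm_num at h3
    · rw [ellOrder_one_generic h0 hI] at h3
      norm_num at h3
  · by_contra hno
    push Not at hno
    have hc := card_fixed_eq N z
    rw [h] at hc
    have hinj : Function.Injective
        (fun x : {γ : Gamma0 N // (γ : SL(2, ℤ)) • z = z} =>
          (decide ((x.1 : SL(2, ℤ)) = 1))) := by
      intro x y hxy
      simp only [decide_eq_decide] at hxy
      refine Subtype.ext (Subtype.ext ?_)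
      by_cases hx : (x.1 : SL(2, ℤ)) = 1
      · rw [hx, hxy.mp hx]
      · rw [hno _ x.1.2 x.2 hx, hno _ y.1.2 y.2 (fun e => hx (hxy.mpr e))]
    have := Nat.card_le_card_of_injective _ hinj
    rw [hc, Nat.card_eq_fintype_card, Fintype.card_bool] at this
    omega

variable {v : Place ℂ (FC M)}

/-- Every place with `j` finite is the place of a point. -/
theorem exists_eq_placeZ (v : Place ℂ (FC M)) (hv : 0 ≤ v.ord (jC M)) :
    ∃ z, (placeZ z : Place ℂ (FC M)) = v := by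
  obtain ⟨a, ha⟩ := FF.exists_residue_of_isSep MazurP.isSep_jC v hv
  obtain ⟨z, rfl⟩ := exists_jE_eq a
  obtain ⟨x, hx⟩ := exists_placeZ_eq v z ha
  exact ⟨_, hx⟩

theorem ellOrder_mul_ord (z : ℍ) :
    (ellOrder M z : ℤ) * (placeZ z : Place ℂ (FC M)).ord (jC M - algebraMap ℂ (FC M) (jE z)) =
      ellOrder 1 z := by
  rw [← degZ_eq, ← ord_placeZ z (jC_sub_ne_zero _), ordH_jC_sub]

theorem ord_jC_dvd_three (v : Place ℂ (FC M)) (hv : 0 < v.ord (jC M)) : v.ord (jC M) ∣ 3 := by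
  have hv' : 0 < v.ord (jC M - algebraMap ℂ (FC M) (jE UpperHalfPlane.ρ)) := by
    rwa [jE_rho, map_zero, sub_zero]
  obtain ⟨x, rfl⟩ := exists_placeZ_eq v _ hv'
  have h := ellOrder_mul_ord (M := M) (x.out⁻¹ • UpperHalfPlane.ρ)
  rw [jE_smul, jE_rho, map_zero, sub_zero, ellOrder_one_eq_of_jE (z := UpperHalfPlane.ρ) (jE_smul _ _),
    ellOrder_one_rho] at h
  exact ⟨_, h.symm.trans (mul_comm _ _)⟩

/-- Both degeneracy maps at a point of order three. -/
theorem ord_scale_of_elliptic (W : Place ℂ (FC (M * ℓ))) (hW : 0 ≤ W.ord (jC (M * ℓ)))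
    (j2 : FC (M * ℓ)) (hj2 : (j2 : LaurentSeries ℂ) = qExpand ℂ ℓ (jC M)) :
    0 ≤ W.ord j2 ∧ ((¬ (3 : ℤ) ∣ W.ord (jC (M * ℓ)) ∨ ¬ (3 : ℤ) ∣ W.ord j2) →
      W.ord (jC (M * ℓ)) = 1 ∧ W.ord j2 = 1 ∧ ∀ (y : FC M) (y₁ y₂ : FC (M * ℓ)),
        (y₁ : LaurentSeries ℂ) = y → (y₂ : LaurentSeries ℂ) = qExpand ℂ ℓ y → y ≠ 0 →
          W.ord y₁ = W.ord y₂) := by
  have : NeZero (M * ℓ) := ⟨mul_ne_zero (NeZero.ne M) (NeZero.ne ℓ)⟩
  obtain ⟨z, rfl⟩ := exists_eq_placeZ W hW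
  have hev : ∀ (y : FC M) (y₂ : FC (M * ℓ)), (y₂ : LaurentSeries ℂ) = qExpand ℂ ℓ y →
      ev (y₂ : LaurentSeries ℂ) = fun w => ev (y : LaurentSeries ℂ) (scaleH ℓ w) := fun y y₂ h => by
    rw [h]
    exact ev_eq_of_isMero (isMero_comp_scaleH (isMero_ev y))
      ((hasQExp_ev y).comp_mul ℓ coe_scaleH)
  have hj20 : j2 ≠ 0 := fun e => by
    rw [e, ZeroMemClass.coe_zero, eq_comm, map_eq_zero] at hj2
    exact jC_ne_zero (N := M) (Subtype.ext hj2)
  have hd := degZ_eq (N := M * ℓ) z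
  have hpos := ellOrder_pos (M * ℓ) z
  have hordj2 : (ellOrder (M * ℓ) z : ℤ) * (placeZ z).ord j2 = ordH jFun (scaleH ℓ z) := by
    rw [← hd, ← ord_placeZ z hj20, hev _ _ hj2, ev_jC, ordH_comp_scaleH]
  have hjan : ∀ w : ℍ, 0 ≤ ordH jFun w ∧ (jE w ≠ 0 → ordH jFun w = 0) ∧
      (jE w = 0 → ordH jFun w = ellOrder 1 w) := by
    intro w
    have h := ord_placeZ (N := 1) w (jC_ne_zero (N := 1))
    rw [ev_jC] at h
    have hs := ordH_jC_sub (N := 1) w
    refine ⟨?_, fun h0 => ?_, fun h0 => ?_⟩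
    · rcases eq_or_ne (jE w) 0 with h0 | h0
      · rw [h0, map_zero, sub_zero, ev_jC] at hs
        rw [hs]; positivity
      · have hp : 0 < (placeZ w : Place ℂ (FC 1)).ord (jC 1 - algebraMap ℂ (FC 1) (jE w)) := by
          have := ellOrder_mul_ord (M := 1) w
          have h1 := ellOrder_pos 1 w
          nlinarith
        have := MazurP.ord_sub_eq_zero _ (b := (0 : ℂ)) h0 hp
        rw [map_zero, sub_zero] at this
        rw [h, this, mul_zero]
    · have hp : 0 < (placeZ w : Place ℂ (FC 1)).ord (jC 1 - algebraMap ℂ (FC 1) (jE w)) := by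
        have := ellOrder_mul_ord (M := 1) w
        have h1 := ellOrder_pos 1 w
        nlinarith
      have := MazurP.ord_sub_eq_zero _ (b := (0 : ℂ)) h0 hp
      rw [map_zero, sub_zero] at this
      rw [h, this, mul_zero]
    · rwa [h0, map_zero, sub_zero, ev_jC] at hs
  refine ⟨?_, fun hne => ?_⟩
  · refine nonneg_of_mul_nonneg_right (a := (ellOrder (M * ℓ) z : ℤ)) ?_ (by exact_mod_cast hpos)
    rw [hordj2]; exact (hjan _).1
  have hord1 : (ellOrder (M * ℓ) z : ℤ) * (placeZ z).ord (jC (M * ℓ)) = ordH jFun z := by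
    rw [← hd, ← ord_placeZ z jC_ne_zero, ev_jC]
  have h3 : ∀ w : ℍ, jE w = 0 → ellOrder 1 w = 3 := fun w hw =>
    (ellOrder_one_eq_of_jE (hw.trans jE_rho.symm)).trans ellOrder_one_rho
  -- the stabiliser in `Γ₀(M ℓ)` has order three
  have hell : ellOrder (M * ℓ) z = 3 := by
    have key : ∀ (o : ℤ) (w : ℍ), (ellOrder (M * ℓ) z : ℤ) * o = ordH jFun w → ¬ (3 : ℤ) ∣ o →
        ellOrder (M * ℓ) z = 3 := by
      intro o w he hno
      have hw : jE w = 0 := by
        by_contra h0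
        rw [(hjan w).2.1 h0] at he
        exact hno ((mul_eq_zero.mp he).resolve_left (by omega) ▸ dvd_zero _)
      rw [(hjan w).2.2 hw, h3 w hw] at he
      rcases (Nat.dvd_prime Nat.prime_three).mp
          (Int.natCast_dvd_natCast.mp ⟨o, he.symm⟩ : ellOrder (M * ℓ) z ∣ 3) with h | h
      · rw [h] at he
        exact absurd ⟨1, by push_cast at he; linarith⟩ hno
      · exact h
    rcases hne with h | h
    · exact key _ _ hord1 h
    · exact key _ _ hordj2 h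
  obtain ⟨hjz, g, hg, hgz, hg1, hg2⟩ := exists_fixed_of_ellOrder_three hell
  obtain ⟨hjz', γ, hγ, hγz⟩ := exists_smul_eq_scaleH hg hgz hg1 hg2 hjz
  rw [(hjan _).2.2 hjz, h3 _ hjz, hell] at hord1
  rw [(hjan _).2.2 hjz', h3 _ hjz', hell] at hordj2
  push_cast at hord1 hordj2
  refine ⟨by omega, by omega, fun y y₁ y₂ h₁ h₂ hy => ?_⟩
  have hy1 : y₁ ≠ 0 := fun e => hy (Subtype.ext (by rw [← h₁, e]; rfl))
  have hy2 : y₂ ≠ 0 := fun e => hy (Subtype.ext (by
    rw [e, ZeroMemClass.coe_zero, eq_comm, map_eq_zero] at h₂; exact h₂))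
  refine mul_left_cancel₀ (a := (degZ (M * ℓ) z : ℤ)) (by rw [hd]; omega) ?_
  rw [← ord_placeZ z hy1, ← ord_placeZ z hy2, hev _ _ h₂, ordH_comp_scaleH, ← hγz, h₁,
    ordH_smul_of_invariant (gamma0_inv y γ hγ)]

end FLTAgent.AtP
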