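/-
`T_ℓ` acts by `1 + ℓ` modulo `3` on the points of order three of `X₀(M)`, in characteristic zero.
-/
import Fermat.Agent.AtP.ThreeEll
import Fermat.Agent.Kronecker.HeckeReduction
import Fermat.Agent.Kronecker.Inputs

/-!
# `T_ℓ` at points of order three, in characteristic zero

`dvd_correspondence_single`: over `ℚ̄`, the Hecke correspondence sends a place where `j` has a
simple zero to `1 + ℓ` times itself modulo `3`, on the affine places. This follows fibre by fibre
from `ord_scale_of_elliptic` and the degree `ℓ + 1` of the degeneracy map.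
`correspondence_single_cusp`: `T_ℓ` of an affine place is affine.
-/

set_option autoImplicit false
set_option linter.style.haveILetI false
set_option maxHeartbeats 1000000
set_option synthInstance.maxHeartbeats 400000

noncomputable section

open AlgebraicCurve ModularCurve

namespace FLTAgent.AtP

open FLTAgent.ModularPlaces (jB jC)

local notation "Qb" => AlgebraicClosure ℚ

/-! ### Orders of `j` over `ℚ̄` -/

variable {M : ℕ} [NeZero M]

theorem ord_jB_dvd_three (v : Place Qb (modularFunctionFieldBar M)) (hv : 0 < v.ord (jB M)) :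
    v.ord (jB M) ∣ 3 := by
  have h := ord_jC_dvd_three (Torsion.placeExt ModularCosets.iotaBar v)
  rw [← ModularPlaces.embFC_jB M ModularCosets.iotaBar, Torsion.ord_placeExt] at h
  exact h hv

theorem ord_jB_sub_le_two (v : Place Qb (modularFunctionFieldBar M))
    (hv : 0 < v.ord (jB M - algebraMap Qb (modularFunctionFieldBar M) 1728)) :
    v.ord (jB M - algebraMap Qb (modularFunctionFieldBar M) 1728) ≤ 2 := by
  have e := ModularPlaces.ord_placeExt_jB_sub M ModularCosets.iotaBar v 1728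
  rw [map_ofNat ModularCosets.iotaBar 1728] at e
  rw [← e] at hv ⊢
  exact MazurP.ord_jC_sub_le ModularPlaces.jE_I ModularPlaces.ellOrder_one_I (by norm_num) _ hv

/-! ### The two degeneracy maps at a point of order three -/

variable {ℓ : ℕ} [NeZero ℓ]

theorem ord_beta_of_affine (W : Place Qb (modularFunctionFieldBar (M * ℓ)))
    (hW : 0 ≤ W.ord (heckeAlphaBar Qb M ℓ (jB M))) :
    0 ≤ W.ord (heckeBetaBar Qb M ℓ (jB M)) ∧
      ((¬ (3 : ℤ) ∣ W.ord (heckeAlphaBar Qb M ℓ (jB M)) ∨
          ¬ (3 : ℤ) ∣ W.ord (heckeBetaBar Qb M ℓ (jB M))) →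
        W.ord (heckeAlphaBar Qb M ℓ (jB M)) = 1 ∧ W.ord (heckeBetaBar Qb M ℓ (jB M)) = 1 ∧
          ∀ (hα : (heckeAlphaBar Qb M ℓ).toRingHom.IsIntegral)
            (hβ : (heckeBetaBar Qb M ℓ).toRingHom.IsIntegral),
            W.restrictAlong (heckeBetaBar Qb M ℓ) hβ = W.restrictAlong (heckeAlphaBar Qb M ℓ) hα) := by
  haveI : NeZero (M * ℓ) := ⟨mul_ne_zero (NeZero.ne M) (NeZero.ne ℓ)⟩
  set ι : Torsion.Qb →+* ℂ := ModularCosets.iotaBar
  set W' := Torsion.placeExt ι W
  have e1 : Torsion.embFC (M * ℓ) ι (heckeAlphaBar Qb M ℓ (jB M)) = jC (M * ℓ) := by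
    rw [← ModularPlaces.embFC_jB (M * ℓ) ι]
    exact congrArg _ (Subtype.ext (coe_heckeAlphaBar M ℓ _))
  have e2 : (Torsion.embFC (M * ℓ) ι (heckeBetaBar Qb M ℓ (jB M)) : LaurentSeries ℂ) =
      qExpand ℂ ℓ (jC M) := by
    rw [Torsion.coe_embFC, coe_heckeBetaBar, coeffMap_qExpand, ← ModularPlaces.embFC_jB M ι,
      Torsion.coe_embFC]
  obtain ⟨h1, h2⟩ := ord_scale_of_elliptic W' (by rwa [← e1, Torsion.ord_placeExt]) _ e2
  rw [Torsion.ord_placeExt] at h1
  refine ⟨h1, fun hne => ?_⟩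
  rw [← e1, Torsion.ord_placeExt, Torsion.ord_placeExt] at h2
  obtain ⟨a1, a2, a3⟩ := h2 hne
  refine ⟨a1, a2, fun hα hβ => FF.place_eq_of_ord_nonneg fun y hy => ?_⟩
  rcases eq_or_ne y 0 with rfl | hy0
  · simp
  have h3 := a3 (Torsion.embFC M ι y) (Torsion.embFC (M * ℓ) ι (heckeAlphaBar Qb M ℓ y))
    (Torsion.embFC (M * ℓ) ι (heckeBetaBar Qb M ℓ y))
    (by rw [Torsion.coe_embFC, coe_heckeAlphaBar, Torsion.coe_embFC])
    (by rw [Torsion.coe_embFC, coe_heckeBetaBar, coeffMap_qExpand, Torsion.coe_embFC])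
    ((map_ne_zero _).mpr hy0)
  rw [Torsion.ord_placeExt, Torsion.ord_placeExt, Place.ord_restrictAlong _ hα,
    Place.ord_restrictAlong _ hβ] at h3
  haveI := Kronecker.isFF_bar M
  haveI := Kronecker.isFF_bar (M * ℓ)
  have p1 : 0 < W.ramificationIndexAlong (heckeAlphaBar Qb M ℓ) :=
    FF.ramificationIndexAlong_pos _ hα W
  have p2 : 0 < W.ramificationIndexAlong (heckeBetaBar Qb M ℓ) :=
    FF.ramificationIndexAlong_pos _ hβ W
  nlinarith

/-! ### The correspondence -/

theorem pushforwardAlong_apply_of_deg {K F F' : Type*} [Field K] [Field F] [Field F'] [Algebra K F]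
    [Algebra K F'] [HasPrincipalDivisors K F'] (ψ : F →ₐ[K] F') (hψ : ψ.toRingHom.IsIntegral)
    (hdeg : ∀ v : Place K F, v.deg = 1) (hdeg' : ∀ v : Place K F', v.deg = 1)
    (D : Divisor K F') (v : Place K F) :
    Divisor.pushforwardAlong ψ hψ D v = ∑ w ∈ Place.fiberAlong ψ hψ v, D w := by
  classical
  induction D using Finsupp.induction with
  | zero => simp
  | single_add W n D _ _ ih =>
    have h1 := Kronecker.deg_restrictAlong_mul_inertiaDegAlong ψ hψ W
    rw [hdeg, hdeg', one_mul] at h1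
    rw [map_add, Divisor.pushforwardAlong_single, h1, Finsupp.add_apply, ih]
    simp only [Finsupp.add_apply, Finset.sum_add_distrib, Finsupp.single_apply, Nat.cast_one,
      mul_one, Finset.sum_ite_eq, Place.mem_fiberAlong]

/-- `T_ℓ` of an affine place is affine. -/
theorem correspondence_single_cusp (hα : (heckeAlphaBar Qb M ℓ).toRingHom.IsIntegral)
    (hβ : (heckeBetaBar Qb M ℓ).toRingHom.IsIntegral)
    [HasPrincipalDivisors Qb (modularFunctionFieldBar (M * ℓ))]
    (P : Place Qb (modularFunctionFieldBar M)) (hP : P.ord (jB M) < 0)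
    (v : Place Qb (modularFunctionFieldBar M)) (hv : 0 ≤ v.ord (jB M)) :
    Divisor.correspondence (heckeBetaBar Qb M ℓ) (heckeAlphaBar Qb M ℓ) hβ hα
      (Finsupp.single P 1) v = 0 := by
  classical
  haveI : NeZero (M * ℓ) := ⟨mul_ne_zero (NeZero.ne M) (NeZero.ne ℓ)⟩
  haveI := Kronecker.isFF_bar M
  haveI := Kronecker.isFF_bar (M * ℓ)
  rw [Divisor.correspondence_apply, pushforwardAlong_apply_of_deg _ hα (Kronecker.deg_eq_one_bar M)
    (Kronecker.deg_eq_one_bar (M * ℓ))]
  refine Finset.sum_eq_zero fun W hW => ?_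
  rw [Place.mem_fiberAlong] at hW
  have hWa : 0 ≤ W.ord (heckeAlphaBar Qb M ℓ (jB M)) := by
    rw [Place.ord_restrictAlong _ hα, hW]
    exact mul_nonneg (Int.natCast_nonneg _) hv
  have h := (ord_beta_of_affine W hWa).1
  rw [Place.ord_restrictAlong _ hβ] at h
  have hpos := FF.ramificationIndexAlong_pos (heckeBetaBar Qb M ℓ) hβ W
  rw [Divisor.pullbackAlong_apply, Finsupp.single_eq_of_ne, mul_zero]
  intro hWP
  rw [hWP] at h
  nlinarith

/-- `T_ℓ` acts by `1 + ℓ` modulo `3` on a point of order three. -/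
theorem dvd_correspondence_single (hℓ : ℓ.Prime) (hℓM : ¬ ℓ ∣ M)
    (hα : (heckeAlphaBar Qb M ℓ).toRingHom.IsIntegral)
    (hβ : (heckeBetaBar Qb M ℓ).toRingHom.IsIntegral)
    [HasPrincipalDivisors Qb (modularFunctionFieldBar (M * ℓ))]
    (P : Place Qb (modularFunctionFieldBar M)) (hP : P.ord (jB M) = 1)
    (v : Place Qb (modularFunctionFieldBar M)) (hv : 0 ≤ v.ord (jB M)) [Decidable (v = P)] :
    (3 : ℤ) ∣ Divisor.correspondence (heckeBetaBar Qb M ℓ) (heckeAlphaBar Qb M ℓ) hβ hα
      (Finsupp.single P 1) v - (if v = P then 1 + (ℓ : ℤ) else 0) := by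
  classical
  haveI : NeZero (M * ℓ) := ⟨mul_ne_zero (NeZero.ne M) (NeZero.ne ℓ)⟩
  haveI := Kronecker.isFF_bar M
  haveI := Kronecker.isFF_bar (M * ℓ)
  set α := heckeAlphaBar Qb M ℓ with hαdef
  set β := heckeBetaBar Qb M ℓ with hβdef
  rw [Divisor.correspondence_apply, pushforwardAlong_apply_of_deg _ hα (Kronecker.deg_eq_one_bar M)
    (Kronecker.deg_eq_one_bar (M * ℓ))]
  have hterm : ∀ W ∈ Place.fiberAlong α hα v, (3 : ℤ) ∣
      Divisor.pullbackAlong β hβ (Finsupp.single P 1) W -
        (if v = P then (W.ramificationIndexAlong α : ℤ) else 0) := by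
    intro W hW
    rw [Place.mem_fiberAlong] at hW
    have hoa := Place.ord_restrictAlong α hα W (jB M)
    have hob := Place.ord_restrictAlong β hβ W (jB M)
    rw [hW] at hoa
    have hWa : 0 ≤ W.ord (α (jB M)) := by
      rw [hoa]; exact mul_nonneg (Int.natCast_nonneg _) hv
    obtain ⟨-, hell⟩ := ord_beta_of_affine W hWa
    rw [Divisor.pullbackAlong_apply, Finsupp.single_apply]
    by_cases hE : (3 : ℤ) ∣ W.ord (α (jB M)) ∧ (3 : ℤ) ∣ W.ord (β (jB M))
    · refine dvd_sub ?_ ?_
      · split_ifs with h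
        · rw [hob, ← h, hP] at hE
          simpa using hE.2
        · simp
      · split_ifs with h
        · rw [hoa, h, hP, mul_one] at hE
          exact hE.1
        · exact dvd_zero _
    · rw [not_and_or] at hE
      obtain ⟨a1, a2, a3⟩ := hell hE
      rw [hoa] at a1
      rw [hob] at a2
      have ea := Int.eq_one_of_mul_eq_one_right (Int.natCast_nonneg _) a1
      have eb := Int.eq_one_of_mul_eq_one_right (Int.natCast_nonneg _) a2
      rw [a3 hα hβ, hW, ea, eb]
      by_cases h : v = P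
      · rw [if_pos h.symm, if_pos h, mul_one, sub_self]; exact dvd_zero _
      · rw [if_neg (Ne.symm h), if_neg h]; simp
  have hsum := Finset.dvd_sum hterm
  rw [Finset.sum_sub_distrib] at hsum
  rcases eq_or_ne v P with rfl | hne
  · have hdeg := FF.sum_ramificationIndexAlong α hα (FF.separableAlong _) v
    simp only [if_pos] at hsum ⊢
    rw [hdeg, show finrankAlong Qb α = ℓ + 1 from Kronecker.finrankAlong_alpha M hℓ hℓM] at hsum
    push_cast at hsum
    rwa [add_comm (1 : ℤ)]
  · simp only [if_neg hne] at hsum ⊢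
    simpa using hsum

end FLTAgent.AtP
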