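/-
Reduction of places modulo `3`: the points with `3 ∤ ord j` come from points of order three, so
`T_ℓ` acts on them by `1 + ℓ`.
-/
import Fermat.Agent.AtP.ThreeHecke
import Fermat.Agent.MazurP.QEigenReg
import Fermat.Agent.MazurP.QEigenNormRes
import Fermat.Agent.MazurP.QEigenSS

/-!
# Reduction of places modulo `3` and the points with `3 ∤ ord j`

`exists_redJ`: a reduction of places `r` compatible with the divisors of `j - c` and of integral
functions (`RedJ`). `RedJ.exists_elliptic`: a place with `3 ∤ ord j` is the reduction of a point of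
order three. Combined with `dvd_correspondence_single` this gives `dvd_ord_normRes_sub` (the norm
from level `M ℓ` multiplies exceptional orders by `1 + ℓ` modulo `3`), hence `dvd_ord_of_eigen`:
a non-Eisenstein eigen logarithmic derivative has no exceptional orders there.
-/

set_option autoImplicit false
set_option linter.style.haveILetI false
set_option linter.unusedSectionVars false

noncomputable section

open AlgebraicCurve ModularCurve

namespace FLTAgent.AtP

attribute [local instance 5000] SubalgebraClass.toAlgebra HahnSeries.powerSeriesAlgebra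

open FLTAgent.MazurP (qDlog qTheta)
open FLTAgent.Reduction (integralExp expToBar expToRes jExp jParam jF poleDiv divOf)

local notation "Qb" => AlgebraicClosure ℚ

variable {M : ℕ} [NeZero M] (A : ValuationSubring Qb)

local notation "kA" => IsLocalRing.ResidueField A
local notation "F0" => modularFunctionFieldBar M
local notation "E0" => modularFunctionFieldFullC kA M

theorem jParam_eq_jB : jParam A M = ModularPlaces.jB M := Subtype.ext (Reduction.coe_jParam A M)

/-- The zero part of `j - c`. -/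
def zeroDiv (c : Qb) : Divisor Qb F0 :=
  divOf (jParam A M - algebraMap Qb F0 c) + poleDiv (jParam A M)

theorem sub_const_ne_zero (c : Qb) : jParam A M - algebraMap Qb F0 c ≠ 0 := fun e =>
  ModularPlaces.transcendental_jB M (by
    rw [← jParam_eq_jB A, sub_eq_zero.mp e]; exact isAlgebraic_algebraMap _)

theorem zeroDiv_apply (c : Qb) (P : Place Qb F0) :
    zeroDiv A c P = P.ord (jParam A M - algebraMap Qb F0 c) + max 0 (-P.ord (jParam A M)) := by
  have hC := Reduction.curveData_bar M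
  rw [zeroDiv, Finsupp.add_apply, hC.divOf_apply, hC.poleDiv_apply]

theorem ord_sub_of_neg (c : Qb) {P : Place Qb F0} (h : P.ord (jParam A M) < 0) :
    P.ord (jParam A M - algebraMap Qb F0 c) = P.ord (jParam A M) := by
  rcases eq_or_ne c 0 with rfl | hc
  · rw [map_zero, sub_zero]
  rw [sub_eq_add_neg, ← map_neg]
  have h0 : jParam A M ≠ 0 := fun e => by rw [e, Place.ord_zero] at h; exact lt_irrefl _ h
  exact (FF.ord_add_of_lt P h0 (g := algebraMap Qb F0 (-c))
    (Or.inr (by rw [FF.ord_algebraMap]; exact h))).2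

theorem ord_sub_nonneg (c : Qb) {P : Place Qb F0} (h : 0 ≤ P.ord (jParam A M)) :
    0 ≤ P.ord (jParam A M - algebraMap Qb F0 c) := by
  refine FF.ord_nonneg_of_mem_placeRing P (P.toValuationSubring.sub_mem ?_ (P.algebraMap_mem' c))
  exact (FF.mem_iff P _).mpr (Or.inr h)

theorem zeroDiv_nonneg (c : Qb) (P : Place Qb F0) : 0 ≤ zeroDiv A c P := by
  rw [zeroDiv_apply]
  rcases le_or_gt 0 (P.ord (jParam A M)) with h | h
  · have := ord_sub_nonneg A c h; omega
  · rw [ord_sub_of_neg A c h]; omega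

theorem zeroDiv_zero_apply (P : Place Qb F0) :
    zeroDiv A 0 P = max 0 (P.ord (jParam A M)) := by
  rw [zeroDiv_apply, map_zero, sub_zero]; omega

/-- The zero part of `j` is supported at finite `j`. -/
theorem zeroDiv_eq_zero_of_neg (c : Qb) {P : Place Qb F0} (h : P.ord (jParam A M) < 0) :
    zeroDiv A c P = 0 := by
  rw [zeroDiv_apply, ord_sub_of_neg A c h]; omega

variable [Fact (Nat.Prime 3)]

/-- A reduction of places, with what it does to the divisors of `j` and `j - 1728`. -/
structure RedJ (r : Place Qb F0 → Place kA E0) : Prop where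
  red : IsPlaceReductionAlong A (IsLocalRing.residue A) M r
  gen : PrincipalGeneratedByIntegral A (IsLocalRing.residue A) M
  pole : ∀ R, Finsupp.mapDomain r (poleDiv (jParam A M) : Divisor Qb F0) R = max 0 (-R.ord (jF M kA))
  zero : ∀ c : A, IsLocalRing.residue A c = 0 → ∀ R,
    Finsupp.mapDomain r (zeroDiv A (c : Qb)) R = max 0 (R.ord (jF M kA))
  divisor : ∀ y : integralExp A M, expToRes A M y ≠ 0 → ∀ R,
    Finsupp.mapDomain r (divOf (expToBar A M y) : Divisor Qb F0) R = R.ord (expToRes A M y)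

variable {A}

/-- Such a reduction exists. -/
theorem exists_redJ (hA : A.LiesOverPrime 3) (hM : ¬ 3 ∣ M) : ∃ r, RedJ (M := M) A r := by
  classical
  obtain ⟨r, hred, hgen⟩ := Reduction.reductionInputsModL M hM A hA
  obtain ⟨hdeg, hr⟩ := id hred
  have hC := Reduction.curveData_bar M
  have hCb := Reduction.curveData_res A M hA hM
  haveI := GalCommon.isAlgClosed_residueField A (Fact.out : Nat.Prime 3) hA
  haveI := Reduction.isFF_fullC_residue M A hA hM
  have key : ∀ (y : integralExp A M), expToRes A M y ≠ 0 → ∀ R,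
      Finsupp.mapDomain r (divOf (expToBar A M y) : Divisor Qb F0) R = R.ord (expToRes A M y) :=
    fun y hy R =>
      hr y (Reduction.mem_integralExp.mp y.2).1 (Reduction.mem_integralExp.mp y.2).2
        (fun h => hy (Subtype.ext h)) _ (fun P => hC.divOf_apply (expToBar A M y) P) R
  have hjres : expToRes A M (jExp A M) = jF M kA :=
    Subtype.ext (coeffMap_jqModC (IsLocalRing.residue A))
  have hj0 : expToRes A M (jExp A M) ≠ 0 := by
    rw [hjres]; exact fun e => Reduction.transcendental_jF M kA (e ▸ isAlgebraic_zero)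
  set π₀ : Divisor Qb F0 := poleDiv (jParam A M) with hπ₀
  have hpole : ∀ R, Finsupp.mapDomain r π₀ R = max 0 (-R.ord (jF M kA)) := by
    set E : Divisor kA E0 := Finsupp.mapDomain r π₀ - poleDiv (jF M kA) with hE
    have hnn : ∀ R, 0 ≤ E R := fun R => by
      have h1 : 0 ≤ Finsupp.mapDomain r
          (divOf (expToBar A M (jExp A M)) + π₀ : Divisor Qb _) R := by
        rw [Reduction.mapDomain_apply_eq_sum]
        refine Finset.sum_nonneg fun P _ => ?_
        rw [Finsupp.add_apply, hπ₀, hC.divOf_apply, hC.poleDiv_apply]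
        show 0 ≤ P.ord (jParam A M) + _
        omega
      have h2 : 0 ≤ Finsupp.mapDomain r π₀ R := by
        rw [Reduction.mapDomain_apply_eq_sum]
        exact Finset.sum_nonneg fun P _ => by rw [hπ₀, hC.poleDiv_apply]; omega
      rw [Finsupp.mapDomain_add, Finsupp.add_apply, key _ hj0, hjres] at h1
      rw [hE, Finsupp.sub_apply, hCb.poleDiv_apply]
      omega
    have hdeg0 : Divisor.degree E = 0 := by
      rw [hE, map_sub, MazurP.degree_mapDomain_of_deg r hdeg, hπ₀,
        Reduction.degree_poleDiv_jParam, Reduction.degree_poleDiv_jF A M hA hM, sub_self]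
    intro R
    have hE0 : E R = 0 := by
      rw [hCb.degree_eq_sum, Finsupp.sum] at hdeg0
      by_contra hne
      exact hne ((Finset.sum_eq_zero_iff_of_nonneg fun P _ => hnn P).mp hdeg0 R
        (Finsupp.mem_support_iff.mpr hne))
    rw [hE, Finsupp.sub_apply, hCb.poleDiv_apply] at hE0
    omega
  refine ⟨r, hred, hgen, hpole, fun c hc R => ?_, key⟩
  obtain ⟨b, hb1, hb2⟩ := Reduction.exists_const_exp (N := M) c
  set y : integralExp A M := jExp A M - b with hy
  have hyb : expToBar A M y = jParam A M - algebraMap Qb F0 (c : Qb) := by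
    rw [hy, map_sub, hb1]; rfl
  have hyr : expToRes A M y = jF M kA := by
    rw [hy, map_sub, hb2, hc, map_zero, sub_zero, hjres]
  have h := key y (by rw [hyr, ← hjres]; exact hj0) R
  rw [hyr, hyb] at h
  rw [zeroDiv, Finsupp.mapDomain_add, Finsupp.add_apply, h, hpole]
  omega

variable {r : Place Qb (modularFunctionFieldBar M) →
  Place (IsLocalRing.ResidueField A) (modularFunctionFieldFullC (IsLocalRing.ResidueField A) M)}

theorem RedJ.ord_nonneg (hr : RedJ A r) {P : Place Qb F0} (h : 0 ≤ (r P).ord (jF M kA)) :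
    0 ≤ P.ord (jParam A M) := by
  by_contra hn
  have hC := Reduction.curveData_bar M
  have h1 := Reduction.le_mapDomain_of_nonneg r (poleDiv (jParam A M) : Divisor Qb F0) (r P)
    (fun a _ => by rw [hC.poleDiv_apply]; omega) (rfl : r P = r P)
  rw [hr.pole, hC.poleDiv_apply] at h1
  omega

theorem RedJ.exists_pole (hr : RedJ A r) {R : Place kA E0} (h : R.ord (jF M kA) < 0) :
    ∃ P, r P = R ∧ P.ord (jParam A M) < 0 := by
  classical
  have hC := Reduction.curveData_bar M
  have h' := hr.pole R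
  rw [Reduction.mapDomain_apply_eq_sum] at h'
  obtain ⟨P, hP, hne⟩ := Finset.exists_ne_zero_of_sum_ne_zero
    (show ∑ P ∈ (poleDiv (jParam A M) : Divisor Qb F0).support.filter (fun a => r a = R),
      (poleDiv (jParam A M) : Divisor Qb F0) P ≠ 0 by omega)
  rw [hC.poleDiv_apply] at hne
  exact ⟨P, (Finset.mem_filter.mp hP).2, by omega⟩

/-- A point with `3 ∤ ord j` is the reduction of a point of order three. -/
theorem RedJ.exists_elliptic (hr : RedJ A r) {R : Place kA E0} (h : 0 ≤ R.ord (jF M kA))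
    (h3 : ¬ (3 : ℤ) ∣ R.ord (jF M kA)) :
    ∃ P, r P = R ∧ P.ord (ModularPlaces.jB M) = 1 := by
  classical
  by_contra hno
  push Not at hno
  have h' := hr.zero 0 (map_zero _) R
  rw [ZeroMemClass.coe_zero, Reduction.mapDomain_apply_eq_sum, max_eq_right h] at h'
  refine h3 (h' ▸ Finset.dvd_sum fun P hP => ?_)
  rw [zeroDiv_zero_apply, jParam_eq_jB]
  rcases le_or_gt (P.ord (ModularPlaces.jB M)) 0 with h0 | h0
  · rw [max_eq_left h0]; exact dvd_zero _
  rw [max_eq_right h0.le]
  have hd := ord_jB_dvd_three P h0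
  obtain ⟨n, hn⟩ := Int.eq_ofNat_of_zero_le h0.le
  rw [hn] at hd ⊢
  rcases (Nat.dvd_prime Nat.prime_three).mp (Int.natCast_dvd_natCast.mp hd) with h1 | h1
  · exact absurd (by rw [hn, h1]; rfl) (hno P (Finset.mem_filter.mp hP).2)
  · rw [h1]; rfl

/-! ### `T_ℓ` -/

variable {ℓ : ℕ} [NeZero ℓ]

theorem correspondenceC_single_cusp (hA : A.LiesOverPrime 3) (h3ℓ : ¬ 3 ∣ ℓ)
    (hα : (Kronecker.alphaC kA M ℓ).toRingHom.IsIntegral)
    (hβ : (Kronecker.betaC kA M ℓ).toRingHom.IsIntegral)
    [HasPrincipalDivisors kA (modularFunctionFieldFullC kA (M * ℓ))]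
    [FF.IsFF kA (modularFunctionFieldFullC kA M)]
    [FF.IsFF kA (modularFunctionFieldFullC kA (M * ℓ))]
    (x : Place kA E0) (hx : x.ord (jF M kA) < 0) (v : Place kA E0) (hv : 0 ≤ v.ord (jF M kA)) :
    Divisor.correspondence (Kronecker.betaC kA M ℓ) (Kronecker.alphaC kA M ℓ) hβ hα
      (Finsupp.single x 1) v = 0 := by
  classical
  haveI := GalCommon.isAlgClosed_residueField A (Fact.out : Nat.Prime 3) hA
  rw [Divisor.correspondence_apply, pushforwardAlong_apply_of_deg _ hα FF.deg_eq_one FF.deg_eq_one]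
  refine Finset.sum_eq_zero fun W hW => ?_
  rw [Place.mem_fiberAlong] at hW
  have hWa : 0 ≤ W.ord (Kronecker.alphaC kA M ℓ (jF M kA)) := by
    rw [Place.ord_restrictAlong _ hα, hW]
    exact mul_nonneg (Int.natCast_nonneg _) hv
  have h := MazurP.ord_betaC_jq_nonneg hA h3ℓ W hWa
  rw [Place.ord_restrictAlong _ hβ] at h
  have hpos := FF.ramificationIndexAlong_pos (Kronecker.betaC kA M ℓ) hβ W
  rw [Divisor.pullbackAlong_apply, Finsupp.single_eq_of_ne, mul_zero]
  intro hWP
  rw [hWP] at h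
  exact absurd h (not_le.mpr (mul_neg_of_pos_of_neg (by exact_mod_cast hpos) hx))

/-- The norm from level `M ℓ` multiplies the orders at the places with `3 ∤ ord j` by `1 + ℓ`
modulo `3`. -/
theorem dvd_ord_normRes_sub (hA : A.LiesOverPrime 3) (hM : ¬ 3 ∣ M) (hℓ : ℓ.Prime) (hℓM : ¬ ℓ ∣ M)
    (hℓ3 : ℓ ≠ 3) {u : E0} (hu : u ≠ 0)
    (hdvd : ∀ v : Place kA E0, 0 ≤ v.ord (jF M kA) → (3 : ℤ) ∣ v.ord (jF M kA) → (3 : ℤ) ∣ v.ord u)
    (v : Place kA E0) (hv : 0 ≤ v.ord (jF M kA)) :
    (3 : ℤ) ∣ v.ord (MazurP.normRes M ℓ A (Kronecker.betaC kA M ℓ u)) - (1 + (ℓ : ℤ)) * v.ord u := by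
  classical
  haveI : Fact ℓ.Prime := ⟨hℓ⟩
  haveI : NeZero (M * ℓ) := ⟨mul_ne_zero (NeZero.ne M) (NeZero.ne ℓ)⟩
  have hMℓ := MazurP.not_dvd_mul_prime (p := 3) hM hℓ hℓ3
  have h3ℓ : ¬ 3 ∣ ℓ := fun h => hMℓ (Dvd.dvd.mul_left h M)
  haveI := GalCommon.isAlgClosed_residueField A (Fact.out : Nat.Prime 3) hA
  haveI := Reduction.isFF_fullC_residue M A hA hM
  haveI := Reduction.isFF_fullC_residue (M * ℓ) A hA hMℓ
  haveI := Kronecker.isFF_bar M
  haveI := Kronecker.isFF_bar (M * ℓ)
  haveI : HasPrincipalDivisors kA (modularFunctionFieldFullC kA (M * ℓ)) := inferInstance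
  haveI : HasPrincipalDivisors Qb (modularFunctionFieldBar (M * ℓ)) := inferInstance
  obtain ⟨hα0, hβ0, hP0, hfin0, hFI, hN0⟩ := Kronecker.heckeInputs_bar M ℓ
  obtain ⟨rM, hrM, -⟩ := Reduction.reductionInputsModL (M * ℓ) hMℓ A hA
  obtain ⟨r, hr⟩ := exists_redJ (M := M) hA hM
  have hαk := FF.isIntegral_alongFF (Kronecker.alphaC kA M ℓ)
  have hβk := FF.isIntegral_alongFF (Kronecker.betaC kA M ℓ)
  have hsep : SeparableAlong kA (Kronecker.alphaC kA M ℓ) := by
    refine Kronecker.separableAlong_of_adjoin _ (jF M kA) ?_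
    rw [show Kronecker.alphaC kA M ℓ (jF M kA) = jF (M * ℓ) kA from
      Subtype.ext (Kronecker.coe_alphaC _ M ℓ _)]
    exact Reduction.isSeparable_fullC_residue (M * ℓ) A hA hMℓ
  have hsep0 : SeparableAlong Qb (heckeAlphaBar Qb M ℓ) := FF.separableAlong _
  have hres := Kronecker.restrictAlong_compat (heckeAlphaBar Qb M ℓ) hα0
    (Kronecker.alphaC kA M ℓ) hαk Kronecker.isReductionOf_alpha hr.red hrM hr.gen
    (Kronecker.deg_eq_one_bar M) (Kronecker.deg_eq_one_bar (M * ℓ)) FF.deg_eq_one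
    (Kronecker.hasRiemannBound_bar M) (FF.fundamentalIdentityAlong _ hα0 hsep0)
    (FF.fundamentalIdentityAlong _ hαk hsep) (Kronecker.exists_ramificationIndexAlong_le _ hαk)
    (Kronecker.finrankAlong_alpha_eq hA hM hMℓ)
    (Kronecker.exists_reduction_ne hr.red (Kronecker.deg_eq_one_bar M))
  set C0 := Divisor.correspondence (heckeBetaBar Qb M ℓ) (heckeAlphaBar Qb M ℓ) hβ0 hα0
  set Ck := Divisor.correspondence (Kronecker.betaC kA M ℓ) (Kronecker.alphaC kA M ℓ) hβk hαk with hCk
  -- the key congruence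
  obtain ⟨Rp, hRp⟩ := FF.exists_pole (Reduction.transcendental_jF M kA)
  obtain ⟨Pp, -, hPp⟩ := hr.exists_pole hRp
  have hrPp : (r Pp).ord (jF M kA) < 0 := not_le.mp fun h => absurd (hr.ord_nonneg h) (not_le.mpr hPp)
  have key : ∀ x : Place kA E0, 0 ≤ x.ord (jF M kA) → ¬ (3 : ℤ) ∣ x.ord (jF M kA) →
      (3 : ℤ) ∣ Ck (Finsupp.single x 1) v - (if x = v then 1 + (ℓ : ℤ) else 0) := by
    intro x hx hx3
    obtain ⟨P, hPx, hP⟩ := hr.exists_elliptic hx hx3
    set D : Divisor Qb F0 := Finsupp.single P 1 - Finsupp.single Pp 1 with hD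
    have hdeg : Divisor.degree D = 0 := by
      rw [hD, map_sub, Divisor.degree_single, Divisor.degree_single, Kronecker.deg_eq_one_bar,
        Kronecker.deg_eq_one_bar, sub_self]
    have h1 : Finsupp.mapDomain r (C0 D) v = Ck (Finsupp.mapDomain r D) v := by
      show Finsupp.mapDomain r (Divisor.pushforwardAlong (heckeAlphaBar Qb M ℓ) hα0
          (Divisor.pullbackAlong (heckeBetaBar Qb M ℓ) hβ0 D)) v =
        Divisor.pushforwardAlong (Kronecker.alphaC kA M ℓ) hαk
          (Divisor.pullbackAlong (Kronecker.betaC kA M ℓ) hβk (Finsupp.mapDomain r D)) v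
      rw [Kronecker.mapDomain_pushforwardAlong_compat _ hα0 _ hαk hres (Kronecker.deg_eq_one_bar M)
          (Kronecker.deg_eq_one_bar (M * ℓ)) FF.deg_eq_one FF.deg_eq_one,
        Kronecker.mapDomain_pullbackAlong_compat _ hβ0 (Kronecker.betaC kA M ℓ) hβk
          Kronecker.isReductionOf_beta hr.red hrM hr.gen (Kronecker.deg_eq_one_bar M)
          (Kronecker.deg_eq_one_bar (M * ℓ)) (Kronecker.hasRiemannBound_bar M) hFI
          (Kronecker.exists_ramificationIndexAlong_le _ hβk) hdeg]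
    have hR : Finsupp.mapDomain r D = Finsupp.single x 1 - Finsupp.single (r Pp) 1 := by
      rw [hD, Finsupp.mapDomain_sub, Finsupp.mapDomain_single, Finsupp.mapDomain_single, hPx]
    rw [hR, map_sub Ck, Finsupp.sub_apply,
      correspondenceC_single_cusp hA h3ℓ hαk hβk (r Pp) hrPp v hv, sub_zero] at h1
    set S := (C0 D).support ∪ {P} with hS
    have hsub : (C0 D).support ⊆ S := Finset.subset_union_left
    have h2 : Finsupp.mapDomain r (C0 D) v = ∑ Q ∈ S.filter (fun Q => r Q = v), C0 D Q := by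
      rw [Reduction.mapDomain_apply_eq_sum]
      refine Finset.sum_subset (fun Q hQ => ?_) fun Q hQ hQ' => ?_
      · rw [Finset.mem_filter] at hQ ⊢; exact ⟨hsub hQ.1, hQ.2⟩
      · by_contra h
        exact hQ' (Finset.mem_filter.mpr ⟨Finsupp.mem_support_iff.mpr h, (Finset.mem_filter.mp hQ).2⟩)
    have h3 : (if x = v then 1 + (ℓ : ℤ) else 0) =
        ∑ Q ∈ S.filter (fun Q => r Q = v), (if Q = P then 1 + (ℓ : ℤ) else 0) := by
      rw [Finset.sum_ite_eq']
      simp only [Finset.mem_filter, hS, Finset.mem_union, Finset.mem_singleton, or_true, true_and,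
        hPx]
    rw [← h1, h2, h3, ← Finset.sum_sub_distrib]
    refine Finset.dvd_sum fun Q hQ => ?_
    have hQaff : 0 ≤ Q.ord (ModularPlaces.jB M) := by
      rw [← jParam_eq_jB A]
      exact hr.ord_nonneg (by rw [(Finset.mem_filter.mp hQ).2]; exact hv)
    rw [hD, map_sub, Finsupp.sub_apply, correspondence_single_cusp hα0 hβ0 Pp
      (by rwa [← jParam_eq_jB A]) Q hQaff, sub_zero]
    exact dvd_correspondence_single hℓ hℓM hα0 hβ0 P hP Q hQaff
  -- the divisor of the function
  haveI : HasPrincipalDivisors kA E0 := inferInstance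
  obtain ⟨E, hE, -⟩ := HasPrincipalDivisors.exists_divisor (K := kA) u hu
  have h := Kronecker.correspondence_apply_eq_ord_norm (Kronecker.betaC kA M ℓ)
    (Kronecker.alphaC kA M ℓ) hβk hαk (FF.finiteAlong _)
    (FF.normFormulaAlong _ (FF.finiteAlong _) hsep) hu hE v
  show _ ∣ v.ord (letI := algebraAlong (Kronecker.alphaC kA M ℓ);
    Algebra.norm _ (Kronecker.betaC kA M ℓ u)) - _
  rw [← h, ← hE]
  change (3 : ℤ) ∣ Ck E v - (1 + (ℓ : ℤ)) * E v
  have hsplit : ∀ (x : Place kA E0) (n : ℤ), Ck (Finsupp.single x n) v =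
      n * Ck (Finsupp.single x 1) v := fun x n => by
    rw [← smul_eq_mul, ← Finsupp.smul_apply, ← map_zsmul, Finsupp.smul_single, smul_eq_mul, mul_one]
  have hEsum : Ck E v = ∑ x ∈ E.support, E x * Ck (Finsupp.single x 1) v := by
    conv_lhs => rw [← Finsupp.sum_single E, Finsupp.sum, map_sum, Finsupp.finsetSum_apply]
    exact Finset.sum_congr rfl fun x _ => hsplit x _
  have hδ : (1 + (ℓ : ℤ)) * E v =
      ∑ x ∈ E.support, E x * (if x = v then 1 + (ℓ : ℤ) else 0) := by
    rw [Finset.sum_eq_single v (fun x _ hne => by rw [if_neg hne, mul_zero])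
      (fun hv' => by rw [Finsupp.notMem_support_iff.mp hv', zero_mul]), if_pos rfl, mul_comm]
  rw [hEsum, hδ, ← Finset.sum_sub_distrib]
  refine Finset.dvd_sum fun x _ => ?_
  rw [← mul_sub]
  rcases lt_or_ge (x.ord (jF M kA)) 0 with hx | hx
  · rw [hCk, correspondenceC_single_cusp hA h3ℓ hαk hβk x hx v hv, if_neg]
    · simp
    · rintro rfl; omega
  · by_cases hx3 : (3 : ℤ) ∣ x.ord (jF M kA)
    · exact dvd_mul_of_dvd_left (by rw [hE]; exact hdvd x hx hx3) _
    · exact dvd_mul_of_dvd_right (key x hx hx3) _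

/-- A non-Eisenstein eigen logarithmic derivative whose exceptional orders are at the places with
`3 ∤ ord j` has no exceptional orders. -/
theorem dvd_ord_of_eigen (hA : A.LiesOverPrime 3) (hM : ¬ 3 ∣ M) (hℓ : ℓ.Prime) (hℓM : ¬ ℓ ∣ M)
    (hℓ3 : ℓ ≠ 3) {u : E0} (hu : u ≠ 0)
    (hdvd : ∀ v : Place kA E0, 0 ≤ v.ord (jF M kA) → (3 : ℤ) ∣ v.ord (jF M kA) → (3 : ℤ) ∣ v.ord u)
    (aℓ : ℤ) (heig : MazurP.IsHeckeEigen (qDlog (u : LaurentSeries kA)) ℓ aℓ)
    (hne : ¬ (3 : ℤ) ∣ aℓ - 1 - ℓ) (v : Place kA E0) (hv : 0 ≤ v.ord (jF M kA)) :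
    (3 : ℤ) ∣ v.ord u := by
  haveI := GalCommon.isAlgClosed_residueField A (Fact.out : Nat.Prime 3) hA
  haveI := GalCommon.charP_residueField (Fact.out : Nat.Prime 3) hA
  obtain ⟨hW0, hW⟩ := MazurP.qDlog_normRes hA hM hℓ hℓM hℓ3 hu
  set W := MazurP.normRes M ℓ A (Kronecker.betaC kA M ℓ u) with hWdef
  have hWs : (W : LaurentSeries kA) ≠ 0 := fun e => hW0 (Subtype.ext e)
  have hus : (u : LaurentSeries kA) ≠ 0 := fun e => hu (Subtype.ext e)
  set G := W * u ^ (-aℓ) with hG
  have hθ : qTheta (G : LaurentSeries kA) = 0 := by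
    have hG0 : (G : LaurentSeries kA) ≠ 0 := by
      rw [hG, MulMemClass.coe_mul, MazurP.coe_zpow_intermediate]
      exact mul_ne_zero hWs (zpow_ne_zero _ hus)
    rw [MazurP.qTheta_eq_mul_qDlog hG0]
    refine mul_eq_zero_of_right _ ?_
    rw [hG, MulMemClass.coe_mul, MazurP.coe_zpow_intermediate,
      MazurP.qDlog_mul hWs (zpow_ne_zero _ hus), MazurP.qDlog_zpow hus]
    ext n
    simp only [HahnSeries.coeff_add, HahnSeries.coeff_smul, HahnSeries.coeff_zero, hW]
    rw [show MazurP.heckeCoeff ℓ (qDlog (u : LaurentSeries kA)) n =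
      (aℓ : kA) * (qDlog (u : LaurentSeries kA)).coeff n from heig n]
    simp only [zsmul_eq_mul]
    push_cast
    ring
  have h1 := MazurP.dvd_ord_of_qTheta_eq_zero A hA hM hθ v
  rw [hG, v.ord_mul hW0 (zpow_ne_zero _ hu), v.ord_zpow] at h1
  have h2 := dvd_ord_normRes_sub hA hM hℓ hℓM hℓ3 hu hdvd v hv
  rw [← hWdef] at h2
  have h3 : (3 : ℤ) ∣ (aℓ - 1 - ℓ) * v.ord u := by
    have := Int.dvd_sub h2 h1
    convert this using 1
    ring
  exact ((Nat.prime_iff_prime_int.mp Nat.prime_three).dvd_or_dvd h3).resolve_left hne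

end FLTAgent.AtP
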