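/-
Characteristic `3`: the unit `j(2τ)/j(τ)`, the cube root `y` of `j⁴/j(2τ)²` and the differential of
`j` where it vanishes to order six.
-/
import Fermat.Agent.AtP.ThreeRed
import Fermat.Agent.MazurP.QEigenReg
import Fermat.Agent.MazurP.ThetaKer
import Fermat.Agent.MazurP.FrameUnit
import Fermat.Agent.MazurP.QEigenSS
import Fermat.Agent.Kronecker.Ramification
import Fermat.Agent.ModularCosets.CosetIndex

/-!
# Functions of level `2` in characteristic `3`

`ySer` is the series `∏ (1 - q²ⁿ)¹⁶ (1 - qⁿ)⁻³²`, a cube root of `j⁴ / j(2τ)²`; its logarithmic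
derivative is an eigen series with eigenvalues `1 + ℓ` (`isHeckeEigen_qDlog_ySer`).
`ord_jTwo`: `j(τ)` and `j(2τ)` have the same orders where `j` is finite, as their quotient is a
modular unit. `exists_yFun`: the series is a function with `3 ord y = 2 ord j` there.
`seven_le_ordDifferential`: where `j` vanishes to order six, `dj` vanishes to order at least seven.
-/

set_option autoImplicit false
set_option linter.style.haveILetI false
set_option linter.unusedSectionVars false

noncomputable section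

open AlgebraicCurve ModularCurve

namespace FLTAgent.AtP

attribute [local instance 5000] SubalgebraClass.toAlgebra HahnSeries.powerSeriesAlgebra

open FLTAgent.MazurP (qDlog qTheta heckeCoeff negSigma)
open FLTAgent.Reduction (integralExp expToBar expToRes jF poleDiv divOf etaSer etaSerInv jParam)

section Series

variable {k : Type*} [Field k] [CharP k 3]

theorem natCast_three : (3 : k) = 0 := by exact_mod_cast CharP.cast_eq_zero k 3

theorem jqModC_eq_etaSerInv : jqModC k = etaSerInv k := by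
  have h4 : eisenstein4.map (Int.castRingHom k) = 1 := by
    refine PowerSeries.ext fun n => ?_
    rw [PowerSeries.coeff_map, PowerSeries.coeff_one, eisenstein4, PowerSeries.coeff_mk]
    split_ifs
    · simp
    · rw [map_mul, map_ofNat, show (240 : k) = 3 * 80 by norm_num, natCast_three]
      simp
  rw [jqModC, etaSerInv, jNum, map_mul (PowerSeries.map (Int.castRingHom k)),
    map_pow, h4, one_pow, one_mul]

theorem jqModC_mul_etaSer : jqModC k * etaSer k = 1 := by
  rw [jqModC_eq_etaSerInv, mul_comm]; exact Reduction.etaSer_mul_inv k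

theorem jqModC_ne_zero' : jqModC k ≠ 0 := left_ne_zero_of_mul_eq_one jqModC_mul_etaSer

theorem qExpand_two_jqModC_ne_zero : qExpand k 2 (jqModC k) ≠ 0 :=
  (map_ne_zero _).mpr jqModC_ne_zero'

theorem eTwo_eq_one : MazurP.eTwo k = 1 := by
  have h24 : ((24 : PowerSeries ℤ) * negSigma).map (Int.castRingHom k) = 0 := by
    rw [map_mul, map_ofNat, show (24 : PowerSeries k) = PowerSeries.C ((3 : k) * 8) by
      rw [show (3 : k) * 8 = 24 by norm_num, map_ofNat], natCast_three]
    simp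
  rw [MazurP.eTwo, map_add, map_one, h24, add_zero, map_one]

theorem qDlog_jqModC : qDlog (jqModC k) = -1 := by
  have h : jqModC k = (MazurP.deltaR k)⁻¹ := eq_inv_of_mul_eq_one_left jqModC_mul_etaSer
  rw [h, MazurP.qDlog_inv, MazurP.qDlog_deltaR, eTwo_eq_one]

theorem qDlog_qExpand_two_jqModC : qDlog (qExpand k 2 (jqModC k)) = 1 := by
  rw [MazurP.qDlog_qExpand, qDlog_jqModC, map_neg, map_one]
  have h : (3 : LaurentSeries k) = 0 := by
    rw [show (3 : LaurentSeries k) = HahnSeries.C (3 : k) by rw [map_ofNat], natCast_three, map_zero]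
  push_cast
  linear_combination -h

/-- `∏ (1 - qⁿ)` as a Laurent series. -/
def etaL (k : Type*) [Field k] : LaurentSeries k :=
  HahnSeries.ofPowerSeries ℤ k (etaProd.map (Int.castRingHom k))

/-- `- ∑ σ₁(n) qⁿ` as a Laurent series. -/
def sigL (k : Type*) [Field k] : LaurentSeries k :=
  HahnSeries.ofPowerSeries ℤ k (negSigma.map (Int.castRingHom k))

theorem etaL_ne_zero : etaL k ≠ 0 := fun h => by
  have := congrArg (fun x : LaurentSeries k => x.coeff ((0 : ℕ) : ℤ)) h
  simp only [etaL, HahnSeries.ofPowerSeries_apply_coeff, PowerSeries.coeff_map,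
    PowerSeries.coeff_zero_eq_constantCoeff, constantCoeff_etaProd] at this
  simp at this

theorem etaSer_eq_etaL : etaSer k = HahnSeries.single (1 : ℤ) 1 * etaL k ^ 24 := by
  rw [etaSer, etaL, dedekindEtaUnit, map_pow, map_pow]

theorem qDlog_etaL : qDlog (etaL k) = sigL k := by
  rw [qDlog, etaL, MazurP.qTheta_ofPowerSeries, MazurP.psTheta_map, MazurP.psTheta_etaProd,
    map_mul, map_mul, sigL]
  exact mul_div_cancel_left₀ _ (etaL_ne_zero (k := k))

/-- The series `∏ (1 - q²ⁿ)¹⁶ (1 - qⁿ)⁻³²`. -/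
def ySer (k : Type*) [Field k] : LaurentSeries k := qExpand k 2 (etaL k) ^ 16 / etaL k ^ 32

theorem ySer_pow_three : ySer k ^ 3 = jqModC k ^ 4 / qExpand k 2 (jqModC k) ^ 2 := by
  have hj : jqModC k = (etaSer k)⁻¹ := eq_inv_of_mul_eq_one_left jqModC_mul_etaSer
  have hE := etaL_ne_zero (k := k)
  have hE2 : qExpand k 2 (etaL k) ≠ 0 := (map_ne_zero _).mpr hE
  rw [ySer, hj, map_inv₀, etaSer_eq_etaL, map_mul, map_pow, qExpand_single]
  simp only [inv_pow, mul_pow, HahnSeries.single_pow, one_pow, inv_div_inv, div_pow, ← pow_mul]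
  norm_num
  field_simp

theorem ySer_ne_zero : ySer k ≠ 0 :=
  div_ne_zero (pow_ne_zero _ ((map_ne_zero _).mpr etaL_ne_zero)) (pow_ne_zero _ etaL_ne_zero)

theorem qDlog_ySer : qDlog (ySer k) = sigL k - qExpand k 2 (sigL k) := by
  have hE := etaL_ne_zero (k := k)
  have hE2 : qExpand k 2 (etaL k) ≠ 0 := (map_ne_zero _).mpr hE
  rw [ySer, MazurP.qDlog_div (pow_ne_zero _ hE2) (pow_ne_zero _ hE), MazurP.qDlog_pow hE2,
    MazurP.qDlog_pow hE, MazurP.qDlog_qExpand, qDlog_etaL, nsmul_eq_mul, nsmul_eq_mul]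
  have h : (3 : LaurentSeries k) = 0 := by
    rw [show (3 : LaurentSeries k) = HahnSeries.C (3 : k) by rw [map_ofNat], natCast_three, map_zero]
  push_cast
  linear_combination (11 * qExpand k 2 (sigL k) - 11 * sigL k) * h

theorem heckeCoeff_sigL {ℓ : ℕ} (hℓ : ℓ.Prime) (n : ℤ) :
    heckeCoeff ℓ (sigL k) n = (1 + (ℓ : k)) * (sigL k).coeff n := by
  rcases le_or_gt 0 n with h | h
  · obtain ⟨m, rfl⟩ := Int.eq_ofNat_of_zero_le h
    have e : ∀ i : ℕ, (sigL k).coeff (i : ℤ) = ((-∑ d ∈ i.divisors, (d : ℤ) : ℤ) : k) := fun i => by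
      rw [sigL, HahnSeries.ofPowerSeries_apply_coeff, PowerSeries.coeff_map, negSigma,
        PowerSeries.coeff_mk]
      rfl
    rw [heckeCoeff, ← Int.natCast_mul, e, ← Int.natCast_div, e, e]
    simp only [Int.natCast_dvd_natCast]
    rcases eq_or_ne m 0 with rfl | hm
    · simp
    · have h2 := congrArg (fun z : ℤ => ((-z : ℤ) : k)) (MazurP.sum_divisors_nat_mul hℓ hm)
      split_ifs at h2 ⊢ with hd
      · push_cast at h2 ⊢; linear_combination h2
      · push_cast at h2 ⊢; linear_combination h2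
  · have e : ∀ i : ℤ, i < 0 → (sigL k).coeff i = 0 := fun i hi =>
      ofPowerSeries_coeff_of_neg _ hi
    have hℓn : (ℓ : ℤ) * n < 0 := mul_neg_of_pos_of_neg (by exact_mod_cast hℓ.pos) h
    rw [heckeCoeff, e n h, e _ hℓn, mul_zero]
    split_ifs with hd
    · rw [e _ (Int.ediv_neg_of_neg_of_pos h (by exact_mod_cast hℓ.pos))]
      simp
    · simp

theorem heckeCoeff_qExpand_two {ℓ : ℕ} (hℓ : ℓ.Prime) (hℓ2 : ℓ ≠ 2) (c : LaurentSeries k) (a : k)
    (h : ∀ n, heckeCoeff ℓ c n = a * c.coeff n) (n : ℤ) :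
    heckeCoeff ℓ (qExpand k 2 c) n = a * (qExpand k 2 c).coeff n := by
  have hodd : ¬ (2 : ℤ) ∣ (ℓ : ℤ) := by
    rw [show (2 : ℤ) = ((2 : ℕ) : ℤ) from rfl, Int.natCast_dvd_natCast]
    exact fun h' => hℓ2 ((Nat.prime_dvd_prime_iff_eq Nat.prime_two hℓ).mp h').symm
  have hℓ0 : (ℓ : ℤ) ≠ 0 := by exact_mod_cast hℓ.ne_zero
  have h2p : Prime (2 : ℤ) := Int.prime_two
  by_cases hn : (2 : ℤ) ∣ n
  · obtain ⟨m, rfl⟩ := hn
    have hm := h m
    rw [heckeCoeff] at hm ⊢
    rw [show (ℓ : ℤ) * (2 * m) = ((2 : ℕ) : ℤ) * ((ℓ : ℤ) * m) by push_cast; ring, qExpand_coeff_mul,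
      show (2 : ℤ) * m = ((2 : ℕ) : ℤ) * m by norm_num, qExpand_coeff_mul, ← hm]
    congr 1
    have hiff : (ℓ : ℤ) ∣ ((2 : ℕ) : ℤ) * m ↔ (ℓ : ℤ) ∣ m := by
      refine ⟨fun hd => ?_, fun hd => dvd_mul_of_dvd_right hd _⟩
      refine ((Nat.prime_iff_prime_int.mp hℓ).dvd_or_dvd hd).resolve_left fun hd' => hℓ2 ?_
      exact (Nat.prime_dvd_prime_iff_eq hℓ Nat.prime_two).mp (Int.natCast_dvd_natCast.mp hd')
    simp only [hiff]
    split_ifs with hd
    · obtain ⟨r, rfl⟩ := hd
      rw [show ((2 : ℕ) : ℤ) * ((ℓ : ℤ) * r) = (ℓ : ℤ) * (((2 : ℕ) : ℤ) * r) by ring,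
        Int.mul_ediv_cancel_left _ hℓ0, qExpand_coeff_mul, Int.mul_ediv_cancel_left _ hℓ0]
    · rfl
  · have e1 : ¬ ((2 : ℕ) : ℤ) ∣ (ℓ : ℤ) * n := fun hd =>
      (h2p.dvd_or_dvd hd).elim hodd hn
    rw [heckeCoeff, qExpand_coeff_of_not_dvd 2 _ e1, qExpand_coeff_of_not_dvd 2 _ hn, mul_zero,
      zero_add]
    split_ifs with hd
    · rw [qExpand_coeff_of_not_dvd 2 _ fun h' => hn ?_, mul_zero]
      obtain ⟨r, rfl⟩ := hd
      rw [Int.mul_ediv_cancel_left _ hℓ0] at h'
      exact dvd_mul_of_dvd_right h' _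
    · rfl

/-- The logarithmic derivative of `ySer` is Eisenstein. -/
theorem isHeckeEigen_qDlog_ySer {ℓ : ℕ} (hℓ : ℓ.Prime) (hℓ2 : ℓ ≠ 2) :
    MazurP.IsHeckeEigen (qDlog (ySer k)) ℓ (1 + ℓ) := fun n => by
  show heckeCoeff ℓ (qDlog (ySer k)) n = _
  rw [qDlog_ySer, MazurP.heckeCoeff_sub, HahnSeries.coeff_sub, heckeCoeff_sigL hℓ,
    heckeCoeff_qExpand_two hℓ hℓ2 _ _ (heckeCoeff_sigL hℓ)]
  push_cast
  ring

end Series

local notation "Qb" => AlgebraicClosure ℚ

variable [Fact (Nat.Prime 3)] {L : ℕ} [NeZero L] {A : ValuationSubring Qb}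

local notation "kA" => IsLocalRing.ResidueField A
local notation "E0" => modularFunctionFieldFullC kA L

/-- `j (2τ)` in the reduced function field. -/
def jTwo (k : Type*) [Field k] {L : ℕ} [NeZero L] (h : 2 ∣ L) : modularFunctionFieldFullC k L :=
  ⟨qExpand k 2 (jqModC k), jqModCd_mem_full k L h⟩

theorem coe_jF (k : Type*) [Field k] : (jF L k : LaurentSeries k) = jqModC k := rfl

theorem jTwo_ne_zero (h : 2 ∣ L) (hA : A.LiesOverPrime 3) : jTwo kA h ≠ 0 := fun e => by
  haveI := GalCommon.charP_residueField (Fact.out : Nat.Prime 3) hA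
  exact qExpand_two_jqModC_ne_zero (congrArg Subtype.val e)

theorem jF_ne_zero : jF L kA ≠ 0 := fun e =>
  Reduction.transcendental_jF L kA (e ▸ isAlgebraic_zero)

/-- `j(τ)` and `j(2τ)` have the same orders where they are finite. -/
theorem ord_jTwo (hA : A.LiesOverPrime 3) (hL : ¬ 3 ∣ L) (h : 2 ∣ L)
    (Q : Place kA E0) (hQ : 0 ≤ Q.ord (jF L kA)) :
    Q.ord (jTwo kA h) = Q.ord (jF L kA) := by
  classical
  haveI : Fact (Nat.Prime 2) := ⟨Nat.prime_two⟩
  haveI := GalCommon.charP_residueField (Fact.out : Nat.Prime 3) hA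
  obtain ⟨r, hRJ⟩ := exists_redJ (M := L) hA hL
  obtain ⟨-, hr⟩ := id hRJ.red
  have hC := Reduction.curveData_bar L
  set S : LaurentSeries A := etaSer A * qExpand A 2 (etaSerInv A) with hS
  have hinvmap : ∀ (R : Type) [CommRing R] (f : A →+* R), coeffMap f (etaSerInv A) = etaSerInv R := by
    intro R _ f
    refine left_inv_eq_right_inv (a := etaSer R) ?_ (Reduction.etaSer_mul_inv R)
    rw [← Reduction.coeffMap_etaSer f, ← map_mul, mul_comm, Reduction.etaSer_mul_inv, map_one]
  have hSb : coeffMap A.subtype S = coeffEmb Qb (modularUnitSeries 2) := by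
    rw [hS, map_mul, Reduction.coeffMap_etaSer, coeffMap_qExpand, hinvmap, modularUnitSeries,
      map_mul, map_inv₀, deltaSeriesN, coeffEmb, coeffMap_qExpand]
    have e : coeffMap (algebraMap ℚ Qb) deltaSeries = etaSer Qb :=
      Mazur.coeffEmb_deltaSeries Qb
    rw [e]
    congr 1
    exact eq_inv_of_mul_eq_one_left (by
      rw [← map_mul, mul_comm, Reduction.etaSer_mul_inv, map_one])
  have hSk : coeffMap (IsLocalRing.residue A) S = qExpand kA 2 (jqModC kA) / jqModC kA := by
    rw [hS, map_mul, Reduction.coeffMap_etaSer, coeffMap_qExpand, hinvmap, jqModC_eq_etaSerInv,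
      eq_div_iff (by rw [← jqModC_eq_etaSerInv]; exact jqModC_ne_zero'), mul_right_comm,
      Reduction.etaSer_mul_inv, one_mul]
  have hmem : coeffMap A.subtype S ∈ modularFunctionFieldBar L := by
    rw [hSb]; exact MazurP.bar_le_bar h (Mazur.coeffEmb_unit_mem 2)
  have hmemk : coeffMap (IsLocalRing.residue A) S ∈ modularFunctionFieldFullC kA L := by
    rw [hSk]; exact div_mem (jqModCd_mem_full kA L h) (jqModC_mem_full kA L)
  have hne : coeffMap (IsLocalRing.residue A) S ≠ 0 := by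
    rw [hSk]; exact div_ne_zero qExpand_two_jqModC_ne_zero jqModC_ne_zero'
  have e := hr S hmem hmemk hne _ (fun P => hC.divOf_apply _ P) Q
  have hu : (⟨_, hmemk⟩ : E0) = jTwo kA h / jF L kA := Subtype.ext (by
    show coeffMap (IsLocalRing.residue A) S = _
    rw [hSk]; rfl)
  rw [hu, div_eq_mul_inv, Q.ord_mul (jTwo_ne_zero h hA) (inv_ne_zero jF_ne_zero), Place.ord_inv,
    Reduction.mapDomain_apply_eq_sum] at e
  suffices hz : ∑ P ∈ (divOf (⟨_, hmem⟩ : modularFunctionFieldBar L) :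
      Divisor Qb (modularFunctionFieldBar L)).support.filter (fun a => r a = Q),
      (divOf (⟨_, hmem⟩ : modularFunctionFieldBar L) :
        Divisor Qb (modularFunctionFieldBar L)) P = 0 by
    rw [hz] at e; omega
  refine Finset.sum_eq_zero fun P hP => ?_
  rw [hC.divOf_apply]
  have hPj : 0 ≤ P.ord (jParam A L) :=
    hRJ.ord_nonneg (by rw [(Finset.mem_filter.mp hP).2]; exact hQ)
  haveI := Reduction.isFF_bar_curve L
  let φ : modularFunctionFieldBar 2 →ₐ[Qb] modularFunctionFieldBar L :=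
    IntermediateField.inclusion (MazurP.bar_le_bar h)
  have hφ := FF.isIntegral_alongFF φ
  have he : φ (Mazur.uB 2) = ⟨_, hmem⟩ := Subtype.ext hSb.symm
  have hj : φ (ModularPlaces.jB 2) = jParam A L := Subtype.ext (Reduction.coe_jParam A L).symm
  rw [← hj, Place.ord_restrictAlong φ hφ] at hPj
  rw [← he, Place.ord_restrictAlong φ hφ, Mazur.ord_uB_of_nonneg, mul_zero]
  exact nonneg_of_mul_nonneg_right hPj (by exact_mod_cast FF.ramificationIndexAlong_pos φ hφ P)

/-- The cube root `y` of `j⁴ / j(2τ)²`. -/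
theorem exists_yFun (hA : A.LiesOverPrime 3) (hL : ¬ 3 ∣ L) (h : 2 ∣ L) :
    ∃ y : E0, y ≠ 0 ∧ (y : LaurentSeries kA) = ySer kA ∧
      ∀ Q : Place kA E0, 0 ≤ Q.ord (jF L kA) → 3 * Q.ord y = 2 * Q.ord (jF L kA) := by
  haveI := GalCommon.charP_residueField (Fact.out : Nat.Prime 3) hA
  set z : E0 := jF L kA ^ 4 / jTwo kA h ^ 2 with hz
  have hzs : (z : LaurentSeries kA) = ySer kA ^ 3 := by
    rw [hz, IntermediateField.coe_div, ySer_pow_three]
    rfl
  have hθ : qTheta (z : LaurentSeries kA) = 0 := by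
    rw [hzs]; exact MazurP.qTheta_pow_char_eq_zero (by norm_num) _
  obtain ⟨y, hy⟩ := MazurP.exists_pow_eq_of_qTheta_eq_zero A hA hL hθ
  have hys : (y : LaurentSeries kA) = ySer kA := by
    haveI : Fact (Nat.Prime 3) := inferInstance
    haveI : CharP (LaurentSeries kA) 3 :=
      charP_of_injective_algebraMap (algebraMap kA (LaurentSeries kA)).injective 3
    haveI : ExpChar (LaurentSeries kA) 3 := .prime Nat.prime_three
    refine frobenius_inj (LaurentSeries kA) 3 ?_
    show (y : LaurentSeries kA) ^ 3 = ySer kA ^ 3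
    rw [← hzs, hy]; rfl
  have hy0 : y ≠ 0 := fun e => ySer_ne_zero (hys.symm.trans (congrArg Subtype.val e))
  refine ⟨y, hy0, hys, fun Q hQ => ?_⟩
  have e : Q.ord (y ^ 3) = Q.ord z := by rw [← hy]
  rw [hz, FF.ord_pow, div_eq_mul_inv, Q.ord_mul (pow_ne_zero _ jF_ne_zero)
    (inv_ne_zero (pow_ne_zero _ (jTwo_ne_zero h hA))), Place.ord_inv, FF.ord_pow, FF.ord_pow,
    ord_jTwo hA hL h Q hQ] at e
  push_cast at e
  omega

private theorem D_cube_smul {K F : Type*} [Field K] [Field F] [Algebra K F] [CharP F 3] (c u : F) :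
    KaehlerDifferential.D K F (c ^ 3 • u) = c ^ 3 • KaehlerDifferential.D K F u := by
  rw [smul_eq_mul, Derivation.leibniz, Derivation.leibniz_pow, ← Nat.cast_smul_eq_nsmul F,
    CharP.cast_eq_zero, zero_smul, smul_zero, add_zero]

private theorem D_ne_zero_of_cube_smul {K F : Type*} [Field K] [Field F] [Algebra K F] [CharP F 3]
    {c u : F} (h : KaehlerDifferential.D K F (c ^ 3 • u) ≠ 0) : KaehlerDifferential.D K F u ≠ 0 :=
  fun e => h (by rw [D_cube_smul, e, smul_zero])

private theorem D_eq_zero_of_eq {K F : Type*} [Field K] [Field F] [Algebra K F] {u : F} {a : K}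
    (h : u = algebraMap K F a) : KaehlerDifferential.D K F u = 0 := by
  rw [h, Derivation.map_algebraMap]

private theorem D_sub_const {K F : Type*} [Field K] [Field F] [Algebra K F] (u : F) (a : K) :
    KaehlerDifferential.D K F (u - algebraMap K F a) = KaehlerDifferential.D K F u := by
  rw [map_sub, Derivation.map_algebraMap, sub_zero]

/-- Where `j` vanishes to order six its differential vanishes to order seven. -/
theorem seven_le_ordDifferential (hA : A.LiesOverPrime 3) (hL : ¬ 3 ∣ L) (h : 2 ∣ L)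
    (Q : Place kA E0) (hQ : Q.ord (jF L kA) = 6) :
    7 ≤ Q.ordDifferential (KaehlerDifferential.D kA E0 (jF L kA)) := by
  haveI := GalCommon.charP_residueField (Fact.out : Nat.Prime 3) hA
  haveI := GalCommon.isAlgClosed_residueField A (Fact.out : Nat.Prime 3) hA
  haveI := Reduction.isFF_fullC_residue L A hA hL
  have h32 : ¬ 3 ∣ 2 := by norm_num
  haveI := Reduction.isFF_fullC_residue 2 A hA h32
  haveI : CharP E0 3 := charP_of_injective_algebraMap (algebraMap kA E0).injective 3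
  have hj := jF_ne_zero (L := L) (A := A)
  have h2 := jTwo_ne_zero h hA
  set u : E0 := jTwo kA h / jF L kA with hu
  -- `j = u c³`
  have hθ : qTheta ((jF L kA / u : E0) : LaurentSeries kA) = 0 := by
    have hjs := jqModC_ne_zero' (k := kA)
    have hj2s := qExpand_two_jqModC_ne_zero (k := kA)
    have e : ((jF L kA / u : E0) : LaurentSeries kA) =
        jqModC kA / (qExpand kA 2 (jqModC kA) / jqModC kA) := rfl
    have hne : jqModC kA / (qExpand kA 2 (jqModC kA) / jqModC kA) ≠ 0 :=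
      div_ne_zero hjs (div_ne_zero hj2s hjs)
    rw [e, MazurP.qTheta_eq_mul_qDlog hne, MazurP.qDlog_div hjs (div_ne_zero hj2s hjs),
      MazurP.qDlog_div hj2s hjs, qDlog_jqModC, qDlog_qExpand_two_jqModC]
    have h3 : (3 : LaurentSeries kA) = 0 := by
      rw [show (3 : LaurentSeries kA) = HahnSeries.C (3 : kA) by rw [map_ofNat], natCast_three,
        map_zero]
    refine mul_eq_zero_of_right _ ?_
    linear_combination -h3
  obtain ⟨c, hc⟩ := MazurP.exists_pow_eq_of_qTheta_eq_zero A hA hL hθ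
  have hu0 : u ≠ 0 := div_ne_zero h2 hj
  have hju : jF L kA = c ^ 3 • u := by rw [smul_eq_mul, ← hc, div_mul_cancel₀ _ hu0]
  have hordu : Q.ord u = 0 := by
    rw [hu, div_eq_mul_inv, Q.ord_mul h2 (inv_ne_zero hj), Place.ord_inv,
      ord_jTwo hA hL h Q (by omega)]
    omega
  have hc0 : c ≠ 0 := fun e => hj (by rw [hju, e]; simp)
  have hordc : Q.ord (c ^ 3) = 6 := by
    rw [← hc, div_eq_mul_inv, Q.ord_mul hj (inv_ne_zero hu0), Place.ord_inv, hordu, hQ]; rfl
  have hD : KaehlerDifferential.D kA E0 (jF L kA) = c ^ 3 • KaehlerDifferential.D kA E0 u := by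
    rw [hju, D_cube_smul]
  have hDj := FF.D_ne_zero_of_isSep (MazurP.isSep_jF A hA hL)
  have hDu : KaehlerDifferential.D kA E0 u ≠ 0 := D_ne_zero_of_cube_smul (c := c) (hju ▸ hDj)
  rw [hD, FF.ordDifferential_smul_of_ne_zero Q (pow_ne_zero _ hc0) hDu, hordc]
  -- `u` comes from level two, where `Q` is ramified
  let φ : modularFunctionFieldFullC kA 2 →ₐ[kA] E0 :=
    IntermediateField.inclusion (full_degeneracyC_le kA h)
  have hφ := FF.isIntegral_alongFF φ
  have hφj : φ (jF 2 kA) = jF L kA := Subtype.ext rfl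
  set u₂ : modularFunctionFieldFullC kA 2 := jTwo kA (L := 2) dvd_rfl / jF 2 kA with hu₂
  have hφu : φ u₂ = u := Subtype.ext rfl
  have hpos := FF.ramificationIndexAlong_pos φ hφ Q
  have e6 := Place.ord_restrictAlong φ hφ Q (jF 2 kA)
  rw [hφj, hQ] at e6
  set w := Q.restrictAlong φ hφ with hw
  have hwpos : 0 < w.ord (jF 2 kA) := by
    by_contra hn
    have := mul_nonpos_of_nonneg_of_nonpos (Int.natCast_nonneg (Q.ramificationIndexAlong φ))
      (not_lt.mp hn)
    omega
  have hwle : w.ord (jF 2 kA) ≤ 3 := by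
    have hdeg : ∀ v : Place kA (modularFunctionFieldFullC kA 2), v.deg = 1 := FF.deg_eq_one
    have h3 := Kronecker.apply_le_degree hdeg (E := FF.zeroDivisor (jF 2 kA))
      (fun v => by rw [FF.zeroDivisor_apply]; omega) w
    rw [FF.zeroDivisor_apply, Kronecker.degree_zeroDivisor_eq_degree_poleDivisor,
      show (FF.poleDivisor (jF 2 kA) : Divisor kA (modularFunctionFieldFullC kA 2)) =
        poleDiv (jF 2 kA) from Finsupp.ext fun v => by
          rw [FF.poleDivisor_apply, (Reduction.curveData_res A 2 hA h32).poleDiv_apply],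
      Reduction.degree_poleDiv_jF A 2 hA h32] at h3
    have hψ : dedekindPsi 2 = 3 := ModularCosets.dedekindPsi_prime_pow Nat.prime_two 0
    rw [hψ] at h3
    omega
  have hram : 2 ≤ (Q.ramificationIndexAlong φ : ℤ) := by
    by_contra hn
    have := mul_le_mul (show (Q.ramificationIndexAlong φ : ℤ) ≤ 1 by omega) hwle hwpos.le zero_le_one
    omega
  have hwu : w.ord u₂ = 0 := by
    rw [hu₂, div_eq_mul_inv, w.ord_mul (jTwo_ne_zero dvd_rfl hA) (inv_ne_zero jF_ne_zero),
      Place.ord_inv, ord_jTwo hA h32 dvd_rfl w hwpos.le]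
    omega
  obtain ⟨a, ha⟩ : ∃ a, u₂ - algebraMap kA _ a = 0 ∨ 1 ≤ w.ord (u₂ - algebraMap kA _ a) :=
    ⟨_, (Reduction.curveData_res A 2 hA h32).exists_valAt (Or.inr hwu.ge)⟩
  have hua : Q.ord (u - algebraMap kA E0 a) =
      (Q.ramificationIndexAlong φ : ℤ) * w.ord (u₂ - algebraMap kA _ a) := by
    rw [← hφu, ← AlgHom.commutes φ a, ← map_sub, Place.ord_restrictAlong φ hφ]
  have hDua : KaehlerDifferential.D kA E0 (u - algebraMap kA E0 a) ≠ 0 := by
    rw [D_sub_const]; exact hDu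
  have h5 := FF.ord_sub_one_le_ordDifferential_D Q hDua
  rw [D_sub_const] at h5
  rcases ha with ha | ha
  · exfalso
    apply hDu
    exact D_eq_zero_of_eq (by rw [← hφu, sub_eq_zero.mp ha, AlgHom.commutes] : u = algebraMap kA E0 a)
  · have := le_mul_of_one_le_right (Int.natCast_nonneg (Q.ramificationIndexAlong φ)) ha
    omega

end FLTAgent.AtP
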