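/-
Characteristic `3`: the nodes at a level divisible by `4` are the zeros of `j`, where it vanishes to
order `6`; at any level the orders of `j` at its zeros divide `6`.
-/
import Fermat.Agent.AtP.ThreeUnit
import Fermat.Agent.MazurP.FrameInst

/-!
# Nodes in characteristic `3`

`nodes_eq_zeros`: at a level divisible by `4` the nodes are the zeros of `j`, where it vanishes to
order `6`; `ord_jF_pos_of_node`: at any level prime to `3` nodes are zeros of `j`, since the unit
`Δ^(1-p)` vanishes there and corresponds to `j²`. Comparing with a place above at four times the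
level (`exists_above_four`) gives `ord_jF_dvd_six`: the order of `j` at a zero divides `6`.
-/

set_option autoImplicit false
set_option linter.style.haveILetI false
set_option linter.unusedSectionVars false
set_option maxHeartbeats 1000000
set_option synthInstance.maxHeartbeats 400000

noncomputable section

open AlgebraicCurve ModularCurve

namespace FLTAgent.AtP

open FLTAgent.MazurP (ssUnit deltaR ModFrame nonempty_modFrame)
open FLTAgent.Reduction (jF)
open FLTAgent.Kronecker (alphaC coe_alphaC)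

section NodePos

open SemilinearAut Reduction Lift Lift.Data MazurP

section Generic

variable {K k F F₀ E : Type*} [Field K] [Field k] [Field F] [Field F₀] [Field E] [Algebra K F]
  [Algebra K F₀] [Algebra k E] {A : ValuationSubring K} {π : A →+* k} {q g g' : ℕ}
  {D : Lift.Data A π q F F₀ E g g'} [Infinite k] {ϖ : K}

/-- The unit vanishes at the nodes on the first component. -/
theorem ord_red_node_pos_gen [IsAlgClosed K] (W : UnitFn D ϖ) (hϖ : ϖ ≠ 0) (hϖA : ϖ ∈ A)
    (hπ : π ⟨ϖ, hϖA⟩ = 0) {P : Place k E} (hP : P ∈ D.Xfin) :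
    0 < P.ord (D.Ginf.red W.w) := by
  set c : A := ⟨ϖ, hϖA⟩ ^ 12 with hc
  have hcK : (c : K) = ϖ ^ 12 := by simp [hc]
  have hw : W.w = (c : K) • ((ϖ⁻¹) ^ 12 • W.w) := by
    rw [smul_smul, hcK, ← mul_pow, mul_inv_cancel₀ hϖ, one_pow, one_smul]
  have hV : W.w ∈ D.Gzero.V := by
    rw [hw, Algebra.smul_def]
    exact D.Gzero.V.mul_mem (D.Gzero.const_mem c) W.mem_zero
  have hzero : D.Gzero.red W.w = 0 := by
    rw [hw, D.Gzero.red_smul c W.mem_zero, hc, map_pow, hπ, zero_pow (by norm_num), zero_smul]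
  obtain ⟨g1, -, g3⟩ := glue_at_node (D := D) hP W.mem_inf hV fun R hR => Or.inr
    (ord_eq_zero_of_sp_finite W (by
      rw [redSide_eq_iff.mp hR]; exact node_finite W (mem_Xfin.mp hP))).ge
  rw [hzero, valAt_zero] at g3
  rcases lt_or_eq_of_le (g1.resolve_left W.red_inf) with h | h
  · exact h
  · exact absurd g3 (Reduction.valAt_inv D.param.curveBar W.red_inf h.symm).1

end Generic

local notation "Qb" => AlgebraicClosure ℚ

variable {A : ValuationSubring Qb}

local notation "kA" => IsLocalRing.ResidueField A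

/-- `Δ^(1-p)` vanishes at the nodes, at any level prime to `p`. -/
theorem exists_ssUnit_pos_nodes {p M : ℕ} [NeZero p] [NeZero M] {hp : p.Prime}
    {hpM : ¬ p ∣ M} {hA : A.LiesOverPrime p} (T : ModFrame A p M hp hpM hA) :
    ∃ x : modularFunctionFieldFullC kA M,
      (x : LaurentSeries kA) = ssUnit kA p ∧ ∀ v ∈ T.Fr.nodes, 0 < v.ord x := by
  haveI := Fact.mk hp
  haveI := levelData_infinite A hp hA
  have hg := Reduction.genusFF_fullC_eq M A hA hpM
  set D := levelData A p M hp hpM hA with hD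
  let W : UnitFn D (p : Qb) := unitFnLevel hg
  refine ⟨D.Ginf.red W.w, (gval_levelUnit (M := M) (hA := hA)).2, fun v hv => ?_⟩
  rw [T.nodes_eq] at hv
  have hpA : (p : Qb) ∈ A := natCast_mem A p
  refine ord_red_node_pos_gen W (by exact_mod_cast hp.ne_zero) hpA ?_ hv
  show IsLocalRing.residue A ⟨(p : Qb), hpA⟩ = 0
  rw [← GalCommon.coe_mem_nonunits_iff_residue]
  exact hA

end NodePos

local notation "Qb" => AlgebraicClosure ℚ

variable [Fact (Nat.Prime 3)] {A : ValuationSubring Qb} {L : ℕ} [NeZero L]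

local notation "kA" => IsLocalRing.ResidueField A
local notation "E0" => modularFunctionFieldFullC kA L

theorem ssUnit_char_three {k : Type*} [Field k] [CharP k 3] : ssUnit k 3 = jqModC k ^ 2 := by
  have h : jqModC k = (deltaR k)⁻¹ := eq_inv_of_mul_eq_one_left jqModC_mul_etaSer
  rw [ssUnit, h, inv_pow]

/-- At any level the nodes are zeros of `j`. -/
theorem ord_jF_pos_of_node {hp : Nat.Prime 3} {hL : ¬ 3 ∣ L} {hA : A.LiesOverPrime 3}
    (T : ModFrame A 3 L hp hL hA) {v : Place kA E0} (hv : v ∈ T.Fr.nodes) :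
    0 < v.ord (jF L kA) := by
  haveI := GalCommon.charP_residueField hp hA
  obtain ⟨x, hx, hpos⟩ := exists_ssUnit_pos_nodes T
  have hxj : x = jF L kA ^ 2 := Subtype.ext (by rw [hx, ssUnit_char_three]; rfl)
  have h := hpos v hv
  rw [hxj, FF.ord_pow] at h
  push_cast at h
  omega

/-- Zeros of `j` at a level divisible by `4`. -/
theorem nodes_eq_zeros {hp : Nat.Prime 3} {hL : ¬ 3 ∣ L} {hA : A.LiesOverPrime 3}
    (T : ModFrame A 3 L hp hL hA) (h4 : 4 ∣ L) (v : Place kA E0) :
    (v ∈ T.Fr.nodes → v.ord (jF L kA) = 6) ∧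
      (v ∉ T.Fr.nodes → 0 ≤ v.ord (jF L kA) → v.ord (jF L kA) = 0) := by
  haveI := GalCommon.charP_residueField hp hA
  obtain ⟨-, x, hx, hnode, hsm⟩ := T.node_data h4
  have hxj : x = jF L kA ^ 2 := Subtype.ext (by rw [hx, ssUnit_char_three]; rfl)
  refine ⟨fun hv => ?_, fun hv h0 => ?_⟩
  · have h := (hnode v hv).2
    rw [hxj, FF.ord_pow] at h
    push_cast at h
    omega
  · have h := hsm v hv h0
    rw [hxj, FF.ord_pow] at h
    push_cast at h
    omega

/-- A place above, at four times the level. -/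
theorem exists_above_four [NeZero (L * 4)] (hA : A.LiesOverPrime 3) (hL : ¬ 3 ∣ L)
    (v : Place kA E0) :
    ∃ w : Place kA (modularFunctionFieldFullC kA (L * 4)), ∃ e : ℕ, 0 < e ∧
      (∀ g : E0, w.ord (alphaC kA L 4 g) = e * v.ord g) ∧
      (0 < v.ord (jF L kA) → (e : ℤ) * v.ord (jF L kA) = 6) := by
  have hL4 : ¬ 3 ∣ L * 4 := fun h => ((Nat.Prime.dvd_mul Nat.prime_three).mp h).elim hL (by norm_num)
  haveI := GalCommon.isAlgClosed_residueField A Nat.prime_three hA
  haveI := Reduction.isFF_fullC_residue L A hA hL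
  haveI := Reduction.isFF_fullC_residue (L * 4) A hA hL4
  set φ := alphaC kA L 4
  have hφ : φ.toRingHom.IsIntegral := FF.isIntegral_alongFF φ
  have hj : φ (jF L kA) = jF (L * 4) kA := Subtype.ext (coe_alphaC _ L 4 _)
  have hsep : SeparableAlong kA φ := by
    refine Kronecker.separableAlong_of_adjoin _ (jF L kA) ?_
    rw [hj]
    exact Reduction.isSeparable_fullC_residue (L * 4) A hA hL4
  obtain ⟨w, hw⟩ := FF.exists_restrictAlong_eq φ hφ hsep v
  have hord : ∀ g : E0, w.ord (φ g) = (w.ramificationIndexAlong φ : ℤ) * v.ord g := fun g => by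
    rw [Place.ord_restrictAlong φ hφ, hw]
  have hpos := FF.ramificationIndexAlong_pos φ hφ w
  refine ⟨w, _, hpos, hord, fun hv => ?_⟩
  haveI : NeZero (3 : ℕ) := ⟨by norm_num⟩
  obtain ⟨T⟩ := nonempty_modFrame A Nat.prime_three hL4 hA
  have hw0 : 0 < w.ord (jF (L * 4) kA) := by
    rw [← hj, hord]
    exact mul_pos (by exact_mod_cast hpos) hv
  obtain ⟨h1, h2⟩ := nodes_eq_zeros T (dvd_mul_left 4 L) w
  rw [← hord, hj]
  by_cases hwn : w ∈ T.Fr.nodes
  · exact h1 hwn
  · have := h2 hwn hw0.le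
    omega

/-- The order of `j` at a zero divides `6`. -/
theorem ord_jF_dvd_six (hA : A.LiesOverPrime 3) (hL : ¬ 3 ∣ L) (v : Place kA E0)
    (hv : 0 < v.ord (jF L kA)) : v.ord (jF L kA) ∣ 6 := by
  haveI : NeZero (L * 4) := ⟨mul_ne_zero (NeZero.ne L) (by norm_num)⟩
  obtain ⟨w, e, -, -, h6⟩ := exists_above_four hA hL v
  exact ⟨e, by rw [mul_comm, h6 hv]⟩

end FLTAgent.AtP
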