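/-
Mazur's principle at `3`: the reduced logarithmic derivative of a class of the isotypic part
vanishes when the level cannot be lowered, given that eigen logarithmic derivatives lower it.
-/
import Fermat.Agent.AtP.ThreeNodes
import Fermat.Agent.MazurP.Constant

/-!
# The reduced logarithmic derivative vanishes in characteristic `3`

`qTheta_redSeries_eq_zero_three`: if the level cannot be lowered, the reduced series of a class of
the isotypic part is killed by `q d/dq`. The class is pulled back to level `4 M`, where the nodes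
are the zeros of `j` and their orders are congruent modulo `3`; multiplying by a power of the
function `y` of `exists_yFun` and using a non-Eisenstein prime makes them divisible by `3`
(`dvd_of_eigen_nodes`). `dvd_ord_of_eigen` then gives the same at level `M`.
-/

set_option autoImplicit false
set_option linter.style.haveILetI false
set_option linter.unusedSectionVars false
set_option maxHeartbeats 1600000
set_option synthInstance.maxHeartbeats 400000

noncomputable section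

open AlgebraicCurve ModularCurve
open scoped Classical

namespace FLTAgent.AtP

attribute [local instance 5000] SubalgebraClass.toAlgebra HahnSeries.powerSeriesAlgebra

open FLTAgent.MazurP
open FLTAgent.Reduction (jF)
open FLTAgent.Kronecker (alphaC coe_alphaC)

local notation "Qb" => AlgebraicClosure ℚ

variable [Fact (Nat.Prime 3)] {A : ValuationSubring Qb}

local notation "kA" => IsLocalRing.ResidueField A

/-- An eigen function at a level divisible by `4` whose orders are congruent at all nodes and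
divisible by `3` elsewhere has all orders at finite places divisible by `3`. -/
theorem dvd_of_eigen_nodes {L : ℕ} [NeZero L] (hA : A.LiesOverPrime 3) (hL : ¬ 3 ∣ L) (h4 : 4 ∣ L)
    {hp : Nat.Prime 3} (T : ModFrame A 3 L hp hL hA)
    {u : modularFunctionFieldFullC kA L} (hu : u ≠ 0) (a₀ : ℤ)
    (hnode : ∀ v ∈ T.Fr.nodes, (3 : ℤ) ∣ v.ord u - a₀)
    (hsm : ∀ v, v ∉ T.Fr.nodes → (3 : ℤ) ∣ v.ord u)
    {ℓ : ℕ} (hℓ : ℓ.Prime) (hℓL : ¬ ℓ ∣ L) (hℓ3 : ℓ ≠ 3) (aℓ : ℤ)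
    (heig : IsHeckeEigen (qDlog (u : LaurentSeries kA)) ℓ aℓ)
    (hne : ¬ (3 : ℤ) ∣ aℓ - 1 - ℓ) : (3 : ℤ) ∣ a₀ := by
  haveI : NeZero ℓ := ⟨hℓ.ne_zero⟩
  have h2 : 2 ∣ L := dvd_trans (by norm_num) h4
  have hℓ2 : ℓ ≠ 2 := fun e => hℓL (e ▸ h2)
  haveI := GalCommon.isAlgClosed_residueField A hp hA
  haveI := GalCommon.charP_residueField hp hA
  obtain ⟨y, hy0, hys, hyord⟩ := exists_yFun hA hL h2
  set G := u * y ^ (-a₀) with hG
  have hus : (u : LaurentSeries kA) ≠ 0 := fun e => hu (Subtype.ext e)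
  have hys0 : (y : LaurentSeries kA) ≠ 0 := fun e => hy0 (Subtype.ext e)
  have hG0 : G ≠ 0 := mul_ne_zero hu (zpow_ne_zero _ hy0)
  have hordG : ∀ v : Place kA (modularFunctionFieldFullC kA L), 0 ≤ v.ord (jF L kA) →
      (3 : ℤ) ∣ v.ord G := by
    intro v hv
    have h3y := hyord v hv
    obtain ⟨hn1, hn2⟩ := nodes_eq_zeros T h4 v
    rw [hG, v.ord_mul hu (zpow_ne_zero _ hy0), v.ord_zpow]
    by_cases hvn : v ∈ T.Fr.nodes
    · have hy4 : v.ord y = 4 := by have := hn1 hvn; omega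
      obtain ⟨c, hc⟩ := hnode v hvn
      exact ⟨c - a₀, by rw [hy4]; linear_combination hc⟩
    · rw [show v.ord y = 0 by have := hn2 hvn hv; omega, mul_zero, add_zero]
      exact hsm v hvn
  obtain ⟨hW0, hW⟩ := qDlog_normRes hA hL hℓ hℓL hℓ3 hG0
  set W := normRes L ℓ A (Kronecker.betaC kA L ℓ G) with hWdef
  set H := W * G ^ (-aℓ) * y ^ (a₀ * (1 + ℓ - aℓ)) with hH
  have hWs : (W : LaurentSeries kA) ≠ 0 := fun e => hW0 (Subtype.ext e)
  have hGs : (G : LaurentSeries kA) ≠ 0 := fun e => hG0 (Subtype.ext e)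
  have hθ : qTheta (H : LaurentSeries kA) = 0 := by
    have hyeig := isHeckeEigen_qDlog_ySer (k := kA) hℓ hℓ2
    rw [← hys] at hyeig
    have hH0 : (H : LaurentSeries kA) ≠ 0 := by
      rw [hH, MulMemClass.coe_mul, MulMemClass.coe_mul, coe_zpow_intermediate,
        coe_zpow_intermediate]
      exact mul_ne_zero (mul_ne_zero hWs (zpow_ne_zero _ hGs)) (zpow_ne_zero _ hys0)
    rw [qTheta_eq_mul_qDlog hH0]
    refine mul_eq_zero_of_right _ ?_
    rw [hH, MulMemClass.coe_mul, MulMemClass.coe_mul, coe_zpow_intermediate, coe_zpow_intermediate,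
      qDlog_mul (mul_ne_zero hWs (zpow_ne_zero _ hGs)) (zpow_ne_zero _ hys0),
      qDlog_mul hWs (zpow_ne_zero _ hGs), qDlog_zpow hGs, qDlog_zpow hys0]
    have hGd : qDlog (G : LaurentSeries kA) =
        qDlog (u : LaurentSeries kA) + (-a₀) • qDlog (y : LaurentSeries kA) := by
      rw [hG, MulMemClass.coe_mul, coe_zpow_intermediate, qDlog_mul hus (zpow_ne_zero _ hys0),
        qDlog_zpow hys0]
    ext n
    have e1 := heig n
    have e2 := hyeig n
    simp only [HahnSeries.coeff_add, HahnSeries.coeff_smul, HahnSeries.coeff_zero, hW]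
    simp only [heckeCoeff, hGd, HahnSeries.coeff_add, HahnSeries.coeff_smul]
    simp only [zsmul_eq_mul]
    push_cast at e1 e2 ⊢
    split_ifs at e1 e2 ⊢ <;> linear_combination e1 - (a₀ : kA) * e2
  have hdvd := fun v => dvd_ord_of_qTheta_eq_zero A hA hL hθ v
  obtain ⟨P₀, hP₀⟩ := T.Fr.nodes_nonempty
  have hj6 := (nodes_eq_zeros T h4 P₀).1 hP₀
  have hy4 : P₀.ord y = 4 := by have := hyord P₀ (by omega); omega
  have hN := dvd_ord_normRes_sub hA hL hℓ hℓL hℓ3 hG0 (fun v hv _ => hordG v hv) P₀ (by omega)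
  have hH' := hdvd P₀
  rw [hH, P₀.ord_mul (mul_ne_zero hW0 (zpow_ne_zero _ hG0)) (zpow_ne_zero _ hy0),
    P₀.ord_mul hW0 (zpow_ne_zero _ hG0), P₀.ord_zpow, P₀.ord_zpow, hy4] at hH'
  rw [← hWdef] at hN
  obtain ⟨c, hc⟩ := hordG P₀ (by omega)
  rw [hc] at hH' hN
  obtain ⟨c₁, hc₁⟩ := hN
  obtain ⟨c₂, hc₂⟩ := hH'
  push_cast at hc₂
  have h3 : (3 : ℤ) ∣ a₀ * (aℓ - 1 - ℓ) :=
    ⟨c₁ - c₂ + (1 + ℓ - aℓ) * (c + a₀), by linear_combination hc₁ - hc₂⟩
  exact ((Nat.prime_iff_prime_int.mp Nat.prime_three).dvd_or_dvd h3).resolve_right hne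

/-- If the level cannot be lowered the reduced series is killed by `q d/dq`. -/
theorem qTheta_redSeries_eq_zero_three {M : ℕ} [NeZero M] (hpM : ¬ 3 ∣ M)
    {W : WeierstrassCurve ℤ} (hΔ0 : W.Δ ≠ 0)
    (hirr : W.ModRepIsIrreducible 3) (hram : Nonempty (RamData W 3 A)) (hA : A.LiesOverPrime 3)
    (hlow : ∀ f : modularFunctionFieldFullC kA M,
      (∀ v : Place kA (modularFunctionFieldFullC kA M), (3 : ℤ) ∣ v.ord f) →
      qTheta (f : LaurentSeries kA) ≠ 0 →
      (∀ ℓ : ℕ, ℓ.Prime → W.IsGoodPrimeFor ℓ → ¬ ℓ ∣ M → ℓ ≠ 3 →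
        IsHeckeEigen (qDlog (f : LaurentSeries kA)) ℓ (W.apOfModel ℓ)) → False)
    [NeZero (3 : ℕ)] (E : EigenPart W 3 (M * 3))
    (D : Divisor.degZero (K := Qb) (F := modularFunctionFieldBar (M * 3)))
    (hz : Pic0.mk D ∈ E.S) {f : modularFunctionFieldBar (M * 3)} (hf : f ≠ 0)
    (hdiv : ∀ v, v.ord f = (3 : ℤ) * (D : Divisor Qb (modularFunctionFieldBar (M * 3))) v)
    {r : LaurentSeries kA} (hr : r ≠ 0) (hrs : IsRedSeries A 3 (f : LaurentSeries Qb) r)
    (heig : ∀ (ℓ : ℕ) (hℓ : ℓ.Prime), ¬ ℓ ∣ M → ℓ ≠ 3 → ∀ a : ℤ,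
      heckeOperatorBar (M * 3) ⟨ℓ, hℓ⟩ (Pic0.mk D) = a • Pic0.mk D → IsHeckeEigen (qDlog r) ℓ a) :
    qTheta r = 0 := by
  have hp : Nat.Prime 3 := Nat.prime_three
  have hpL : ¬ 3 ∣ M * 4 := fun h => (hp.dvd_mul.mp h).elim hpM (by norm_num)
  haveI : NeZero (M * 3) := ⟨mul_ne_zero (NeZero.ne M) (by norm_num)⟩
  haveI : NeZero (M * 4) := ⟨mul_ne_zero (NeZero.ne M) (by norm_num)⟩
  haveI : NeZero (M * 4 * 3) := ⟨mul_ne_zero (NeZero.ne (M * 4)) (by norm_num)⟩
  haveI := Kronecker.isFF_bar (M * 3)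
  haveI := Kronecker.isFF_bar (M * 4 * 3)
  haveI := GalCommon.isAlgClosed_residueField A hp hA
  haveI := GalCommon.charP_residueField hp hA
  haveI := Reduction.isFF_fullC_residue M A hA hpM
  haveI := Reduction.isFF_fullC_residue (M * 4) A hA hpL
  obtain ⟨R⟩ := hram
  obtain ⟨T⟩ := nonempty_modFrame A hp hpL hA
  obtain ⟨T₀⟩ := nonempty_modFrame A hp hpM hA
  have hlev : M * 3 ∣ M * 4 * 3 := ⟨4, by ring⟩
  set ι := levelIncl hlev with hι
  set f' := ι f with hf'def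
  have hf' : (f' : LaurentSeries Qb) = f := coe_levelIncl hlev f
  have hf'0 : f' ≠ 0 := (map_ne_zero ι).mpr hf
  have hiota : ι.toRingHom.IsIntegral := FF.isIntegral_alongFF ι
  have hdvd : ∀ Q : Place Qb (modularFunctionFieldBar (M * 4 * 3)),
      ((3 : ℕ) : ℤ) ∣ Q.ord f' := by
    intro Q
    rw [hf'def, Place.ord_restrictAlong ι hiota, hdiv]
    exact (dvd_mul_right _ _).mul_left _
  obtain ⟨D', -, hD'⟩ := exists_div_eq hp.ne_zero hf'0 hdvd
  have hfix : ∀ τ ∈ R.H, T.Fr.act τ • D' - D' ∈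
      Divisor.principal (K := Qb) (F := modularFunctionFieldBar (M * 4 * 3)) := by
    intro τ hτ
    obtain ⟨c, u, hu, hc⟩ := exists_galois_smul_eq hf hdiv (E.fixed (R.fixes τ hτ) hz)
    have hu' : ι u ≠ 0 := (map_ne_zero ι).mpr hu
    refine ⟨ι u, hu', fun Q => ?_⟩
    have h1 := congrArg ι hc
    rw [hι, levelIncl_galois, ← hι, map_mul, AlgHom.commutes, map_mul, map_pow, ← hf'def] at h1
    have h2 : Q.ord (arithmeticGalois (modularFunctionFieldFull (M * 4 * 3)) τ • f') =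
        ((3 : ℕ) : ℤ) * (arithmeticGalois (modularFunctionFieldFull (M * 4 * 3)) τ • D') Q := by
      rw [SemilinearAut.divisor_smul_apply, ← hD', ← SemilinearAut.ord_smul
        (arithmeticGalois (modularFunctionFieldFull (M * 4 * 3)) τ) _ f', smul_inv_smul]
    have hc0 : algebraMap Qb (modularFunctionFieldBar (M * 4 * 3)) c ≠ 0 := left_ne_zero_of_mul
      (h1 ▸ (smul_ne_zero_iff_ne _).mpr hf'0 :
        algebraMap Qb (modularFunctionFieldBar (M * 4 * 3)) c * (f' * ι u ^ 3) ≠ 0)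
    rw [h1, Q.ord_mul hc0 (mul_ne_zero hf'0 (pow_ne_zero 3 hu')), FF.ord_algebraMap, zero_add,
      Q.ord_mul hf'0 (pow_ne_zero 3 hu'), hD', FF.ord_pow] at h2
    rw [T.act_eq, Finsupp.sub_apply]
    exact mul_left_cancel₀ (Int.natCast_ne_zero.mpr hp.ne_zero) (by linear_combination -h2)
  obtain ⟨ζ, hζ⟩ := HasEnoughRootsOfUnity.exists_primitiveRoot Qb 3
  have hcong : ∀ {P P'}, P ∈ T.Fr.nodes → P' ∈ T.Fr.nodes →
      (3 : ℤ) ∣ T.Fr.ordAt false P f' - T.Fr.ordAt false P' f' := fun hP hP' =>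
    Frame.ordAt_congr_nodes (T.node_data (dvd_mul_left 4 M)).1 hA R.H_le R.e_pos R.val R.wild
      ⟨ζ, hζ, fun τ hτ => apply_zeta_of_fixesTorsion hΔ0 (R.fixes τ hτ) hζ⟩ D' hf'0 hD' hfix hP hP'
  have hsmooth : ∀ P, P ∉ T.Fr.nodes → (3 : ℤ) ∣ T.Fr.ordAt false P f' := by
    intro P hP
    rw [← Frame.fib_smooth hf'0 (x := (false, P)) ⟨fun _ => hP, fun h => absurd h (by simp)⟩,
      Frame.fib, Reduction.mapDomain_apply_eq_sum]
    exact Finset.dvd_sum fun Q _ => by rw [T.Fr.curve.divOf_apply, hD']; exact dvd_mul_right _ _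
  have hsmooth₀ : ∀ P, P ∉ T₀.Fr.nodes → (3 : ℤ) ∣ T₀.Fr.ordAt false P f := by
    intro P hP
    rw [← Frame.fib_smooth hf (x := (false, P)) ⟨fun _ => hP, fun h => absurd h (by simp)⟩,
      Frame.fib, Reduction.mapDomain_apply_eq_sum]
    exact Finset.dvd_sum fun Q _ => by rw [T₀.Fr.curve.divOf_apply, hdiv]; exact dvd_mul_right _ _
  obtain ⟨a, ha, hga⟩ := hrs _ hp hpM hA T₀ f rfl
  obtain ⟨a', ha', hga'⟩ := hrs _ hp hpL hA T f' hf'
  set g := T₀.Fr.nred false f with hgdef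
  set g' := T.Fr.nred false f' with hg'def
  have hg0 : g ≠ 0 := Frame.nred_ne_zero hf
  have hg'0 : g' ≠ 0 := Frame.nred_ne_zero hf'0
  obtain ⟨ℓ, hℓ, hℓB, hℓ3, hgood, hne⟩ :=
    exists_not_eisenstein W hΔ0 (p := 3) (by norm_num) hirr (M * 4 * 3).divisors
  have hℓN : ¬ ℓ ∣ M * 4 * 3 := fun h => hℓB (Nat.mem_divisors.mpr ⟨h, NeZero.ne _⟩)
  haveI : NeZero ℓ := ⟨hℓ.ne_zero⟩
  have hℓM : ¬ ℓ ∣ M := fun h => hℓN ((h.mul_right 4).mul_right 3)
  have hℓeig : IsHeckeEigen (qDlog r) ℓ (W.apOfModel ℓ) :=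
    heig ℓ hℓ hℓM hℓ3 _ (E.hecke ℓ hℓ hgood (fun h => hℓN (h.trans hlev)) hℓ3 _ hz)
  -- at level `4 M`
  obtain ⟨P₀, hP₀⟩ := T.Fr.nodes_nonempty
  have ha₀ : (3 : ℤ) ∣ P₀.ord g' :=
    dvd_of_eigen_nodes hA hpL (dvd_mul_left 4 M) T hg'0 (P₀.ord g')
      (fun v hv => hcong hv hP₀) hsmooth hℓ (fun h => hℓN (h.mul_right 3)) hℓ3 _
      (by rw [hga', qDlog_C_mul ha' hr]; exact hℓeig) hne
  have hall' : ∀ w : Place kA (modularFunctionFieldFullC kA (M * 4)), (3 : ℤ) ∣ w.ord g' :=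
      fun w => by
    by_cases hw : w ∈ T.Fr.nodes
    · have h1 : (3 : ℤ) ∣ w.ord g' - P₀.ord g' := hcong hw hP₀
      obtain ⟨x, hx⟩ := h1
      obtain ⟨x', hx'⟩ := ha₀
      exact ⟨x + x', by linarith⟩
    · exact hsmooth w hw
  -- descent
  have hgg : alphaC kA M 4 g = (a * a'⁻¹) • g' := Subtype.ext (by
    rw [coe_alphaC, coe_smul_res, hga, hga', ← mul_assoc, ← map_mul, mul_assoc a,
      inv_mul_cancel₀ ha', mul_one])
  have hthree : ∀ v : Place kA (modularFunctionFieldFullC kA M), 0 ≤ v.ord (jF M kA) → (3 : ℤ) ∣ v.ord (jF M kA) → (3 : ℤ) ∣ v.ord g := by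
    intro v hv h3
    by_cases hvn : v ∈ T₀.Fr.nodes
    · have hpos := ord_jF_pos_of_node T₀ hvn
      obtain ⟨w, e, he, hord, h6⟩ := exists_above_four hA hpM v
      have h := hord g
      rw [hgg, Algebra.smul_def, w.ord_mul ((map_ne_zero _).mpr (mul_ne_zero ha (inv_ne_zero ha')))
        hg'0, FF.ord_algebraMap, zero_add] at h
      have h36 := h6 hpos
      obtain ⟨x, hx⟩ := h3
      obtain ⟨y, hy⟩ := hall' w
      rw [hy] at h
      have he2 : (e : ℤ) * x = 2 := by rw [hx] at h36; linarith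
      exact ⟨v.ord g - x * y, by linear_combination x * h + v.ord g * he2⟩
    · exact hsmooth₀ v hvn
  by_contra hθ
  refine hlow g (fun v => ?_) ?_ fun q hq hqgood hqM hq3 => ?_
  · by_cases hvn : v ∈ T₀.Fr.nodes
    · exact dvd_ord_of_eigen hA hpM hℓ hℓM hℓ3 hg0 hthree (W.apOfModel ℓ)
        (by rw [hga, qDlog_C_mul ha hr]; exact hℓeig) hne v (ord_jF_pos_of_node T₀ hvn).le
    · exact hsmooth₀ v hvn
  · rw [hga, qTheta_ne_zero_iff (mul_ne_zero (by simpa using ha) hr), qDlog_C_mul ha hr,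
      ← qTheta_ne_zero_iff hr]
    exact hθ
  · rw [hga, qDlog_C_mul ha hr]
    refine heig q hq hqM hq3 _ (E.hecke q hq hqgood (fun h => ?_) hq3 _ hz)
    exact (hq.dvd_mul.mp h).elim hqM fun h' => hq3 ((Nat.prime_dvd_prime_iff_eq hq hp).mp h')

end FLTAgent.AtP
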