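/-
Mazur's principle at `3`, given that eigen logarithmic derivatives lower the level.
-/
import Fermat.Agent.AtP.ThreeConst
import Fermat.Agent.MazurP.Main

/-!
# Mazur's principle at `3`

`LogLowers W A M` says that an eigen logarithmic derivative with orders divisible by `3` lowers the
level to `M`. Under it, `isResiduallyModularOfLevel_three_of_ramData` removes `3` from the level
`3 M`: if this failed, the reductions of the functions of the isotypic torsion classes would be
cubes on both components (`isPP_false_three`, and the Atkin-Lehner involution), and then inertia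
would act on those classes by the cyclotomic scalar, which it does not.
-/

set_option autoImplicit false
set_option linter.style.haveILetI false
set_option maxHeartbeats 1000000
set_option synthInstance.maxHeartbeats 400000

noncomputable section

open AlgebraicCurve ModularCurve
open scoped Classical

namespace FLTAgent.AtP

open FLTAgent.MazurP

local notation "Qb" => AlgebraicClosure ℚ
local notation "Γℚ" => (AlgebraicClosure ℚ ≃ₐ[ℚ] AlgebraicClosure ℚ)

variable [Fact (Nat.Prime 3)] [NeZero (3 : ℕ)] {A : ValuationSubring Qb} {M : ℕ} [NeZero M]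

local notation "kA" => IsLocalRing.ResidueField A

/-- A logarithmic derivative with divisible orders lowers the level to `M`. -/
def LogLowers (W : WeierstrassCurve ℤ) (A : ValuationSubring Qb) (M : ℕ) [NeZero M] : Prop :=
  ∀ f : modularFunctionFieldFullC (IsLocalRing.ResidueField A) M,
    (∀ v : Place (IsLocalRing.ResidueField A)
      (modularFunctionFieldFullC (IsLocalRing.ResidueField A) M), (3 : ℤ) ∣ v.ord f) →
    qTheta (f : LaurentSeries (IsLocalRing.ResidueField A)) ≠ 0 →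
    (∀ ℓ : ℕ, ℓ.Prime → W.IsGoodPrimeFor ℓ → ¬ ℓ ∣ M → ℓ ≠ 3 →
      IsHeckeEigen (qDlog (f : LaurentSeries (IsLocalRing.ResidueField A))) ℓ (W.apOfModel ℓ)) →
    W.IsResiduallyModularOfLevel 3 M

/-- The reduction on the first component is a cube. -/
theorem isPP_false_three {W : WeierstrassCurve ℤ} (hΔ0 : W.Δ ≠ 0)
    (hirr : W.ModRepIsIrreducible 3) (hram : Nonempty (RamData W 3 A))
    (hlow : LogLowers W A M) (hnot : ¬ W.IsResiduallyModularOfLevel 3 M)
    {hp : Nat.Prime 3} {hpM : ¬ 3 ∣ M} {hA : A.LiesOverPrime 3} (T : ModFrame A 3 M hp hpM hA)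
    (E : EigenPart W 3 (M * 3))
    (D : Divisor.degZero (K := Qb) (F := modularFunctionFieldBar (M * 3)))
    (hz : Pic0.mk D ∈ E.S) {f : modularFunctionFieldBar (M * 3)} (hf : f ≠ 0)
    (hdiv : ∀ v, v.ord f = ((3 : ℕ) : ℤ) * (D : Divisor Qb (modularFunctionFieldBar (M * 3))) v) :
    T.Fr.IsPP false f := by
  obtain ⟨r, hr, hrs, heig⟩ := exists_redSeries hA hf
  have hθ := qTheta_redSeries_eq_zero_three hpM hΔ0 hirr hram hA
    (fun g h1 h2 h3 => hnot (hlow g h1 h2 h3)) E D hz hf hdiv hr hrs (heig D hdiv)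
  obtain ⟨a, ha, hser⟩ := hrs _ hp hpM hA T f rfl
  obtain ⟨u, hu⟩ := exists_pow_eq_of_qTheta_eq_zero A hA hpM (g := T.Fr.nred false f) (by
    by_contra h
    rw [hser, ← ne_eq, qTheta_ne_zero_iff (mul_ne_zero (by simpa using ha) hr),
      qDlog_C_mul ha hr, ← qTheta_ne_zero_iff hr] at h
    exact h hθ)
  exact Frame.IsPP.of_nred hf hu

/-- **Mazur's principle at `3`**. -/
theorem isResiduallyModularOfLevel_three_of_ramData (W : WeierstrassCurve ℤ) (hΔ0 : W.Δ ≠ 0)
    (hirr : W.ModRepIsIrreducible 3)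
    (hram : ∀ A : ValuationSubring Qb, A.LiesOverPrime 3 → Nonempty (RamData W 3 A))
    (hlow : ∀ A : ValuationSubring Qb, A.LiesOverPrime 3 → LogLowers W A M)
    (hpM : ¬ 3 ∣ M) (hmod : W.IsResiduallyModularOfLevel 3 (M * 3)) :
    W.IsResiduallyModularOfLevel 3 M := by
  by_contra hnot
  have hp : Nat.Prime 3 := Nat.prime_three
  have hp2 : 3 ≠ 2 := by norm_num
  haveI : NeZero (M * 3) := ⟨mul_ne_zero (NeZero.ne M) (NeZero.ne 3)⟩
  obtain ⟨A, hA, -⟩ := GalCommon.exists_place_frobenius hp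
  haveI := GalCommon.isAlgClosed_residueField A hp hA
  obtain ⟨T⟩ := nonempty_modFrame A hp hpM hA
  obtain ⟨E⟩ := nonempty_eigenPart W hΔ0 hp2 hirr hmod
  obtain ⟨z₀, hz₀, hz₀0⟩ : ∃ z ∈ E.S, z ≠ 0 := by
    by_contra h
    push Not at h
    exact E.ne_bot ((AddSubgroup.eq_bot_iff_forall _).mpr h)
  obtain ⟨E', hE'⟩ := EigenPart.exists_map hp2 hΔ0 E (LowerQ.wHom hp hpM)
    (LowerQ.wHom_galois hp hpM) ⟨z₀, hz₀, fun h => hz₀0 (by
      rw [← LowerQ.wHom_wHom hp hpM z₀, h, map_zero])⟩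
  obtain ⟨ζ, hζ⟩ := HasEnoughRootsOfUnity.exists_primitiveRoot Qb 3
  obtain ⟨τ, hτ, hτne⟩ := exists_inertia_not_cyclotomic_scalar W hΔ0 hp hp2 hA
  obtain ⟨a, -, ha⟩ := hζ.eq_pow_of_pow_eq_one (ξ := τ ζ)
    (by rw [← map_pow, hζ.pow_eq_one, map_one])
  obtain ⟨x, hx, hxne⟩ := hτne ζ a hζ ha.symm
  refine hxne (E.smul_eq_of_forall hΔ0 hp2 hirr τ a (fun z hz => ?_) x hx)
  obtain ⟨D, f, rfl, hf, hdiv⟩ := exists_fun_of_nsmul_eq_zero (E.torsion z hz)
  have hpp : ∀ b, T.Fr.IsPP b f
    | false => isPP_false_three hΔ0 hirr (hram A hA) (hlow A hA) hnot T E D hz hf hdiv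
    | true => by
      refine isPP_true_of_atkinLehner T ?_
      refine isPP_false_three hΔ0 hirr (hram A hA) (hlow A hA) hnot T E'
        (SemilinearAut.degZeroSMulHom (LowerQ.wAut hp hpM) D) ?_ ((map_ne_zero _).mpr hf) ?_
      · rw [hE']
        exact ⟨Pic0.mk D, hz, rfl⟩
      · intro v
        rw [← LowerQ.wAut_smul hp hpM f, SemilinearAut.coe_degZeroSMulHom]
        exact ord_smul_of_ord_eq _ hdiv v
  have hα : HeckeAlphaBarIntegral Qb M 3 := (Kronecker.heckeInputs_bar M 3).choose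
  have hβ : HeckeBetaBarIntegral Qb M 3 := (Kronecker.heckeInputs_bar M 3).choose_spec.choose
  obtain ⟨hpα, hpβ⟩ := pushforward_mem_principal hp2 hΔ0 hnot E hα hβ D hz
  have hN : ∀ b, ∃ X, T.Fr.N b f = X ^ 3
    | false => by rw [T.N_false]; exact exists_normBack_eq_pow _ hα D hf hdiv hpα
    | true => by rw [T.N_true]; exact exists_normBack_eq_pow _ hβ D hf hdiv hpβ
  have hmain := T.Fr.act_sub_smul_principal _ D.2 hdiv hpp hN hτ hζ ha.symm
  rw [T.act_eq] at hmain
  rw [galois_smul_pic0_def, SemilinearAut.pic0_smul_mk,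
    show a • Pic0.mk D = Pic0.mk (a • D) from rfl]
  refine (QuotientAddGroup.eq_iff_sub_mem).mpr (AddSubgroup.mem_addSubgroupOf.mpr ?_)
  rw [AddSubgroupClass.coe_sub, SemilinearAut.coe_degZeroSMulHom, AddSubgroupClass.coe_nsmul]
  exact hmain

end FLTAgent.AtP
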