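/-
Removing `p` from the level at a prime of semistable reduction.
-/
import Fermat.Agent.AtP.MainThree
import Fermat.Agent.AtP.Good

/-!
# Removing an odd prime from the level

`isResiduallyModularOfLevel_div_prime`: Mazur's principle at an odd prime `p` exactly dividing the
level, from the local data at the places over `p`. For `p ≥ 5` it is
`MazurP.isResiduallyModularOfLevel_of_ramData`; for `p = 3` it is
`isResiduallyModularOfLevel_three_of_ramData`, which also takes the hypothesis `LogLowers`
(see `Fermat.Agent.AtP.ThreeReg` for its proof).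
-/

set_option autoImplicit false

noncomputable section

namespace FLTAgent.AtP

local notation "Qb" => AlgebraicClosure ℚ

/-- Mazur's principle at an odd prime `p` exactly dividing the level. -/
theorem isResiduallyModularOfLevel_div_prime (W : WeierstrassCurve ℤ) (hΔ : W.Δ ≠ 0)
    {p : ℕ} (hp : p.Prime) (hp2 : p ≠ 2) (hirr : W.ModRepIsIrreducible p)
    (hram : ∀ A : ValuationSubring Qb, A.LiesOverPrime p → Nonempty (MazurP.RamData W p A))
    {M : ℕ} (hM : 0 < M) (hpM : p ∣ M) (hp2M : ¬ p ^ 2 ∣ M)
    (hmod : W.IsResiduallyModularOfLevel p M)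
    (hlow : ∀ [Fact (Nat.Prime 3)] (L : ℕ) [NeZero L], ¬ 3 ∣ L → ∀ A : ValuationSubring Qb,
      A.LiesOverPrime 3 → LogLowers W A L) :
    W.IsResiduallyModularOfLevel p (M / p) := by
  have : Fact p.Prime := ⟨hp⟩
  have : NeZero p := ⟨hp.ne_zero⟩
  obtain ⟨L, rfl⟩ := hpM
  rw [Nat.mul_div_cancel_left L hp.pos]
  have hpL : ¬ p ∣ L := fun h => hp2M (by rw [pow_two]; exact Nat.mul_dvd_mul_left p h)
  have : NeZero L := ⟨fun h => hpL (h ▸ dvd_zero p)⟩
  rw [mul_comm] at hmod
  by_cases h5 : 5 ≤ p
  · exact MazurP.isResiduallyModularOfLevel_of_ramData W hΔ h5 hirr hram hpL hmod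
  · have h3 : p = 3 := by
      have := hp.two_le
      interval_cases p
      · exact absurd rfl hp2
      · rfl
      · norm_num at hp
    subst h3
    exact isResiduallyModularOfLevel_three_of_ramData W hΔ hirr hram (hlow L hpL) hpL hmod

end FLTAgent.AtP
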