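/-
Characteristic `3`: the reductions of integral cusp forms are regular differentials, and an eigen
logarithmic derivative with divisible orders gives a system of Hecke eigenvalues.
-/
import Fermat.Agent.AtP.ThreeNodes
import Fermat.Agent.MazurP.QEigenModular

/-!
# From logarithmic derivatives to eigensystems in characteristic `3`

`exists_regular_reduction_three`: the reduction of an integral weight two cusp form is a regular
differential; at the zeros of `j` this uses `fibre_bound` and, where `j` vanishes to order six,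
`seven_le_ordDifferential` at twice the level. By comparing dimensions the logarithmic derivative
of a function with orders divisible by `3` is then such a reduction, and
`isResiduallyModularOfLevel_of_qDlog_three` turns an eigen one into residual modularity.
-/

set_option autoImplicit false
set_option linter.style.haveILetI false
set_option linter.unusedSectionVars false
set_option maxHeartbeats 1600000
set_option synthInstance.maxHeartbeats 400000

noncomputable section

open AlgebraicCurve ModularCurve CuspForm CongruenceSubgroup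

namespace FLTAgent.AtP

attribute [local instance 5000] SubalgebraClass.toAlgebra HahnSeries.powerSeriesAlgebra

attribute [local instance] MazurP.isScalarTower_laurent

/-- At an unramified place differentials keep their order. -/
theorem ordDifferential_D_of_unramified {K F F' : Type*} [Field K] [Field F] [Field F']
    [Algebra K F] [Algebra K F'] [IsAlgClosed K] [FF.IsFF K F] [FF.IsFF K F'] (φ : F →ₐ[K] F')
    (v : Place K F) (w : Place K F') (hord : ∀ g : F, w.ord (φ g) = v.ord g) (x : F) :
    w.ordDifferential (KaehlerDifferential.D K F' (φ x)) =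
      v.ordDifferential (KaehlerDifferential.D K F x) := by
  obtain ⟨π, hπ⟩ := IsDiscreteValuationRing.exists_irreducible v.toValuationSubring
  have hπ1 := v.ord_coe_irreducible hπ
  obtain ⟨g, hg⟩ := FF.exists_smul_of_ne_zero (FF.D_ne_zero_of_irreducible hπ)
    (KaehlerDifferential.D K F x)
  letI := algebraAlong φ
  haveI := isScalarTower_along φ
  have h' : KaehlerDifferential.D K F' (φ x) = φ g • KaehlerDifferential.D K F' (φ (π : F)) := by
    have e := congrArg (KaehlerDifferential.map K K F F') hg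
    rw [map_smul, KaehlerDifferential.map_D, KaehlerDifferential.map_D] at e
    exact e.symm.trans (IsScalarTower.algebraMap_smul F' g _).symm
  rw [h', ← hg, FF.ordDifferential_smul_D_uniformizer w (by rw [hord]; exact hπ1),
    FF.ordDifferential_smul_D_uniformizer v hπ1, hord]

/-- Where a function has order divisible by `p` its differential has at least that order. -/
theorem ord_le_ordDifferential_of_dvd {K F : Type*} [Field K] [Field F] [Algebra K F]
    [IsAlgClosed K] [FF.IsFF K F] {p : ℕ} [CharP K p] (v : Place K F) {x : F} (hx : x ≠ 0)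
    (hd : (p : ℤ) ∣ v.ord x) (hD : KaehlerDifferential.D K F x ≠ 0) :
    v.ord x ≤ v.ordDifferential (KaehlerDifferential.D K F x) := by
  obtain ⟨π, hπ⟩ := IsDiscreteValuationRing.exists_irreducible v.toValuationSubring
  have hπ1 := v.ord_coe_irreducible hπ
  set t : F := (π : F)
  have ht : t ≠ 0 := fun e => by rw [e, v.ord_zero] at hπ1; exact zero_ne_one hπ1
  obtain ⟨m, hm⟩ := hd
  set u := x / (t ^ m) ^ p with hu
  have htm : (t ^ m) ^ p ≠ 0 := pow_ne_zero _ (zpow_ne_zero _ ht)
  have hu0 : u ≠ 0 := div_ne_zero hx htm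
  have hxu : x = (t ^ m) ^ p * u := by rw [hu]; field_simp
  have hDp : KaehlerDifferential.D K F ((t ^ m) ^ p) = 0 := by
    rw [Derivation.leibniz_pow, ← Nat.cast_smul_eq_nsmul K, CharP.cast_eq_zero, zero_smul]
  have hω : KaehlerDifferential.D K F x = (t ^ m) ^ p • KaehlerDifferential.D K F u := by
    conv_lhs => rw [hxu]
    rw [Derivation.leibniz, hDp, smul_zero, add_zero]
  have hord : v.ord ((t ^ m) ^ p) = v.ord x := by
    rw [FF.ord_pow, v.ord_zpow, hπ1, hm]; ring
  have hordu : v.ord u = 0 := by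
    rw [hu, div_eq_mul_inv, v.ord_mul hx (inv_ne_zero htm), v.ord_inv, hord]
    ring
  have hDu : KaehlerDifferential.D K F u ≠ 0 := fun e => hD (by rw [hω, e, smul_zero])
  rw [hω, FF.ordDifferential_smul_of_ne_zero v htm hDu, hord]
  have := FF.ordDifferential_D_nonneg v (f := u) hordu.ge
  omega

open FLTAgent.MazurP
open FLTAgent.Reduction (jF jExp jParam integralExp expToBar expToRes divOf)

local notation "Qb" => AlgebraicClosure ℚ

variable [Fact (Nat.Prime 3)] {N : ℕ} [NeZero N] (A : ValuationSubring Qb)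

local notation "kA" => IsLocalRing.ResidueField A
local notation "E0" => modularFunctionFieldFullC kA N

/-- The lifted lower bound for the orders of the quotient of a cusp form by `dj`. -/
theorem fibre_bound (hA : A.LiesOverPrime 3) (hN : ¬ 3 ∣ N) (Sx : integralExp A N)
    (he : expToRes A N Sx ≠ 0) (hSx : expToBar A N Sx ≠ 0)
    (hy : ∀ v : Place Qb (modularFunctionFieldBar N), 0 ≤ v.ord (ModularPlaces.jB N) →
      0 ≤ 6 * v.ord (expToBar A N Sx) + 4 * v.ord (ModularPlaces.jB N) +
        3 * v.ord (ModularPlaces.jB N - algebraMap Qb (modularFunctionFieldBar N) 1728))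
    (R : Place kA E0) (hR : 0 ≤ R.ord (jF N kA)) :
    ∃ a b : ℤ, 3 * a ≤ R.ord (jF N kA) ∧ 2 * b ≤ R.ord (jF N kA) ∧
      -2 * a - b ≤ R.ord (expToRes A N Sx) := by
  classical
  haveI := GalCommon.charP_residueField (Fact.out : Nat.Prime 3) hA
  obtain ⟨r, hr⟩ := exists_redJ (M := N) hA hN
  have hC := Reduction.curveData_bar N
  have h1728 : IsLocalRing.residue A (1728 : A) = 0 := by
    rw [map_ofNat, show (1728 : kA) = 3 * 576 by norm_num, natCast_three, zero_mul]
  set X : Divisor Qb (modularFunctionFieldBar N) := divOf (expToBar A N Sx) with hX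
  set Z₀ : Divisor Qb (modularFunctionFieldBar N) := zeroDiv A (0 : Qb) with hZ₀
  set Z₁ : Divisor Qb (modularFunctionFieldBar N) := zeroDiv A ((1728 : A) : Qb) with hZ₁
  set S := (X.support ∪ Z₀.support ∪ Z₁.support).filter (fun P => r P = R) with hS
  have hsum : ∀ D : Divisor Qb (modularFunctionFieldBar N),
      D.support ⊆ X.support ∪ Z₀.support ∪ Z₁.support →
      Finsupp.mapDomain r D R = ∑ P ∈ S, D P := fun D hD => by
    rw [Reduction.mapDomain_apply_eq_sum]
    refine Finset.sum_subset (Finset.filter_subset_filter _ hD) fun P hP hP' => ?_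
    by_contra h
    exact hP' (Finset.mem_filter.mpr ⟨Finsupp.mem_support_iff.mpr h, (Finset.mem_filter.mp hP).2⟩)
  have eX : R.ord (expToRes A N Sx) = ∑ P ∈ S, X P := by
    rw [← hr.divisor Sx he R]
    exact hsum X (Finset.subset_union_left.trans Finset.subset_union_left)
  have e0 : R.ord (jF N kA) = ∑ P ∈ S, Z₀ P := by
    rw [← hsum Z₀ (Finset.subset_union_right.trans Finset.subset_union_left), hZ₀]
    have := hr.zero 0 (map_zero _) R
    rw [ZeroMemClass.coe_zero] at this
    rw [this, max_eq_right hR]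
  have e1 : R.ord (jF N kA) = ∑ P ∈ S, Z₁ P := by
    rw [← hsum Z₁ Finset.subset_union_right, hZ₁, hr.zero _ h1728 R, max_eq_right hR]
  refine ⟨∑ P ∈ S, if Z₀ P = 3 then 1 else 0, ∑ P ∈ S, if Z₁ P = 2 then 1 else 0, ?_, ?_, ?_⟩
  · rw [e0, Finset.mul_sum]
    refine Finset.sum_le_sum fun P _ => ?_
    have := zeroDiv_nonneg A (0 : Qb) P
    split_ifs with h <;> simp only [hZ₀] at * <;> omega
  · rw [e1, Finset.mul_sum]
    refine Finset.sum_le_sum fun P _ => ?_
    have := zeroDiv_nonneg A ((1728 : A) : Qb) P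
    split_ifs with h <;> simp only [hZ₁] at * <;> omega
  rw [eX, Finset.mul_sum, ← Finset.sum_sub_distrib]
  refine Finset.sum_le_sum fun P hP => ?_
  have hPR : r P = R := (Finset.mem_filter.mp hP).2
  have hPj : 0 ≤ P.ord (jParam A N) := hr.ord_nonneg (by rw [hPR]; exact hR)
  have h0 : Z₀ P = max 0 (P.ord (jParam A N)) := by rw [hZ₀, zeroDiv_zero_apply]
  have hc : ((1728 : A) : Qb) = 1728 := map_ofNat A.subtype 1728
  have h1 : Z₁ P = P.ord (jParam A N - algebraMap Qb (modularFunctionFieldBar N) 1728) := by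
    rw [hZ₁, zeroDiv_apply, hc]; omega
  have hsub := ord_sub_nonneg A (1728 : Qb) hPj
  have hh := hy P (by rwa [← jParam_eq_jB A])
  rw [jParam_eq_jB A] at h0 h1 hPj hsub
  have hx : X P = P.ord (expToBar A N Sx) := by rw [hX, hC.divOf_apply]
  have ha : P.ord (ModularPlaces.jB N) = 0 ∨ P.ord (ModularPlaces.jB N) = 1 ∨
      P.ord (ModularPlaces.jB N) = 3 := by
    rcases hPj.eq_or_lt with h | h
    · exact Or.inl h.symm
    · obtain ⟨n, hn⟩ := Int.eq_ofNat_of_zero_le hPj
      have hd := ord_jB_dvd_three P h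
      rw [hn] at hd
      rcases (Nat.dvd_prime Nat.prime_three).mp (Int.natCast_dvd_natCast.mp hd) with e | e <;>
        [exact Or.inr (Or.inl (by rw [hn, e]; rfl)); exact Or.inr (Or.inr (by rw [hn, e]; rfl))]
  have hb : P.ord (ModularPlaces.jB N - algebraMap Qb (modularFunctionFieldBar N) 1728) ≤ 2 := by
    by_contra h
    exact h (ord_jB_sub_le_two P (by omega))
  have hab : 0 < P.ord (ModularPlaces.jB N) →
      P.ord (ModularPlaces.jB N - algebraMap Qb (modularFunctionFieldBar N) 1728) = 0 := fun h =>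
    MazurP.ord_sub_eq_zero P (a := (0 : Qb)) (by norm_num) (by rwa [map_zero, sub_zero])
  rw [hx]
  split_ifs <;> omega

/-- The reduction of an integral cusp form is a regular differential, in characteristic `3`. -/
theorem exists_regular_reduction_three (hA : A.LiesOverPrime 3) (hN : ¬ 3 ∣ N)
    (g : ↥(intLattice N 2)) :
    haveI := GalCommon.isAlgClosed_residueField A (Fact.out : Nat.Prime 3) hA
    haveI := Reduction.isFF_fullC_residue N A hA hN
    ∃ ω ∈ FF.differentialsGE (0 : Divisor kA (modularFunctionFieldFullC kA N)),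
      psi kA N ω = coeffMap (Int.castRingHom kA) (formSeries N g) := by
  haveI := GalCommon.isAlgClosed_residueField A (Fact.out : Nat.Prime 3) hA
  haveI := GalCommon.charP_residueField (Fact.out : Nat.Prime 3) hA
  haveI := Reduction.isFF_fullC_residue N A hA hN
  have hred : coeffMap (Int.castRingHom kA) (quotSeries g) * qTheta (jqModC kA) =
      coeffMap (Int.castRingHom kA) (formSeries N g) := by
    rw [← quotSeries_mul_qTheta, map_mul, coeffMap_qTheta, coeffMap_jqModC]
  rcases eq_or_ne g 0 with rfl | hg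
  · exact ⟨0, zero_mem _, by simp⟩
  obtain ⟨h, hser, hy0, hy⟩ := exists_quotFun_bar g hg
  set S : LaurentSeries A := coeffMap (Int.castRingHom A) (quotSeries g) with hS
  have hSb : coeffMap A.subtype S = (h : LaurentSeries Qb) := by
    rw [hser, hS, coeffMap_coeffMap]
    exact coeffMap_congr (Subsingleton.elim _ _) _
  have hSk : coeffMap (IsLocalRing.residue A) S = coeffMap (Int.castRingHom kA) (quotSeries g) := by
    rw [hS, coeffMap_coeffMap]
    exact coeffMap_congr (Subsingleton.elim _ _) _
  set Sx : integralExp A N := ⟨S, MazurP.mem_integralExp_of_mem_bar A hA hN S (hSb ▸ h.2)⟩ with hSx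
  refine ⟨expToRes A N Sx • KaehlerDifferential.D kA _ (jF N kA), ?_, ?_⟩
  swap
  · rw [psi_smul_D, Reduction.coe_expToRes, ← hred, ← hSk]
    rfl
  rw [FF.mem_differentialsGE_iff]
  rcases eq_or_ne (expToRes A N Sx) 0 with he | he
  · exact Or.inl (smul_eq_zero_of_left he _)
  right
  have e1 : expToBar A N Sx = h := Subtype.ext hSb
  have e2 : expToBar A N (jExp A N) = ModularPlaces.jB N :=
    Subtype.ext (Reduction.coe_jParam A N)
  set Y : integralExp A N := Sx ^ 6 * jExp A N ^ 4 * (jExp A N - 1728) ^ 3 with hY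
  have hbar : expToBar A N Y = h ^ 6 * ModularPlaces.jB N ^ 4 *
      (ModularPlaces.jB N - algebraMap Qb (modularFunctionFieldBar N) 1728) ^ 3 := by
    rw [hY]
    simp only [map_mul, map_pow, map_sub, map_ofNat, e1, e2]
  have h1728 : (1728 : kA) = 0 := by
    rw [show (1728 : kA) = 3 * 576 by norm_num, natCast_three, zero_mul]
  have hres : expToRes A N Y = expToRes A N Sx ^ 6 * jF N kA ^ 4 * jF N kA ^ 3 := by
    have e3 : expToRes A N (jExp A N) = jF N kA :=
      Subtype.ext (coeffMap_jqModC (IsLocalRing.residue A))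
    rw [hY]
    simp only [map_mul, map_pow, map_sub, e3]
    rw [show expToRes A N (1728 : integralExp A N) = 0 by
      rw [map_ofNat, ← map_ofNat (algebraMap kA (modularFunctionFieldFullC kA N)) 1728, h1728,
        map_zero], sub_zero]
  have hj0 : jF N kA ≠ 0 := fun e => Reduction.transcendental_jF N kA (e ▸ isAlgebraic_zero)
  have hY0 : expToRes A N Y ≠ 0 := by
    rw [hres]
    exact mul_ne_zero (mul_ne_zero (pow_ne_zero _ he) (pow_ne_zero _ hj0)) (pow_ne_zero _ hj0)
  have hh0 : h ≠ 0 := fun e => hy0 (by rw [e]; simp)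
  have hsep := MazurP.isSep_jF A hA hN
  have hD := FF.D_ne_zero_of_isSep hsep
  intro Q
  rw [Finsupp.zero_apply, FF.ordDifferential_smul_of_ne_zero Q he hD]
  have hQ := ord_reduced_sixth A hA hN Y hY0
    (fun v => by rw [hbar, jParam_eq_jB A]; exact hy v) Q
  rw [hres, Q.ord_mul (mul_ne_zero (pow_ne_zero _ he) (pow_ne_zero _ hj0)) (pow_ne_zero _ hj0),
    Q.ord_mul (pow_ne_zero _ he) (pow_ne_zero _ hj0), FF.ord_pow, FF.ord_pow, FF.ord_pow] at hQ
  push_cast at hQ
  have h1 := FF.ord_sub_one_le_ordDifferential_D Q hD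
  rcases lt_trichotomy (Q.ord (jF N kA)) 0 with hneg | hzero | hpos
  · have := hQ.2 hneg
    omega
  · have := hQ.1 hzero.ge
    have := FF.ordDifferential_D_nonneg Q hzero.ge
    omega
  have hjb : ModularPlaces.jB N ≠ 0 := fun e =>
    ModularPlaces.transcendental_jB N (e ▸ isAlgebraic_zero)
  have hjb1 : ModularPlaces.jB N - algebraMap Qb (modularFunctionFieldBar N) 1728 ≠ 0 := fun e =>
    ModularPlaces.transcendental_jB N (by rw [sub_eq_zero.mp e]; exact isAlgebraic_algebraMap _)
  obtain ⟨a, b, hab1, hab2, hab⟩ := fibre_bound A hA hN Sx he (e1 ▸ hh0) (fun v hv => by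
    have := (hy v).1 hv
    rw [v.ord_mul (mul_ne_zero (pow_ne_zero _ hh0) (pow_ne_zero _ hjb)) (pow_ne_zero _ hjb1),
      v.ord_mul (pow_ne_zero _ hh0) (pow_ne_zero _ hjb), FF.ord_pow, FF.ord_pow, FF.ord_pow]
      at this
    push_cast at this
    rw [e1]
    linarith) Q hpos.le
  have hd6 := ord_jF_dvd_six hA hN Q hpos
  obtain ⟨n, hn⟩ := Int.eq_ofNat_of_zero_le hpos.le
  rw [hn] at hd6
  have hn6 : n ∈ Nat.divisors 6 := Nat.mem_divisors.mpr ⟨Int.natCast_dvd_natCast.mp hd6, by norm_num⟩
  rw [show Nat.divisors 6 = {1, 2, 3, 6} by decide] at hn6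
  simp only [Finset.mem_insert, Finset.mem_singleton] at hn6
  rcases hn6 with rfl | rfl | rfl | rfl
  · omega
  · omega
  · have := ord_le_ordDifferential_of_dvd (p := 3) Q hj0 (by rw [hn]) hD
    omega
  -- order six: pull back to level `2 N`
  have h7 : 7 ≤ Q.ordDifferential (KaehlerDifferential.D kA _ (jF N kA)) := by
    haveI : NeZero (N * 2) := ⟨mul_ne_zero (NeZero.ne N) two_ne_zero⟩
    have hN2 : ¬ 3 ∣ N * 2 := fun h =>
      ((Nat.Prime.dvd_mul Nat.prime_three).mp h).elim hN (by norm_num)
    haveI := Reduction.isFF_fullC_residue (N * 2) A hA hN2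
    set φ := Kronecker.alphaC kA N 2
    have hφ : φ.toRingHom.IsIntegral := FF.isIntegral_alongFF φ
    have hj : φ (jF N kA) = jF (N * 2) kA := Subtype.ext (Kronecker.coe_alphaC _ N 2 _)
    have hsep2 : SeparableAlong kA φ := by
      refine Kronecker.separableAlong_of_adjoin _ (jF N kA) ?_
      rw [hj]
      exact Reduction.isSeparable_fullC_residue (N * 2) A hA hN2
    obtain ⟨w, hw⟩ := FF.exists_restrictAlong_eq φ hφ hsep2 Q
    have hord : ∀ x, w.ord (φ x) = (w.ramificationIndexAlong φ : ℤ) * Q.ord x := fun x => by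
      rw [Place.ord_restrictAlong φ hφ, hw]
    have hpk := FF.ramificationIndexAlong_pos φ hφ w
    have hk := hord (jF N kA)
    rw [hj, hn] at hk
    have hwpos : 0 < w.ord (jF (N * 2) kA) := by
      rw [hk]; exact mul_pos (by exact_mod_cast hpk) (by norm_num)
    have h6 := Int.le_of_dvd (by norm_num) (ord_jF_dvd_six hA hN2 w hwpos)
    have hk1 : (w.ramificationIndexAlong φ : ℤ) = 1 := by omega
    rw [← ordDifferential_D_of_unramified φ Q w (fun x => by rw [hord, hk1, one_mul]), hj]
    exact seven_le_ordDifferential hA hN2 (dvd_mul_left 2 N) w (by rw [hk, hk1]; rfl)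
  omega

/-- Without residues the logarithmic derivative is the reduction of a cusp form. -/
theorem exists_redComb_eq_qDlog_three (hA : A.LiesOverPrime 3) (hN : ¬ 3 ∣ N)
    {ι : Type} [Fintype ι] (b : Module.Basis ι ℤ ↥(intLattice N 2))
    (f : modularFunctionFieldFullC kA N) (hf : f ≠ 0)
    (hord : ∀ v : Place kA (modularFunctionFieldFullC kA N), (3 : ℤ) ∣ v.ord f) :
    ∃ c : ι → kA, redComb b 1 c = qDlog (f : LaurentSeries kA) := by
  haveI := GalCommon.isAlgClosed_residueField A (Fact.out : Nat.Prime 3) hA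
  haveI := GalCommon.charP_residueField (Fact.out : Nat.Prime 3) hA
  haveI := Reduction.isFF_fullC_residue N A hA hN
  choose ω hω hψ using fun i => exists_regular_reduction_three A hA hN (b i)
  have hsum : ∀ c : ι → kA, psi kA N (∑ i, c i • ω i) = redComb b 1 c := fun c => by
    rw [map_sum]
    refine Finset.sum_congr rfl fun i _ => ?_
    rw [psi_smul_const, hψ, latAct, map_one, Module.End.one_apply]
    rfl
  let w : ι → ↥(FF.differentialsGE (0 : Divisor kA (modularFunctionFieldFullC kA N))) :=
    fun i => ⟨ω i, hω i⟩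
  have hli : LinearIndependent kA w := by
    rw [Fintype.linearIndependent_iff]
    intro c hc i
    have h : ∑ i, c i • ω i = 0 := by
      have := congrArg Subtype.val hc
      simp only [w, AddSubmonoidClass.coe_finsetSum, SetLike.val_smul, ZeroMemClass.coe_zero] at this
      exact this
    refine congrFun (redComb_eq_zero (b := b) (p := 3) c ?_) i
    rw [← hsum, h, map_zero]
  have hle : genusFF kA (modularFunctionFieldFullC kA N) ≤ Fintype.card ι := by
    refine le_trans ?_ (finrank_cuspForm_le_card (b := b))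
    refine le_trans (Reduction.genusFF_fullC_residue_le N A hA hN) (le_of_eq ?_)
    rw [ModularDiff.finrank_cuspForm_eq_genusFF]
    exact_mod_cast (ModularPlaces.genusFF_bar N).trans (ModularPlaces.genusFF_FC N).symm
  have hspan : Submodule.span kA (Set.range w) = ⊤ :=
    hli.span_eq_top_of_card_eq_finrank' (le_antisymm hli.fintype_card_le_finrank
      (by rw [FF.finrank_differentialsGE_zero]; exact hle))
  obtain ⟨c, hc⟩ := (Submodule.mem_span_range_iff_exists_fun kA).mp
    (hspan ▸ Submodule.mem_top : (⟨_, dlog_regular A hA hN f hf hord⟩ :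
      ↥(FF.differentialsGE (0 : Divisor kA (modularFunctionFieldFullC kA N)))) ∈ _)
  refine ⟨c, ?_⟩
  have h := congrArg Subtype.val hc
  simp only [w, AddSubmonoidClass.coe_finsetSum, SetLike.val_smul] at h
  rw [← hsum, h, psi_smul_D, qDlog, div_eq_inv_mul]
  rfl

/-- An eigen logarithmic derivative with orders divisible by `3` gives a system of level `N`. -/
theorem isResiduallyModularOfLevel_of_qDlog_three (W : WeierstrassCurve ℤ) (hN : ¬ 3 ∣ N)
    (hA : A.LiesOverPrime 3) (f : modularFunctionFieldFullC kA N)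
    (hord : ∀ v : Place kA (modularFunctionFieldFullC kA N), (3 : ℤ) ∣ v.ord f)
    (hθ : qTheta (f : LaurentSeries kA) ≠ 0)
    (heig : ∀ ℓ : ℕ, ℓ.Prime → W.IsGoodPrimeFor ℓ → ¬ ℓ ∣ N → ℓ ≠ 3 →
      IsHeckeEigen (qDlog (f : LaurentSeries kA)) ℓ (W.apOfModel ℓ)) :
    W.IsResiduallyModularOfLevel 3 N := by
  haveI := GalCommon.charP_residueField (Fact.out : Nat.Prime 3) hA
  haveI := intLattice.moduleFinite N
  haveI := intLattice.moduleFree N
  set b := Module.Free.chooseBasis ℤ ↥(intLattice N 2)
  have hf : f ≠ 0 := fun e => hθ (by rw [e]; exact qTheta_zero)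
  have hfs : (f : LaurentSeries kA) ≠ 0 := fun e => hf (Subtype.ext e)
  have hc := exists_redComb_eq_qDlog_three A hA hN b f hf hord
  have hs : qDlog (f : LaurentSeries kA) ≠ 0 := div_ne_zero hθ hfs
  set G : Set (Reps.TZ N) := {t | ∃ (ℓ : ℕ) (hℓ : ℓ.Prime) (hℓN : ¬ ℓ ∣ N),
    W.IsGoodPrimeFor ℓ ∧ ℓ ≠ 3 ∧ t = Reps.heckeTOf hℓ hℓN}
  obtain ⟨χ, hχ⟩ := exists_system (b := b) hs hc G fun t ⟨ℓ, hℓ, hℓN, hg, hne, e⟩ =>
    ⟨_, e ▸ isEigenOn_T hℓ hℓN _ (heig ℓ hℓ hg hℓN hne)⟩
  refine isResiduallyModularOfLevel_of_hom W (Subring.closure G) χ fun ℓ hℓ hℓN hg hne => ?_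
  have hmem : Reps.heckeTOf hℓ hℓN ∈ G := ⟨ℓ, hℓ, hℓN, hg, hne, rfl⟩
  exact ⟨Subring.subset_closure hmem,
    (hχ ⟨_, Subring.subset_closure hmem⟩).unique hs hc
      (isEigenOn_T hℓ hℓN _ (heig ℓ hℓ hg hℓN hne))⟩

end FLTAgent.AtP
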